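import Mathlib.NumberTheory.NumberField.CanonicalEmbedding.FundamentalCone
import Mathlib.Analysis.SpecialFunctions.Log.Basic

/-!
A Lipschitz partition of unity for the action of the unit group on the mixed space of a number
field, replacing the fundamental cone.
-/

set_option autoImplicit false
set_option maxSynthPendingDepth 3

namespace FLTAgent.Chebotarev

open NumberField NumberField.InfinitePlace NumberField.mixedEmbedding
open NumberField.Units NumberField.Units.dirichletUnitTheorem Module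
open scoped Classical

variable (K : Type*) [Field K] [NumberField K]

/-- The tent function. -/
noncomputable def tent (t : ℝ) : ℝ := max 0 (1 - |t|)

lemma tent_nonneg (t : ℝ) : 0 ≤ tent t := le_max_left _ _

lemma tent_le_one (t : ℝ) : tent t ≤ 1 := max_le zero_le_one (by linarith [abs_nonneg t])

lemma abs_tent_sub_le (s t : ℝ) : |tent s - tent t| ≤ |s - t| := by
  refine (abs_max_sub_max_le_abs (1 - |s|) (1 - |t|) 0).trans_eq' ?_ |>.trans ?_
  · simp [tent, max_comm]
  · rw [show (1 - |s|) - (1 - |t|) = |t| - |s| by ring]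
    exact (abs_abs_sub_abs_le_abs_sub t s).trans_eq (abs_sub_comm t s)

lemma abs_le_one_of_tent_ne_zero {t : ℝ} (h : tent t ≠ 0) : |t| ≤ 1 := by
  by_contra! hlt
  exact h (max_eq_left (by linarith))

lemma abs_prod_sub_prod_le {ι : Type*} (s : Finset ι) (f g : ι → ℝ)
    (hf : ∀ i, f i ∈ Set.Icc (0 : ℝ) 1) (hg : ∀ i, g i ∈ Set.Icc (0 : ℝ) 1) :
    |∏ i ∈ s, f i - ∏ i ∈ s, g i| ≤ ∑ i ∈ s, |f i - g i| := by
  classical
  induction s using Finset.induction_on with
  | empty => simp
  | insert a s ha ih =>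
    rw [Finset.prod_insert ha, Finset.prod_insert ha, Finset.sum_insert ha]
    have h1 : |∏ i ∈ s, g i| ≤ 1 := by
      rw [abs_of_nonneg (Finset.prod_nonneg fun i _ ↦ (hg i).1)]
      exact Finset.prod_le_one (fun i _ ↦ (hg i).1) (fun i _ ↦ (hg i).2)
    calc |f a * ∏ i ∈ s, f i - g a * ∏ i ∈ s, g i|
        = |f a * (∏ i ∈ s, f i - ∏ i ∈ s, g i) + (f a - g a) * ∏ i ∈ s, g i| := by congr 1; ring
      _ ≤ |f a| * |∏ i ∈ s, f i - ∏ i ∈ s, g i| + |f a - g a| * |∏ i ∈ s, g i| := by
        rw [← abs_mul, ← abs_mul]; exact abs_add_le _ _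
      _ ≤ 1 * (∑ i ∈ s, |f i - g i|) + |f a - g a| * 1 := by
        gcongr
        rw [abs_of_nonneg (hf a).1]; exact (hf a).2
      _ = |f a - g a| + ∑ i ∈ s, |f i - g i| := by ring

lemma sum_tent_int (t : ℝ) : HasSum (fun n : ℤ ↦ tent (t + n)) 1 := by
  have h0 : 0 ≤ t - ⌊t⌋ := by linarith [Int.floor_le t]
  have h1 : t - ⌊t⌋ < 1 := by linarith [Int.lt_floor_add_one t]
  have hval : ∑ n ∈ ({-⌊t⌋, -⌊t⌋ - 1} : Finset ℤ), tent (t + n) = 1 := by
    rw [Finset.sum_pair (by omega)]
    simp only [tent, Int.cast_neg, Int.cast_sub, Int.cast_one]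
    rw [abs_of_nonneg (show (0:ℝ) ≤ t + -(⌊t⌋ : ℝ) by linarith),
      abs_of_nonpos (show t + (-(⌊t⌋ : ℝ) - 1) ≤ 0 by linarith),
      max_eq_right (by linarith), max_eq_right (by linarith)]
    ring
  rw [← hval]
  refine hasSum_sum_of_ne_finset_zero fun n hn ↦ ?_
  by_contra hne
  simp only [Finset.mem_insert, Finset.mem_singleton, not_or] at hn
  rcases lt_or_gt_of_ne hn.1 with hlt | hgt
  · have h2 : ((n : ℤ) : ℝ) ≤ ((-⌊t⌋ - 2 : ℤ) : ℝ) := by exact_mod_cast (by omega : n ≤ -⌊t⌋ - 2)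
    push_cast at h2
    exact hne (max_eq_left (by
      rw [abs_of_nonpos (by linarith : t + (n : ℝ) ≤ 0)]; linarith))
  · have h2 : ((-⌊t⌋ + 1 : ℤ) : ℝ) ≤ ((n : ℤ) : ℝ) := by exact_mod_cast (by omega : -⌊t⌋ + 1 ≤ n)
    push_cast at h2
    exact hne (max_eq_left (by
      rw [abs_of_nonneg (by linarith : (0:ℝ) ≤ t + (n : ℝ))]; linarith))

variable {K}

/-- Logarithmic coordinates with respect to the fundamental system of units. -/
noncomputable def coord (x : mixedSpace K) (j : Fin (rank K)) : ℝ :=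
  ((basisUnitLattice K).ofZLatticeBasis ℝ (unitLattice K)).repr (logMap x) j

/-- The cutoff function. -/
noncomputable def cutoff (x : mixedSpace K) : ℝ := ∏ j, tent (coord x j)

lemma cutoff_nonneg (x : mixedSpace K) : 0 ≤ cutoff x :=
  Finset.prod_nonneg fun _ _ ↦ tent_nonneg _

lemma cutoff_le_one (x : mixedSpace K) : cutoff x ≤ 1 :=
  Finset.prod_le_one (fun _ _ ↦ tent_nonneg _) fun _ _ ↦ tent_le_one _

variable (K) in
/-- The points whose coordinates at all places are comparable to the norm. -/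
def balanced (c : ℝ) : Set (mixedSpace K) :=
  {x | ∀ w, c * ‖x‖ ≤ normAtPlace w x}

lemma normAtPlace_le_norm (w : InfinitePlace K) (x : mixedSpace K) : normAtPlace w x ≤ ‖x‖ := by
  rw [norm_eq_sup'_normAtPlace]
  exact Finset.le_sup' (fun w ↦ normAtPlace w x) (Finset.mem_univ w)

lemma abs_normAtPlace_sub_le (w : InfinitePlace K) (x y : mixedSpace K) :
    |normAtPlace w x - normAtPlace w y| ≤ ‖x - y‖ := by
  rw [abs_sub_le_iff]
  constructor
  · have h := normAtPlace_add_le w (x - y) y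
    rw [sub_add_cancel] at h
    linarith [normAtPlace_le_norm w (x - y)]
  · have h := normAtPlace_add_le w (y - x) x
    rw [sub_add_cancel] at h
    linarith [normAtPlace_le_norm w (y - x), norm_sub_rev x y]

lemma log_norm_eq_sum {x : mixedSpace K} (hx : mixedEmbedding.norm x ≠ 0) :
    Real.log (mixedEmbedding.norm x) =
      ∑ w : InfinitePlace K, (mult w : ℝ) * Real.log (normAtPlace w x) := by
  rw [mixedEmbedding.norm_apply, Real.log_prod]
  · exact Finset.sum_congr rfl fun w _ ↦ by rw [Real.log_pow]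
  · exact fun w _ ↦ pow_ne_zero _ (mixedEmbedding.norm_ne_zero_iff.mp hx w)

lemma finrank_eq_sum_mult : ((finrank ℚ K : ℕ) : ℝ) = ∑ w : InfinitePlace K, (mult w : ℝ) := by
  exact_mod_cast (InfinitePlace.sum_mult_eq (K := K)).symm

variable (K) in
/-- The cutoff is supported on balanced points. -/
theorem exists_balanced_of_cutoff_ne_zero : ∃ c > 0, ∀ x : mixedSpace K,
    mixedEmbedding.norm x ≠ 0 → cutoff x ≠ 0 → x ∈ balanced K c := by
  classical
  let B := (basisUnitLattice K).ofZLatticeBasis ℝ (unitLattice K)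
  set C : ℝ := ∑ j, ‖B j‖ with hC
  refine ⟨Real.exp (-(2 * (Fintype.card (InfinitePlace K) + 1) * C)), Real.exp_pos _, ?_⟩
  intro x hx hcut w
  have hC0 : 0 ≤ C := Finset.sum_nonneg fun _ _ ↦ norm_nonneg _
  have hj : ∀ j, |coord x j| ≤ 1 := fun j ↦
    abs_le_one_of_tent_ne_zero ((Finset.prod_ne_zero_iff.mp hcut) j (Finset.mem_univ _))
  have hlog : ‖logMap x‖ ≤ C := by
    rw [← B.sum_repr (logMap x)]
    refine (norm_sum_le _ _).trans (Finset.sum_le_sum fun j _ ↦ ?_)
    rw [_root_.norm_smul, Real.norm_eq_abs]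
    exact mul_le_of_le_one_left (norm_nonneg _) (hj j)
  set a : InfinitePlace K → ℝ := fun v ↦ Real.log (normAtPlace v x) -
    Real.log (mixedEmbedding.norm x) * (finrank ℚ K : ℝ)⁻¹ with ha
  have hsum : ∑ v : InfinitePlace K, (mult v : ℝ) * a v = 0 := by
    simp only [ha, mul_sub, Finset.sum_sub_distrib]
    rw [← Finset.sum_mul, ← log_norm_eq_sum hx, ← finrank_eq_sum_mult]
    have : (0 : ℝ) < (finrank ℚ K : ℝ) := Nat.cast_pos.mpr finrank_pos
    field_simp
    ring
  have hne : ∀ v : InfinitePlace K, v ≠ w₀ → |(mult v : ℝ) * a v| ≤ C := fun v hv ↦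
    ((norm_le_pi_norm (logMap x) ⟨v, hv⟩).trans hlog :)
  have hall : ∀ v : InfinitePlace K, |(mult v : ℝ) * a v| ≤
      (Fintype.card (InfinitePlace K) + 1) * C := by
    intro v
    rcases eq_or_ne v w₀ with rfl | hv
    · rw [← Finset.add_sum_erase _ _ (Finset.mem_univ (w₀ : InfinitePlace K)),
        add_eq_zero_iff_eq_neg] at hsum
      rw [hsum, abs_neg]
      refine (Finset.abs_sum_le_sum_abs _ _).trans ((Finset.sum_le_sum fun u hu ↦
        hne u (Finset.ne_of_mem_erase hu)).trans ?_)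
      rw [Finset.sum_const, nsmul_eq_mul]
      gcongr
      rw [Finset.card_erase_of_mem (Finset.mem_univ _), Finset.card_univ]
      exact_mod_cast Nat.le_succ_of_le (Nat.sub_le _ _)
    · refine (hne v hv).trans ?_
      exact le_mul_of_one_le_left hC0 (by linarith [(Fintype.card (InfinitePlace K)).cast_nonneg (α := ℝ)])
  have hmain : ∀ v : InfinitePlace K, |a v| ≤ (Fintype.card (InfinitePlace K) + 1) * C := by
    intro v
    refine le_trans ?_ (hall v)
    rw [abs_mul, Nat.abs_cast]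
    refine le_mul_of_one_le_left (abs_nonneg _) ?_
    exact_mod_cast mult_pos
  obtain ⟨v₁, -, hv₁⟩ := Finset.exists_mem_eq_sup' (Finset.univ_nonempty (α := InfinitePlace K))
    (fun v ↦ normAtPlace v x)
  rw [norm_eq_sup'_normAtPlace, hv₁]
  have hpos : ∀ v, 0 < normAtPlace v x := fun v ↦
    (normAtPlace_nonneg v x).lt_of_ne' (mixedEmbedding.norm_ne_zero_iff.mp hx v)
  calc Real.exp (-(2 * (Fintype.card (InfinitePlace K) + 1) * C)) * normAtPlace v₁ x
      ≤ Real.exp (a w - a v₁) * normAtPlace v₁ x := by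
        gcongr
        · exact (hpos v₁).le
        · linarith [abs_le.mp (hmain w), abs_le.mp (hmain v₁)]
    _ = normAtPlace w x := by
        rw [show a w - a v₁ = Real.log (normAtPlace w x) - Real.log (normAtPlace v₁ x) by
          simp [ha], Real.exp_sub, Real.exp_log (hpos _), Real.exp_log (hpos _),
          div_mul_cancel₀ _ (hpos v₁).ne']

lemma norm_pos_of_normAtPlace_ge {m : ℝ} (hm : 0 < m) {x : mixedSpace K}
    (hx : ∀ w, m ≤ normAtPlace w x) : 0 < mixedEmbedding.norm x := by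
  rw [mixedEmbedding.norm_apply]
  exact Finset.prod_pos fun w _ ↦ pow_pos (hm.trans_le (hx w)) _

lemma abs_log_normAtPlace_sub_le {m : ℝ} (hm : 0 < m) {x y : mixedSpace K}
    (hx : ∀ w, m ≤ normAtPlace w x) (hy : ∀ w, m ≤ normAtPlace w y) (w : InfinitePlace K) :
    |Real.log (normAtPlace w x) - Real.log (normAtPlace w y)| ≤ ‖x - y‖ / m := by
  have key : ∀ u v : ℝ, m ≤ u → m ≤ v → Real.log u - Real.log v ≤ |u - v| / m := by
    intro u v hu hv
    rw [← Real.log_div (by linarith) (by linarith)]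
    refine (Real.log_le_sub_one_of_pos (div_pos (by linarith) (by linarith))).trans ?_
    rw [div_sub_one (by linarith)]
    calc (u - v) / v ≤ |u - v| / v :=
          div_le_div_of_nonneg_right (le_abs_self _) (by linarith)
      _ ≤ |u - v| / m := div_le_div_of_nonneg_left (abs_nonneg _) hm hv
  rw [abs_sub_le_iff]
  constructor
  · exact (key _ _ (hx w) (hy w)).trans (by gcongr; exact abs_normAtPlace_sub_le w x y)
  · exact (key _ _ (hy w) (hx w)).trans
      (by gcongr; rw [norm_sub_rev]; exact abs_normAtPlace_sub_le w y x)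

variable (K) in
/-- Lipschitz bound for the logarithm of the norm and the cutoff away from the hyperplanes. -/
theorem exists_lipschitz : ∃ L ≥ 0, ∀ (m : ℝ), 0 < m → ∀ x y : mixedSpace K,
    (∀ w, m ≤ normAtPlace w x) → (∀ w, m ≤ normAtPlace w y) →
      |Real.log (mixedEmbedding.norm x) - Real.log (mixedEmbedding.norm y)| ≤ L * (‖x - y‖ / m) ∧
      |cutoff x - cutoff y| ≤ L * (‖x - y‖ / m) := by
  classical
  let B := (basisUnitLattice K).ofZLatticeBasis ℝ (unitLattice K)
  let φ : (logSpace K) →L[ℝ] (Fin (rank K) → ℝ) :=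
    LinearMap.toContinuousLinearMap (B.equivFun : logSpace K →ₗ[ℝ] _)
  set d : ℝ := (finrank ℚ K : ℝ) with hd
  have hd0 : 0 < d := Nat.cast_pos.mpr finrank_pos
  refine ⟨d + rank K * (‖φ‖ * (d * 2)), by positivity, fun m hm x y hx hy ↦ ?_⟩
  set δ := ‖x - y‖ / m with hδ
  have hδ0 : 0 ≤ δ := by positivity
  have hnx := norm_pos_of_normAtPlace_ge hm hx
  have hny := norm_pos_of_normAtPlace_ge hm hy
  have hN : |Real.log (mixedEmbedding.norm x) - Real.log (mixedEmbedding.norm y)| ≤ d * δ := by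
    rw [log_norm_eq_sum hnx.ne', log_norm_eq_sum hny.ne', ← Finset.sum_sub_distrib,
      hd, finrank_eq_sum_mult, Finset.sum_mul]
    refine (Finset.abs_sum_le_sum_abs _ _).trans (Finset.sum_le_sum fun w _ ↦ ?_)
    rw [← mul_sub, abs_mul, Nat.abs_cast]
    gcongr
    exact abs_log_normAtPlace_sub_le hm hx hy w
  refine ⟨hN.trans (by gcongr; exact le_add_of_nonneg_right (by positivity)), ?_⟩
  have hlm : ‖logMap x - logMap y‖ ≤ d * 2 * δ := by
    rw [pi_norm_le_iff_of_nonneg (by positivity)]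
    intro w
    rw [Pi.sub_apply, Real.norm_eq_abs, logMap_apply, logMap_apply, ← mul_sub, abs_mul,
      Nat.abs_cast]
    have hmult : (mult w.1 : ℝ) ≤ d := by
      rw [hd, finrank_eq_sum_mult]
      exact Finset.single_le_sum (fun v _ ↦ (Nat.cast_nonneg (mult v) : (0:ℝ) ≤ _))
        (Finset.mem_univ w.1)
    have h2 : |(Real.log (normAtPlace w.1 x) - Real.log (mixedEmbedding.norm x) * d⁻¹) -
        (Real.log (normAtPlace w.1 y) - Real.log (mixedEmbedding.norm y) * d⁻¹)| ≤ 2 * δ := by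
      rw [show ∀ a b a' b' : ℝ, (a - b * d⁻¹) - (a' - b' * d⁻¹) = (a - a') - (b - b') * d⁻¹ by
        intros; ring]
      refine (abs_sub _ _).trans ?_
      rw [two_mul, abs_mul, abs_inv, abs_of_pos hd0]
      refine add_le_add (abs_log_normAtPlace_sub_le hm hx hy _) ?_
      rw [← div_eq_mul_inv, div_le_iff₀ hd0, mul_comm δ d]
      exact hN
    calc (mult w.1 : ℝ) * _ ≤ d * (2 * δ) := mul_le_mul hmult h2 (abs_nonneg _) hd0.le
      _ = d * 2 * δ := by ring
  refine (abs_prod_sub_prod_le _ _ _ (fun j ↦ ⟨tent_nonneg _, tent_le_one _⟩)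
    (fun j ↦ ⟨tent_nonneg _, tent_le_one _⟩)).trans ?_
  calc ∑ j, |tent (coord x j) - tent (coord y j)| ≤ ∑ _j : Fin (rank K), ‖φ‖ * (d * 2 * δ) := by
        refine Finset.sum_le_sum fun j _ ↦ (abs_tent_sub_le _ _).trans ?_
        calc |coord x j - coord y j| = ‖φ (logMap x - logMap y) j‖ := by
              simp [φ, coord, B, Real.norm_eq_abs]
          _ ≤ ‖φ (logMap x - logMap y)‖ := norm_le_pi_norm _ j
          _ ≤ ‖φ‖ * ‖logMap x - logMap y‖ := φ.le_opNorm _
          _ ≤ ‖φ‖ * (d * 2 * δ) := by gcongr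
    _ = rank K * (‖φ‖ * (d * 2)) * δ := by simp; ring
    _ ≤ _ := by gcongr; exact le_add_of_nonneg_left hd0.le

/-- The coordinates of the translate by a unit. -/
lemma coord_unit_smul (u : (𝓞 K)ˣ) {x : mixedSpace K} (hx : mixedEmbedding.norm x ≠ 0)
    (j : Fin (rank K)) :
    coord (u • x) j =
      coord x j + ((basisModTorsion K).repr (Additive.ofMul (QuotientGroup.mk u)) j : ℝ) := by
  have hu : logEmbedding K (Additive.ofMul u) ∈ unitLattice K := ⟨_, trivial, rfl⟩
  rw [coord, coord, logMap_unit_smul u hx, map_add, Finsupp.add_apply, add_comm]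
  congr 1
  rw [show logEmbedding K (Additive.ofMul u) = ((⟨_, hu⟩ : unitLattice K) : logSpace K) from rfl,
    Module.Basis.ofZLatticeBasis_repr_apply]
  congr 1
  rw [basisUnitLattice, Module.Basis.map_repr, LinearEquiv.trans_apply]
  congr 2
  rw [LinearEquiv.symm_apply_eq]
  exact Subtype.ext (logEmbeddingEquiv_apply K u).symm

variable (K) in
/-- Exponents of a unit modulo torsion. -/
noncomputable def unitExp : ((𝓞 K)ˣ ⧸ torsion K) ≃ (Fin (rank K) → ℤ) :=
  Additive.ofMul.trans ((basisModTorsion K).equivFun.toEquiv)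

variable (K) in
/-- A unit as a class modulo torsion and a torsion element. -/
noncomputable def unitSplit : (𝓞 K)ˣ ≃ ((𝓞 K)ˣ ⧸ torsion K) × torsion K :=
  Subgroup.groupEquivQuotientProdSubgroup

lemma unitSplit_fst (u : (𝓞 K)ˣ) : (unitSplit K u).1 = QuotientGroup.mk u := rfl

lemma unitExp_mk (u : (𝓞 K)ˣ) (j : Fin (rank K)) :
    unitExp K (QuotientGroup.mk u) j =
      (basisModTorsion K).repr (Additive.ofMul (QuotientGroup.mk u)) j := rfl

/-- The translates of the cutoff by the units sum to the order of the torsion group. -/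
theorem hasSum_cutoff_unit_smul {x : mixedSpace K} (hx : mixedEmbedding.norm x ≠ 0) :
    HasSum (fun u : (𝓞 K)ˣ ↦ cutoff (u • x)) (torsionOrder K) := by
  classical
  have hprod : HasSum (fun n : Fin (rank K) → ℤ ↦ ∏ j, tent (coord x j + n j)) 1 := by
    let S : Fin (rank K) → Finset ℤ := fun j ↦ {-⌊coord x j⌋, -⌊coord x j⌋ - 1}
    have hzero : ∀ (j : Fin (rank K)) (n : ℤ), n ∉ S j → tent (coord x j + n) = 0 := by
      intro j n hn
      have h0 := Int.floor_le (coord x j)
      have h1 := Int.lt_floor_add_one (coord x j)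
      simp only [S, Finset.mem_insert, Finset.mem_singleton, not_or] at hn
      refine max_eq_left ?_
      rcases lt_or_gt_of_ne hn.1 with hlt | hgt
      · have h2 : ((n : ℤ) : ℝ) ≤ ((-⌊coord x j⌋ - 2 : ℤ) : ℝ) := by
          exact_mod_cast (by omega : n ≤ -⌊coord x j⌋ - 2)
        push_cast at h2
        rw [abs_of_nonpos (by linarith : coord x j + (n : ℝ) ≤ 0)]; linarith
      · have h2 : ((-⌊coord x j⌋ + 1 : ℤ) : ℝ) ≤ ((n : ℤ) : ℝ) := by
          exact_mod_cast (by omega : -⌊coord x j⌋ + 1 ≤ n)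
        push_cast at h2
        rw [abs_of_nonneg (by linarith : (0:ℝ) ≤ coord x j + (n : ℝ))]; linarith
    have h1 : ∀ j, ∑ n ∈ S j, tent (coord x j + n) = 1 := fun j ↦
      (hasSum_sum_of_ne_finset_zero (hzero j)).unique (sum_tent_int _)
    have h2 : ∑ n ∈ Fintype.piFinset S, ∏ j, tent (coord x j + n j) = 1 := by
      exact (Finset.prod_univ_sum S fun j (n : ℤ) ↦ tent (coord x j + n)).symm.trans
        (Finset.prod_eq_one fun j _ ↦ h1 j)
    rw [← h2]
    refine hasSum_sum_of_ne_finset_zero fun n hn ↦ ?_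
    rw [Fintype.mem_piFinset, not_forall] at hn
    obtain ⟨j, hj⟩ := hn
    exact Finset.prod_eq_zero (Finset.mem_univ j) (hzero j _ hj)
  have hq : HasSum (fun v : (𝓞 K)ˣ ⧸ torsion K ↦ ∏ j, tent (coord x j + (unitExp K v j : ℝ))) 1 :=
    ((unitExp K).hasSum_iff (f := fun n : Fin (rank K) → ℤ ↦ ∏ j, tent (coord x j + n j))).mpr
      hprod
  have hfun : (fun u : (𝓞 K)ˣ ↦ cutoff (u • x)) =
      (fun vt : ((𝓞 K)ˣ ⧸ torsion K) × torsion K ↦
        ∏ j, tent (coord x j + (unitExp K vt.1 j : ℝ))) ∘ unitSplit K := by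
    funext u
    simp only [cutoff, Function.comp_apply]
    refine Finset.prod_congr rfl fun j _ ↦ ?_
    rw [coord_unit_smul u hx, unitSplit_fst, unitExp_mk]
  rw [hfun]
  refine ((unitSplit K).hasSum_iff (f := fun vt : ((𝓞 K)ˣ ⧸ torsion K) × torsion K ↦
        ∏ j, tent (coord x j + (unitExp K vt.1 j : ℝ)))).mpr ?_
  refine ((Equiv.prodComm (torsion K) ((𝓞 K)ˣ ⧸ torsion K)).hasSum_iff
    (f := fun vt : ((𝓞 K)ˣ ⧸ torsion K) × torsion K ↦
        ∏ j, tent (coord x j + (unitExp K vt.1 j : ℝ)))).mp ?_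
  have hs : Summable (fun tv : torsion K × ((𝓞 K)ˣ ⧸ torsion K) ↦
      ∏ j, tent (coord x j + (unitExp K tv.2 j : ℝ))) := by
    rw [summable_prod_of_nonneg (fun _ ↦ Finset.prod_nonneg fun _ _ ↦ tent_nonneg _)]
    exact ⟨fun _ ↦ hq.summable, .of_finite⟩
  have htot : ∑' tv : torsion K × ((𝓞 K)ˣ ⧸ torsion K),
      ∏ j, tent (coord x j + (unitExp K tv.2 j : ℝ)) = (torsionOrder K : ℝ) := by
    have := Fintype.ofFinite (torsion K)
    rw [hs.tsum_prod, tsum_congr (fun _ : torsion K ↦ hq.tsum_eq), tsum_fintype]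
    simp [torsionOrder, Nat.card_eq_fintype_card]
  exact htot ▸ hs.hasSum

end FLTAgent.Chebotarev
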