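import Mathlib.Analysis.SpecialFunctions.Pow.Real
import Mathlib.Analysis.SpecialFunctions.Pow.Continuity
import Mathlib.Analysis.Normed.Group.FunctionSeries
import Mathlib.Algebra.Module.ZLattice.Summable
import Mathlib.LinearAlgebra.FreeModule.IdealQuotient
import Fermat.Agent.Chebotarev.Cutoff

/-!
Sums of the weight function over the integers of a number field: replacing a periodic coefficient
by its mean costs a continuous error on `[1, 2]`.
-/

set_option autoImplicit false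
set_option maxSynthPendingDepth 3

namespace FLTAgent.Chebotarev

open NumberField NumberField.InfinitePlace NumberField.mixedEmbedding
open scoped Classical

variable {K : Type*} [Field K] [NumberField K]

/-- The image of an algebraic integer in the mixed space. -/
noncomputable abbrev emb (γ : 𝓞 K) : mixedSpace K := mixedEmbedding K (γ : K)

/-- The product of the signs at the real places. -/
noncomputable def realSign (x : mixedSpace K) : ℝ := ∏ w, if x.1 w < 0 then -1 else 1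

/-- The weight of a point: cutoff times `norm ^ (-s)`, times `ε` on negative points. -/
noncomputable def weight (ε : ℂ) (s : ℝ) (x : mixedSpace K) : ℂ :=
  (if realSign x < 0 then ε else 1) * ((cutoff x * mixedEmbedding.norm x ^ (-s) : ℝ) : ℂ)

lemma norm_sign_le {ε : ℂ} (hε : ‖ε‖ ≤ 1) (x : mixedSpace K) :
    ‖(if realSign x < 0 then ε else 1)‖ ≤ 1 := by
  split_ifs <;> simp [hε]

lemma weight_eq_zero {ε : ℂ} {s : ℝ} (hs : 0 < s) {x : mixedSpace K}
    (h : mixedEmbedding.norm x = 0 ∨ cutoff x = 0) : weight ε s x = 0 := by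
  rcases h with h | h <;> simp [weight, h, Real.zero_rpow (by linarith : -s ≠ 0)]

lemma norm_weight_le {ε : ℂ} (hε : ‖ε‖ ≤ 1) (s : ℝ) (x : mixedSpace K) :
    ‖weight ε s x‖ ≤ cutoff x * mixedEmbedding.norm x ^ (-s) := by
  rw [weight, norm_mul, Complex.norm_real, Real.norm_eq_abs,
    abs_of_nonneg (mul_nonneg (cutoff_nonneg x) (Real.rpow_nonneg (mixedEmbedding.norm_nonneg x) _))]
  exact mul_le_of_le_one_left
    (mul_nonneg (cutoff_nonneg x) (Real.rpow_nonneg (mixedEmbedding.norm_nonneg x) _))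
    (norm_sign_le hε x)

lemma norm_weight_le_crude {ε : ℂ} (hε : ‖ε‖ ≤ 1) {s : ℝ} (hs : s ∈ Set.Icc (1 : ℝ) 2)
    (x : mixedSpace K) :
    ‖weight ε s x‖ ≤ mixedEmbedding.norm x ^ (-1 : ℝ) + mixedEmbedding.norm x ^ (-2 : ℝ) := by
  refine (norm_weight_le hε s x).trans ((mul_le_of_le_one_left
    (Real.rpow_nonneg (mixedEmbedding.norm_nonneg x) _) (cutoff_le_one x)).trans ?_)
  have h0 := mixedEmbedding.norm_nonneg x
  rcases h0.eq_or_lt with h | h
  · rw [← h, Real.zero_rpow (by linarith [hs.1] : -s ≠ 0)]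
    positivity
  rcases le_or_gt 1 (mixedEmbedding.norm x) with h1 | h1
  · exact (Real.rpow_le_rpow_of_exponent_le h1 (by linarith [hs.1])).trans
      (le_add_of_nonneg_right (Real.rpow_nonneg h0 _))
  · exact (Real.rpow_le_rpow_of_exponent_ge h h1.le (by linarith [hs.2])).trans
      (le_add_of_nonneg_left (Real.rpow_nonneg h0 _))

lemma pow_finrank_le_norm {m : ℝ} (hm : 0 ≤ m) {x : mixedSpace K}
    (hx : ∀ w, m ≤ normAtPlace w x) :
    m ^ Module.finrank ℚ K ≤ mixedEmbedding.norm x := by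
  rw [mixedEmbedding.norm_apply, ← InfinitePlace.sum_mult_eq, ← Finset.prod_pow_eq_pow_sum]
  exact Finset.prod_le_prod (fun w _ ↦ pow_nonneg hm _) fun w _ ↦ pow_le_pow_left₀ hm (hx w) _

lemma abs_exp_sub_exp_le {u v M : ℝ} (hu : u ≤ M) (hv : v ≤ M) :
    |Real.exp u - Real.exp v| ≤ |u - v| * Real.exp M := by
  have key : ∀ u v : ℝ, u ≤ M → Real.exp u - Real.exp v ≤ |u - v| * Real.exp M := by
    intro u v hu
    have h1 := Real.add_one_le_exp (v - u)
    have h2 : Real.exp v = Real.exp u * Real.exp (v - u) := by rw [← Real.exp_add]; ring_nf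
    calc Real.exp u - Real.exp v = Real.exp u * (1 - Real.exp (v - u)) := by rw [h2]; ring
      _ ≤ Real.exp u * |u - v| := by
          gcongr; linarith [le_abs_self (u - v)]
      _ ≤ Real.exp M * |u - v| := by gcongr
      _ = |u - v| * Real.exp M := mul_comm _ _
  rw [abs_sub_le_iff]
  exact ⟨key u v hu, by rw [abs_sub_comm]; exact key v u hv⟩

variable (K) in
/-- Away from a bounded set the weight varies like `‖x‖ ^ (-(d + 1))`. -/
theorem exists_norm_weight_sub_le (ε : ℂ) (hε : ‖ε‖ ≤ 1) (a : mixedSpace K) :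
    ∃ C R : ℝ, 0 ≤ C ∧ ∀ s ∈ Set.Icc (1 : ℝ) 2, ∀ x : mixedSpace K, R ≤ ‖x‖ →
      ‖weight ε s (x + a) - weight ε s x‖ ≤
        C * ‖x‖ ^ (-((Module.finrank ℚ K : ℝ) + 1)) := by
  obtain ⟨c₀, hc₀, hbal⟩ := exists_balanced_of_cutoff_ne_zero K
  obtain ⟨L, hL, hlip⟩ := exists_lipschitz K
  set c := min c₀ 1
  have hc : 0 < c := lt_min hc₀ one_pos
  have hc1 : c ≤ 1 := min_le_right _ _
  set d := Module.finrank ℚ K with hd
  set δ := ‖a‖ with hδ
  refine ⟨3 * L * δ * (4 / c) ^ (d + 1), (4 * δ + 4) / c, by positivity, ?_⟩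
  intro s hs x hx
  have hx4 : 4 * δ + 4 ≤ c * ‖x‖ := by rw [div_le_iff₀ hc] at hx; linarith
  have hxpos : 0 < ‖x‖ := lt_of_lt_of_le (div_pos (by positivity) hc) hx
  have hδx : 4 * δ + 4 ≤ ‖x‖ := hx4.trans (mul_le_of_le_one_left hxpos.le hc1)
  have hRHS : 0 ≤ 3 * L * δ * (4 / c) ^ (d + 1) * ‖x‖ ^ (-((d : ℝ) + 1)) := by positivity
  by_cases h1 : (mixedEmbedding.norm x = 0 ∨ cutoff x = 0) ∧
      (mixedEmbedding.norm (x + a) = 0 ∨ cutoff (x + a) = 0)
  · rw [weight_eq_zero (by linarith [hs.1]) h1.1, weight_eq_zero (by linarith [hs.1]) h1.2,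
      sub_zero, norm_zero]
    exact hRHS
  have hz : ∀ w, c * ‖x‖ / 2 ≤ normAtPlace w x ∨ c * ‖x‖ / 2 ≤ normAtPlace w (x + a) := by
    intro w
    simp only [not_and_or, not_or] at h1
    rcases h1 with h | h
    · left
      have h' : c₀ * ‖x‖ ≤ normAtPlace w x := hbal x h.1 h.2 w
      have : c * ‖x‖ ≤ c₀ * ‖x‖ := by gcongr; exact min_le_left _ _
      linarith [mul_nonneg hc.le hxpos.le]
    · right
      have h' : c₀ * ‖x + a‖ ≤ normAtPlace w (x + a) := hbal _ h.1 h.2 w
      have h2 : ‖x‖ / 2 ≤ ‖x + a‖ := by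
        have h3 := norm_sub_norm_le x (-a)
        rw [sub_neg_eq_add, norm_neg] at h3
        linarith [norm_nonneg a]
      calc c * ‖x‖ / 2 = c * (‖x‖ / 2) := by ring
        _ ≤ c₀ * ‖x + a‖ := mul_le_mul (min_le_left _ _) h2 (by positivity) hc₀.le
        _ ≤ _ := h'
  set m := c * ‖x‖ / 4 with hm
  have hm1 : δ + 1 ≤ m := by rw [hm]; linarith
  have hmpos : 0 < m := by linarith [norm_nonneg a]
  have hdist : ∀ w, |normAtPlace w (x + a) - normAtPlace w x| ≤ δ := fun w ↦ by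
    simpa using abs_normAtPlace_sub_le w (x + a) x
  have hmx : ∀ w, m ≤ normAtPlace w x := fun w ↦ by
    rcases hz w with h | h
    · rw [hm]; linarith [mul_nonneg hc.le hxpos.le]
    · linarith [abs_le.mp (hdist w)]
  have hmy : ∀ w, m ≤ normAtPlace w (x + a) := fun w ↦ by
    rcases hz w with h | h
    · linarith [abs_le.mp (hdist w)]
    · rw [hm]; linarith [mul_nonneg hc.le hxpos.le]
  have hsgn : realSign (x + a) = realSign x := by
    refine Finset.prod_congr rfl fun w _ ↦ ?_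
    have h2 : δ + 1 ≤ |x.1 w| := by
      refine hm1.trans ?_
      simpa [normAtPlace_apply_of_isReal w.2] using hmx w.1
    have h3 : |a.1 w| ≤ δ := (norm_le_pi_norm a.1 w).trans (norm_fst_le a)
    refine if_congr ?_ rfl rfl
    show x.1 w + a.1 w < 0 ↔ x.1 w < 0
    rcases abs_cases (x.1 w) with ⟨e, h0⟩ | ⟨e, h0⟩
    · constructor <;> intro h <;> linarith [abs_le.mp h3]
    · constructor <;> intro h <;> linarith [abs_le.mp h3]
  obtain ⟨hlN, hlc⟩ := hlip m hmpos (x + a) x hmy hmx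
  rw [show (x + a) - x = a by abel] at hlN hlc
  have hNx := norm_pos_of_normAtPlace_ge hmpos hmx
  have hNy := norm_pos_of_normAtPlace_ge hmpos hmy
  have hM : ∀ y : mixedSpace K, (∀ w, m ≤ normAtPlace w y) →
      -s * Real.log (mixedEmbedding.norm y) ≤ -((d : ℝ) * Real.log m) := by
    intro y hy
    have h2 : (d : ℝ) * Real.log m ≤ Real.log (mixedEmbedding.norm y) := by
      rw [← Real.log_pow]
      exact Real.log_le_log (pow_pos hmpos _) (pow_finrank_le_norm hmpos.le hy)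
    have h3 : 0 ≤ Real.log m := Real.log_nonneg (by linarith [norm_nonneg a])
    nlinarith [hs.1, mul_nonneg (Nat.cast_nonneg d : (0 : ℝ) ≤ d) h3]
  have hpw : ∀ y : mixedSpace K, 0 < mixedEmbedding.norm y →
      mixedEmbedding.norm y ^ (-s) = Real.exp (-s * Real.log (mixedEmbedding.norm y)) := fun y hy ↦ by
    rw [Real.rpow_def_of_pos hy, mul_comm]
  have hexpM : Real.exp (-((d : ℝ) * Real.log m)) = (m ^ d)⁻¹ := by
    rw [Real.exp_neg, ← Real.log_pow, Real.exp_log (pow_pos hmpos _)]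
  rw [weight, weight, hsgn, ← mul_sub, norm_mul, ← Complex.ofReal_sub, Complex.norm_real,
    Real.norm_eq_abs]
  refine (mul_le_of_le_one_left (abs_nonneg _) (norm_sign_le hε x)).trans ?_
  set P := mixedEmbedding.norm (x + a) ^ (-s) with hP
  set Q := mixedEmbedding.norm x ^ (-s) with hQ
  have hPle : P ≤ (m ^ d)⁻¹ := by
    rw [hP, hpw _ hNy, ← hexpM]; exact Real.exp_le_exp.mpr (hM _ hmy)
  have hP0 : 0 ≤ P := Real.rpow_nonneg hNy.le _
  have hPQ : |P - Q| ≤ 2 * (L * (δ / m)) * (m ^ d)⁻¹ := by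
    rw [hP, hQ, hpw _ hNy, hpw _ hNx, ← hexpM]
    refine (abs_exp_sub_exp_le (hM _ hmy) (hM _ hmx)).trans ?_
    gcongr
    rw [← mul_sub, abs_mul, abs_neg, abs_of_nonneg (by linarith [hs.1])]
    exact mul_le_mul hs.2 hlN (abs_nonneg _) zero_le_two
  calc |cutoff (x + a) * P - cutoff x * Q|
      = |(cutoff (x + a) - cutoff x) * P + cutoff x * (P - Q)| := by congr 1; ring
    _ ≤ |cutoff (x + a) - cutoff x| * P + cutoff x * |P - Q| := by
        refine (abs_add_le _ _).trans_eq ?_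
        rw [abs_mul, abs_mul, abs_of_nonneg hP0, abs_of_nonneg (cutoff_nonneg x)]
    _ ≤ L * (δ / m) * (m ^ d)⁻¹ + 1 * (2 * (L * (δ / m)) * (m ^ d)⁻¹) := by
        gcongr
        exact cutoff_le_one x
    _ = 3 * L * δ * (m ^ (d + 1))⁻¹ := by rw [pow_succ]; field_simp; ring
    _ = 3 * L * δ * (4 / c) ^ (d + 1) * ‖x‖ ^ (-((d : ℝ) + 1)) := by
        rw [Real.rpow_neg hxpos.le, show ((d : ℝ) + 1) = ((d + 1 : ℕ) : ℝ) by push_cast; ring,
          Real.rpow_natCast, hm, div_pow, div_pow, mul_pow]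
        field_simp

/-- Sums of powers of the norm over the integers converge. -/
theorem summable_norm_emb_rpow {r : ℝ} (hr : r < -(Module.finrank ℚ K : ℝ)) :
    Summable fun γ : 𝓞 K ↦ ‖emb γ‖ ^ r := by
  let L := mixedEmbedding.integerLattice K
  have hrank : Module.finrank ℤ L = Module.finrank ℚ K := by
    rw [ZLattice.rank ℝ L, mixedEmbedding.finrank]
  have h := ZLattice.summable_norm_rpow L r (by rwa [hrank])
  let f : 𝓞 K → L := fun γ ↦ ⟨emb γ, ⟨γ, rfl⟩⟩
  exact h.comp_injective (i := f) fun γ γ' hγ ↦ RingOfIntegers.ext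
    (mixedEmbedding_injective K (congrArg Subtype.val hγ :))

lemma finite_setOf_norm_emb_lt (R : ℝ) : {γ : 𝓞 K | ‖emb γ‖ < R}.Finite := by
  have h := (summable_norm_emb_rpow (K := K) (r := -((Module.finrank ℚ K : ℝ) + 1))
    (by linarith)).tendsto_cofinite_zero
  rcases le_or_gt R 0 with hR | hR
  · exact Set.Finite.subset Set.finite_empty fun γ (hγ : ‖emb γ‖ < R) ↦
      absurd (norm_nonneg (emb γ)) (by linarith)
  have hev := h.eventually (eventually_lt_nhds (Real.rpow_pos_of_pos hR (-((Module.finrank ℚ K : ℝ) + 1))))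
  rw [Filter.eventually_cofinite] at hev
  refine (hev.union (Set.finite_singleton 0)).subset fun γ (hγ : ‖emb γ‖ < R) ↦ ?_
  rcases eq_or_ne γ 0 with rfl | h0
  · exact Or.inr rfl
  left
  rw [Set.mem_setOf_eq, not_lt]
  have hpos : 0 < ‖emb γ‖ := norm_pos_iff.mpr fun h ↦ h0 (RingOfIntegers.ext
    (mixedEmbedding_injective K (by rw [show mixedEmbedding K (γ : K) = 0 from h]; simp)))
  exact Real.rpow_le_rpow_of_nonpos hpos hγ.le (by linarith [(Module.finrank ℚ K).cast_nonneg (α := ℝ)])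

lemma continuous_weight {ε : ℂ} (x : mixedSpace K) :
    ContinuousOn (fun s ↦ weight ε s x) (Set.Ioi 0) := by
  unfold weight
  refine continuousOn_const.mul (Complex.continuous_ofReal.comp_continuousOn
    (continuousOn_const.mul fun s hs ↦ ?_))
  exact ((Real.continuousAt_const_rpow' (neg_ne_zero.mpr (ne_of_gt hs))).comp
    continuousAt_neg).continuousWithinAt

/-- For `s > 1` the weights are summable over the integers. -/
theorem summable_norm_weight {ε : ℂ} (hε : ‖ε‖ ≤ 1) {s : ℝ} (hs : 1 < s) :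
    Summable fun γ : 𝓞 K ↦ ‖weight ε s (emb γ)‖ := by
  obtain ⟨c, hc, hbal⟩ := exists_balanced_of_cutoff_ne_zero K
  set d := Module.finrank ℚ K with hd
  have hd1 : (1 : ℝ) ≤ d := by exact_mod_cast (Module.finrank_pos : 0 < Module.finrank ℚ K)
  refine Summable.of_nonneg_of_le (fun _ ↦ norm_nonneg _) (fun γ ↦ ?_)
    ((summable_norm_emb_rpow (K := K) (r := (d : ℝ) * (-s)) (by rw [← hd]; nlinarith)).mul_left
      ((c ^ d) ^ (-s)))
  by_cases h : mixedEmbedding.norm (emb γ) = 0 ∨ cutoff (emb γ) = 0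
  · rw [weight_eq_zero (by linarith) h, norm_zero]; positivity
  rw [not_or] at h
  refine (norm_weight_le hε s _).trans ((mul_le_of_le_one_left
    (Real.rpow_nonneg (mixedEmbedding.norm_nonneg _) _) (cutoff_le_one _)).trans ?_)
  have hpos : 0 < ‖emb γ‖ := norm_pos_iff.mpr fun h0 ↦ h.1 (by rw [h0, map_zero])
  rw [Real.rpow_natCast_mul hpos.le, ← Real.mul_rpow (by positivity) (by positivity), ← mul_pow]
  exact Real.rpow_le_rpow_of_nonpos (pow_pos (mul_pos hc hpos) d)
    (pow_finrank_le_norm (by positivity) (hbal _ h.1 h.2)) (by linarith)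

variable (J : Ideal (𝓞 K))

/-- The weight summed over an ideal. -/
noncomputable def idealWeightSum (ε : ℂ) (s : ℝ) : ℂ := ∑' γ : J, weight ε s (emb (γ : 𝓞 K))

/-- Shifting by an integer changes the sum over an ideal by a continuous function. -/
theorem exists_continuousOn_shift (ε : ℂ) (hε : ‖ε‖ ≤ 1) (a : 𝓞 K) :
    ∃ E : ℝ → ℂ, ContinuousOn E (Set.Icc 1 2) ∧ ∀ s ∈ Set.Ioc (1 : ℝ) 2,
      HasSum (fun γ : J ↦ weight ε s (emb ((γ : 𝓞 K) + a))) (idealWeightSum J ε s + E s) := by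
  obtain ⟨C, R, hC, hb⟩ := exists_norm_weight_sub_le K ε hε (emb a)
  set d := Module.finrank ℚ K with hd
  let crude : 𝓞 K → ℝ := fun γ ↦
    mixedEmbedding.norm (emb γ) ^ (-1 : ℝ) + mixedEmbedding.norm (emb γ) ^ (-2 : ℝ)
  let bound : 𝓞 K → ℝ := fun γ ↦ if ‖emb γ‖ < R then crude (γ + a) + crude γ
    else C * ‖emb γ‖ ^ (-((d : ℝ) + 1))
  have hadd : ∀ γ : 𝓞 K, emb (γ + a) = emb γ + emb a := fun γ ↦ map_add (mixedEmbedding K) _ _
  have hle : ∀ s ∈ Set.Icc (1 : ℝ) 2, ∀ γ,
      ‖weight ε s (emb (γ + a)) - weight ε s (emb γ)‖ ≤ bound γ := by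
    intro s hs γ
    simp only [bound]
    split_ifs with h
    · exact (norm_sub_le _ _).trans
        (add_le_add (norm_weight_le_crude hε hs _) (norm_weight_le_crude hε hs _))
    · rw [hadd]; exact hb s hs _ (not_lt.mp h)
  have hsum : Summable bound := by
    refine ((summable_norm_emb_rpow (K := K) (r := -((d : ℝ) + 1)) (by rw [hd]; linarith)).mul_left
      C).congr_cofinite ?_
    filter_upwards [(finite_setOf_norm_emb_lt (K := K) R).compl_mem_cofinite] with γ hγ
    simp only [bound, if_neg (show ¬ ‖emb γ‖ < R from hγ)]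
  have hinj : Function.Injective fun γ : J ↦ (γ : 𝓞 K) := Subtype.val_injective
  refine ⟨fun s ↦ ∑' γ : J, (weight ε s (emb ((γ : 𝓞 K) + a)) - weight ε s (emb (γ : 𝓞 K))),
    continuousOn_tsum (fun γ ↦ ?_) (hsum.comp_injective hinj) (fun γ s hs ↦ hle s hs γ), ?_⟩
  · exact ((continuous_weight _).sub (continuous_weight _)).mono fun s hs ↦
      lt_of_lt_of_le one_pos hs.1
  intro s hs
  have hd' : Summable fun γ : J ↦
      weight ε s (emb ((γ : 𝓞 K) + a)) - weight ε s (emb (γ : 𝓞 K)) :=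
    Summable.of_norm_bounded (hsum.comp_injective hinj) fun γ ↦ hle s ⟨hs.1.le, hs.2⟩ γ
  have hW : Summable fun γ : J ↦ weight ε s (emb (γ : 𝓞 K)) :=
    ((summable_norm_weight hε hs.1).comp_injective hinj).of_norm
  have := hW.hasSum.add hd'.hasSum
  simpa [idealWeightSum] using this

/-- A periodic coefficient may be replaced by its sum over a period, up to a continuous error. -/
theorem exists_continuousOn_periodic [Fintype (𝓞 K ⧸ J)] (ε : ℂ) (hε : ‖ε‖ ≤ 1)
    (h : 𝓞 K ⧸ J → ℂ) :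
    ∃ E : ℝ → ℂ, ContinuousOn E (Set.Icc 1 2) ∧ ∀ s ∈ Set.Ioc (1 : ℝ) 2,
      ∑' γ : 𝓞 K, h (Ideal.Quotient.mk J γ) * weight ε s (emb γ) =
        (∑ x, h x) * idealWeightSum J ε s + E s := by
  let rep : 𝓞 K ⧸ J → 𝓞 K := fun x ↦ (Ideal.Quotient.mk_surjective x).choose
  have hrep : ∀ x, Ideal.Quotient.mk J (rep x) = x := fun x ↦
    (Ideal.Quotient.mk_surjective x).choose_spec
  choose E hE hEs using fun x ↦ exists_continuousOn_shift J ε hε (rep x)
  refine ⟨fun s ↦ ∑ x, h x * E x s,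
    continuousOn_finsetSum _ fun x _ ↦ continuousOn_const.mul (hE x), fun s hs ↦ ?_⟩
  let e : (𝓞 K ⧸ J) × J ≃ 𝓞 K :=
    { toFun := fun p ↦ (p.2 : 𝓞 K) + rep p.1
      invFun := fun γ ↦ (Ideal.Quotient.mk J γ, ⟨γ - rep (Ideal.Quotient.mk J γ), by
        rw [← Ideal.Quotient.eq, hrep]⟩)
      left_inv := fun ⟨x, j⟩ ↦ by
        have hx : Ideal.Quotient.mk J ((j : 𝓞 K) + rep x) = x := by
          rw [map_add, Ideal.Quotient.eq_zero_iff_mem.mpr j.2, zero_add, hrep]
        simp only [hx]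
        exact Prod.ext rfl (Subtype.ext (by simp))
      right_inv := fun γ ↦ by simp }
  have hfib : ∀ x, HasSum (fun j : J ↦ h x * weight ε s (emb ((j : 𝓞 K) + rep x)))
      (h x * (idealWeightSum J ε s + E x s)) := fun x ↦ (hEs x s hs).mul_left (h x)
  have hsummable : Summable fun γ : 𝓞 K ↦ h (Ideal.Quotient.mk J γ) * weight ε s (emb γ) := by
    refine Summable.of_norm_bounded ((summable_norm_weight hε hs.1).mul_left (∑ x, ‖h x‖))
      fun γ ↦ ?_
    rw [norm_mul]
    exact mul_le_mul_of_nonneg_right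
      (Finset.single_le_sum (fun x _ ↦ norm_nonneg (h x)) (Finset.mem_univ _)) (norm_nonneg _)
  have hs' : Summable fun c : (𝓞 K ⧸ J) × J ↦
      h (Ideal.Quotient.mk J (e c)) * weight ε s (emb (e c)) := e.summable_iff.mpr hsummable
  rw [← e.tsum_eq, hs'.tsum_prod, tsum_fintype, Finset.sum_mul,
    ← Finset.sum_add_distrib]
  refine Finset.sum_congr rfl fun x _ ↦ ?_
  rw [← mul_add, ← (hfib x).tsum_eq]
  refine tsum_congr fun j ↦ ?_
  show h (Ideal.Quotient.mk J ((j : 𝓞 K) + rep x)) * _ = _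
  rw [map_add, Ideal.Quotient.eq_zero_iff_mem.mpr j.2, zero_add, hrep]
  rfl

end FLTAgent.Chebotarev
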