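import Mathlib.NumberTheory.DirichletCharacter.Bounds
import Mathlib.RingTheory.Norm.Transitivity
import Mathlib.RingTheory.Ideal.Norm.AbsNorm
import Mathlib.RingTheory.Ideal.Quotient.Operations
import Mathlib.NumberTheory.NumberField.ClassNumber
import Fermat.Agent.Chebotarev.LatticeSum

/-!
The Dirichlet series of ideals twisted by a Dirichlet character of the norm converges at `s = 1`,
provided the character is nontrivial on some ideal norm.
-/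

set_option autoImplicit false
set_option maxSynthPendingDepth 3

namespace FLTAgent.Chebotarev

open NumberField NumberField.InfinitePlace NumberField.mixedEmbedding
open NumberField.Units
open scoped Classical nonZeroDivisors

variable {K : Type*} [Field K] [NumberField K]

lemma emb_fst_apply (γ : 𝓞 K) (w : {w : InfinitePlace K // IsReal w}) :
    (emb γ).1 w = embedding_of_isReal w.2 (γ : K) := rfl

/-- The norm of an element is its mixed norm times the product of its real signs. -/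
theorem norm_eq_norm_mul_realSign (γ : 𝓞 K) :
    ((Algebra.norm ℤ γ : ℤ) : ℝ) = mixedEmbedding.norm (emb γ) * realSign (emb γ) := by
  apply Complex.ofReal_injective
  rcases eq_or_ne (γ : K) 0 with h0 | h0
  · have hγ : γ = 0 := RingOfIntegers.ext (by simpa using h0)
    subst hγ
    simp [Algebra.norm_zero]
  have hmain : ((Algebra.norm ℚ (γ : K) : ℚ) : ℂ) = ∏ φ : K →+* ℂ, φ (γ : K) := by
    rw [← eq_ratCast (algebraMap ℚ ℂ), Algebra.norm_eq_prod_embeddings ℚ ℂ (γ : K)]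
    exact Fintype.prod_equiv (RingHom.equivRatAlgHom K ℂ).symm _ _ fun _ ↦ rfl
  rw [← Algebra.coe_norm_int] at hmain
  push_cast at hmain ⊢
  rw [hmain, ← Finset.prod_fiberwise Finset.univ InfinitePlace.mk]
  let t : InfinitePlace K → ℝ := fun w ↦
    if h : IsReal w then (if (emb γ).1 ⟨w, h⟩ < 0 then -1 else 1) else 1
  have ht : realSign (emb γ) = ∏ w, t w := by
    rw [realSign, ← Fintype.prod_subtype_mul_prod_subtype (fun w ↦ IsReal w) t]
    conv_rhs => arg 2; rw [Finset.prod_eq_one fun w _ ↦ dif_neg w.2]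
    rw [mul_one]
    exact Finset.prod_congr rfl fun w _ ↦ by simp only [t, dif_pos w.2]
  rw [ht, mixedEmbedding.norm_apply, ← Complex.ofReal_mul, ← Finset.prod_mul_distrib,
    Complex.ofReal_prod]
  refine Finset.prod_congr rfl fun w _ ↦ ?_
  have hmem : w.embedding ∈ ({φ | InfinitePlace.mk φ = w} : Finset (K →+* ℂ)) := by
    simp [mk_embedding]
  rw [normAtPlace_apply]
  by_cases hw : IsReal w
  · have hc : ({φ | InfinitePlace.mk φ = w} : Finset (K →+* ℂ)).card = 1 := by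
      rw [card_filter_mk_eq, mult, if_pos hw]
    obtain ⟨φ, hφ⟩ := Finset.card_eq_one.mp hc
    rw [hφ, Finset.mem_singleton] at hmem
    rw [hφ, Finset.prod_singleton, ← hmem, mult, if_pos hw, pow_one]
    have hval : w.embedding (γ : K) = (((emb γ).1 ⟨w, hw⟩ : ℝ) : ℂ) :=
      (embedding_of_isReal_apply hw (γ : K)).symm
    have habs : w (γ : K) = |(emb γ).1 ⟨w, hw⟩| := by
      rw [← norm_embedding_eq, hval, Complex.norm_real, Real.norm_eq_abs]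
    rw [hval, habs]
    congr 1
    simp only [t, dif_pos hw]
    split_ifs with hneg
    · rw [abs_of_neg hneg]; ring
    · rw [abs_of_nonneg (not_lt.mp hneg)]; ring
  · have hne : ComplexEmbedding.conjugate w.embedding ≠ w.embedding := fun h ↦
      hw (isReal_iff.mpr h)
    have hset : ({φ | InfinitePlace.mk φ = w} : Finset (K →+* ℂ)) =
        {w.embedding, ComplexEmbedding.conjugate w.embedding} := by
      refine (Finset.eq_of_subset_of_card_le ?_ ?_).symm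
      · intro φ hφ
        simp only [Finset.mem_insert, Finset.mem_singleton] at hφ
        rcases hφ with rfl | rfl <;> simp [mk_embedding, InfinitePlace.mk_conjugate_eq]
      · rw [card_filter_mk_eq, mult, if_neg hw, Finset.card_pair hne.symm]
    rw [hset, Finset.prod_pair hne.symm, ComplexEmbedding.conjugate_coe_eq, Complex.mul_conj',
      norm_embedding_eq, mult, if_neg hw]
    simp [t, dif_neg hw]

lemma norm_mul_realSign_natAbs (γ : 𝓞 K) :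
    mixedEmbedding.norm (emb γ) = ((Algebra.norm ℤ γ).natAbs : ℝ) := by
  rw [Nat.cast_natAbs, Int.cast_abs, norm_eq_norm_mul_realSign, abs_mul,
    abs_of_nonneg (mixedEmbedding.norm_nonneg _)]
  have : |realSign (emb γ)| = 1 := by
    rw [realSign, Finset.abs_prod]
    exact Finset.prod_eq_one fun w _ ↦ by split_ifs <;> simp
  rw [this, mul_one]

lemma realSign_neg_iff {γ : 𝓞 K} (hγ : γ ≠ 0) : realSign (emb γ) < 0 ↔ Algebra.norm ℤ γ < 0 := by
  have hpos : 0 < mixedEmbedding.norm (emb γ) := by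
    rw [norm_mul_realSign_natAbs, Nat.cast_pos, Int.natAbs_pos]
    exact Algebra.norm_ne_zero_iff.mpr hγ
  rw [← @Int.cast_lt_zero ℝ, norm_eq_norm_mul_realSign]
  exact ⟨fun h ↦ mul_neg_of_pos_of_neg hpos h, fun h ↦ by
    by_contra h'
    exact absurd h (not_lt.mpr (mul_nonneg hpos.le (not_lt.mp h')))⟩

/-- The norm is periodic modulo every integer. -/
lemma norm_modEq_of_sub_mem_span {γ γ' : 𝓞 K} {n : ℕ}
    (h : γ - γ' ∈ Ideal.span {(n : 𝓞 K)}) :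
    ((n : ℕ) : ℤ) ∣ Algebra.norm ℤ γ - Algebra.norm ℤ γ' := by
  obtain ⟨β, hβ⟩ := Ideal.mem_span_singleton'.mp h
  let b := RingOfIntegers.basis K
  rw [← ZMod.intCast_zmod_eq_zero_iff_dvd, Int.cast_sub, sub_eq_zero,
    Algebra.norm_eq_matrix_det b, Algebra.norm_eq_matrix_det b, ← eq_intCast (Int.castRingHom _),
    ← eq_intCast (Int.castRingHom _), RingHom.map_det, RingHom.map_det]
  congr 1
  rw [← sub_eq_zero, ← map_sub, ← map_sub, ← hβ, mul_comm, ← Int.cast_natCast,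
    ← zsmul_eq_mul, map_zsmul, map_zsmul]
  ext i j
  simp

variable {M : ℕ}

/-- The summand attached to an ideal. -/
noncomputable def idealTerm (χ : DirichletCharacter ℂ M) (s : ℝ) (I : Ideal (𝓞 K)) : ℂ :=
  χ (Ideal.absNorm I : ZMod M) * (((Ideal.absNorm I : ℝ) ^ (-s) : ℝ) : ℂ)

lemma idealTerm_mul (χ : DirichletCharacter ℂ M) (s : ℝ) (I J : Ideal (𝓞 K)) :
    idealTerm χ s (I * J) = idealTerm χ s I * idealTerm χ s J := by
  rw [idealTerm, idealTerm, idealTerm, map_mul, Nat.cast_mul, map_mul, Nat.cast_mul,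
    Real.mul_rpow (Nat.cast_nonneg _) (Nat.cast_nonneg _), Complex.ofReal_mul]
  ring

lemma norm_dirichletCharacter_neg_one_le (χ : DirichletCharacter ℂ M) : ‖χ (-1)‖ ≤ 1 :=
  DirichletCharacter.norm_le_one χ _

/-- The coefficient attached to an element of the ideal `b`. -/
noncomputable def coeffFun (χ : DirichletCharacter ℂ M) (b Q : Ideal (𝓞 K)) (γ : 𝓞 K) : ℂ :=
  if γ ∈ Q then χ ((Algebra.norm ℤ γ / (Ideal.absNorm b : ℤ) : ℤ) : ZMod M) else 0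

lemma absNorm_dvd_norm {b : Ideal (𝓞 K)} {γ : 𝓞 K} (hγ : γ ∈ b) :
    (Ideal.absNorm b : ℤ) ∣ Algebra.norm ℤ γ := Ideal.absNorm_dvd_norm_of_mem hγ

/-- The fibre identity: weighted sum over elements of `q * b` = sum over ideals in the inverse
class divisible by `q`. -/
theorem hasSum_coeffFun_weight (χ : DirichletCharacter ℂ M) (b q : (Ideal (𝓞 K))⁰)
    {s : ℝ} (hs : 1 < s) :
    Summable (fun I : {I : (Ideal (𝓞 K))⁰ //
        (q : Ideal (𝓞 K)) ∣ I ∧ ClassGroup.mk0 I = (ClassGroup.mk0 b)⁻¹} ↦ idealTerm χ s I.1.1) ∧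
    ∑' γ : 𝓞 K, coeffFun χ (b : Ideal (𝓞 K)) ((q : Ideal (𝓞 K)) * (b : Ideal (𝓞 K))) γ * weight (χ (-1)) s (emb γ) =
      (torsionOrder K : ℂ) * (((Ideal.absNorm (b : Ideal (𝓞 K)) : ℝ) ^ (-s) : ℝ) : ℂ) *
        ∑' I : {I : (Ideal (𝓞 K))⁰ //
          (q : Ideal (𝓞 K)) ∣ I ∧ ClassGroup.mk0 I = (ClassGroup.mk0 b)⁻¹},
            idealTerm χ s I.1.1 := by
  set T := {I : (Ideal (𝓞 K))⁰ //
    (q : Ideal (𝓞 K)) ∣ I ∧ ClassGroup.mk0 I = (ClassGroup.mk0 b)⁻¹} with hT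
  have hprin : ∀ I : T, ∃ g : 𝓞 K, ((I.1 * b : (Ideal (𝓞 K))⁰) : Ideal (𝓞 K)) = Ideal.span {g} := by
    intro I
    have h1 : ClassGroup.mk0 (I.1 * b) = 1 := by rw [map_mul, I.2.2, inv_mul_cancel]
    obtain ⟨g, hg⟩ := ((ClassGroup.mk0_eq_one_iff (SetLike.coe_mem (I.1 * b))).mp h1).principal
    exact ⟨g, hg⟩
  choose g hg using hprin
  have hg0 : ∀ I, g I ≠ 0 := fun I h0 ↦ by
    refine nonZeroDivisors.coe_ne_zero (I.1 * b) ?_
    rw [hg I, h0]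
    simp
  let j : T × (𝓞 K)ˣ → 𝓞 K := fun p ↦ (p.2 : 𝓞 K) * g p.1
  have hspan : ∀ p, Ideal.span {j p} = (p.1.1 : Ideal (𝓞 K)) * (b : Ideal (𝓞 K)) := fun p ↦ by
    rw [Ideal.span_singleton_mul_left_unit p.2.isUnit, ← hg p.1]
    rfl
  have hjinj : Function.Injective j := by
    rintro ⟨I, u⟩ ⟨I', u'⟩ h
    have h1 : (I.1 : Ideal (𝓞 K)) * (b : Ideal (𝓞 K)) = (I'.1 : Ideal (𝓞 K)) * (b : Ideal (𝓞 K)) := by
      rw [← hspan (I, u), ← hspan (I', u'), h]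
    have h2 : I = I' := Subtype.ext (Subtype.ext
      (mul_right_cancel₀ (nonZeroDivisors.coe_ne_zero b) h1))
    subst h2
    simp only [j, mul_eq_mul_right_iff, hg0 I, or_false] at h
    rw [Units.ext h]
  have hjmem : ∀ p, j p ∈ (q : Ideal (𝓞 K)) * (b : Ideal (𝓞 K)) := fun p ↦ by
    have h1 : (p.1.1 : Ideal (𝓞 K)) * (b : Ideal (𝓞 K)) ≤ (q : Ideal (𝓞 K)) * (b : Ideal (𝓞 K)) :=
      Ideal.mul_mono_left (Ideal.le_of_dvd p.1.2.1)
    exact h1 (hspan p ▸ Ideal.mem_span_singleton_self _)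
  have hrange : ∀ γ ∈ (q : Ideal (𝓞 K)) * (b : Ideal (𝓞 K)), γ ≠ 0 → γ ∈ Set.range j := by
    intro γ hγ hγ0
    obtain ⟨a, ha⟩ := Ideal.dvd_iff_le.mpr ((Ideal.span_singleton_le_iff_mem _).mpr hγ)
    have ha0 : a ≠ 0 := by
      rintro rfl
      rw [mul_zero, Ideal.zero_eq_bot, Ideal.span_singleton_eq_bot] at ha
      exact hγ0 ha
    let A : (Ideal (𝓞 K))⁰ := ⟨a, mem_nonZeroDivisors_of_ne_zero ha0⟩
    have hA : ClassGroup.mk0 (q * A * b) = 1 := by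
      rw [ClassGroup.mk0_eq_one_iff (SetLike.coe_mem _)]
      refine ⟨γ, ?_⟩
      change (q : Ideal (𝓞 K)) * a * (b : Ideal (𝓞 K)) = Ideal.span {γ}
      rw [ha]; ring
    let I : T := ⟨q * A, dvd_mul_right _ _, by rw [eq_inv_iff_mul_eq_one, ← map_mul]; exact hA⟩
    have hassoc : Associated (g I) γ := by
      rw [← Ideal.span_singleton_eq_span_singleton, ← hg I]
      change (q : Ideal (𝓞 K)) * a * (b : Ideal (𝓞 K)) = _
      rw [ha]; ring
    obtain ⟨u, hu⟩ := hassoc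
    exact ⟨(I, u), by rw [← hu]; exact mul_comm _ _⟩
  set NB : ℝ := (Ideal.absNorm (b : Ideal (𝓞 K)) : ℝ) ^ (-s) with hNB
  have hNB0 : 0 < NB := Real.rpow_pos_of_pos
    (Nat.cast_pos.mpr (Ideal.absNorm_pos_of_nonZeroDivisors b)) _
  have hbZ : (Ideal.absNorm (b : Ideal (𝓞 K)) : ℤ) ≠ 0 := by
    exact_mod_cast (Ideal.absNorm_pos_of_nonZeroDivisors b).ne'
  have hval : ∀ p, coeffFun χ (b : Ideal (𝓞 K)) ((q : Ideal (𝓞 K)) * (b : Ideal (𝓞 K))) (j p) * weight (χ (-1)) s (emb (j p)) =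
      (NB : ℂ) * idealTerm χ s p.1.1.1 * ((cutoff (p.2 • emb (g p.1)) : ℝ) : ℂ) := by
    intro p
    have hemb : p.2 • emb (g p.1) = emb (j p) := by
      rw [unitSMul_smul, ← map_mul]
      rfl
    have hj0 : j p ≠ 0 := mul_ne_zero p.2.ne_zero (hg0 p.1)
    have hN : (Algebra.norm ℤ (j p)).natAbs =
        Ideal.absNorm (p.1.1 : Ideal (𝓞 K)) * Ideal.absNorm (b : Ideal (𝓞 K)) := by
      rw [← Ideal.absNorm_span_singleton, hspan, map_mul]
    have hdiv : Algebra.norm ℤ (j p) / (Ideal.absNorm (b : Ideal (𝓞 K)) : ℤ) =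
        (if Algebra.norm ℤ (j p) < 0 then -1 else 1) *
          (Ideal.absNorm (p.1.1 : Ideal (𝓞 K)) : ℤ) := by
      refine Int.ediv_eq_of_eq_mul_left hbZ ?_
      rcases lt_or_ge (Algebra.norm ℤ (j p)) 0 with hneg | hpos
      · rw [if_pos hneg, mul_assoc, ← Nat.cast_mul, ← hN, Int.ofNat_natAbs_of_nonpos hneg.le]
        ring
      · rw [if_neg (not_lt.mpr hpos), one_mul, ← Nat.cast_mul, ← hN, Int.natAbs_of_nonneg hpos]
    rw [coeffFun, if_pos (hjmem p), hdiv, weight, norm_mul_realSign_natAbs, hN, hemb, idealTerm,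
      hNB, Nat.cast_mul, Real.mul_rpow (Nat.cast_nonneg _) (Nat.cast_nonneg _)]
    have hsq : χ (-1) * χ (-1) = 1 := by rw [← map_mul, neg_mul_neg, one_mul, map_one]
    simp only [realSign_neg_iff hj0]
    split_ifs <;> push_cast <;> simp only [map_mul, map_one, one_mul]
    · linear_combination (χ ((Ideal.absNorm (p.1.1 : Ideal (𝓞 K)) : ℕ) : ZMod M) *
        ((cutoff (emb (j p)) : ℝ) : ℂ) * (((Ideal.absNorm (p.1.1 : Ideal (𝓞 K)) : ℝ) ^ (-s) : ℝ) : ℂ) *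
        (((Ideal.absNorm (b : Ideal (𝓞 K)) : ℝ) ^ (-s) : ℝ) : ℂ)) * hsq
    · ring
  have hsummable : Summable fun γ : 𝓞 K ↦
      coeffFun χ (b : Ideal (𝓞 K)) ((q : Ideal (𝓞 K)) * (b : Ideal (𝓞 K))) γ * weight (χ (-1)) s (emb γ) := by
    refine Summable.of_norm_bounded
      (summable_norm_weight (norm_dirichletCharacter_neg_one_le χ) hs) fun γ ↦ ?_
    rw [norm_mul]
    refine mul_le_of_le_one_left (norm_nonneg _) ?_
    rw [coeffFun]
    split_ifs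
    · exact DirichletCharacter.norm_le_one χ _
    · simp
  have hsupp : Function.support (fun γ : 𝓞 K ↦
      coeffFun χ (b : Ideal (𝓞 K)) ((q : Ideal (𝓞 K)) * (b : Ideal (𝓞 K))) γ * weight (χ (-1)) s (emb γ)) ⊆ Set.range j := by
    intro γ hγ
    simp only [Function.mem_support, ne_eq, mul_eq_zero, not_or] at hγ
    refine hrange γ ?_ fun h0 ↦ ?_
    · by_contra h
      exact hγ.1 (by rw [coeffFun, if_neg h])
    · subst h0
      exact hγ.2 (weight_eq_zero (by linarith) (Or.inl (by simp)))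
  have hprod : Summable fun p : T × (𝓞 K)ˣ ↦
      (NB : ℂ) * idealTerm χ s p.1.1.1 * ((cutoff (p.2 • emb (g p.1)) : ℝ) : ℂ) :=
    (hsummable.comp_injective hjinj).congr hval
  have hgn : ∀ I : T, mixedEmbedding.norm (emb (g I)) ≠ 0 := fun I h0 ↦ by
    rw [norm_mul_realSign_natAbs, Nat.cast_eq_zero, Int.natAbs_eq_zero,
      Algebra.norm_eq_zero_iff] at h0
    exact hg0 I h0
  have hinner : ∀ I : T, HasSum (fun u : (𝓞 K)ˣ ↦
      (NB : ℂ) * idealTerm χ s I.1.1 * ((cutoff (u • emb (g I)) : ℝ) : ℂ))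
      ((NB : ℂ) * idealTerm χ s I.1.1 * (torsionOrder K : ℂ)) := fun I ↦ by
    refine HasSum.mul_left _ ?_
    rw [show (torsionOrder K : ℂ) = (((torsionOrder K : ℕ) : ℝ) : ℂ) by simp]
    exact Complex.hasSum_ofReal.mpr (hasSum_cutoff_unit_smul (hgn I))
  have hτ : (torsionOrder K : ℂ) ≠ 0 := Nat.cast_ne_zero.mpr (torsionOrder_ne_zero K)
  have hNBC : (NB : ℂ) ≠ 0 := Complex.ofReal_ne_zero.mpr hNB0.ne'
  constructor
  · have h2 := hprod.prod
    have h3 : (fun I : T ↦ ∑' u : (𝓞 K)ˣ,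
        (NB : ℂ) * idealTerm χ s I.1.1 * ((cutoff (u • emb (g I)) : ℝ) : ℂ)) =
        fun I ↦ ((NB : ℂ) * (torsionOrder K : ℂ)) * idealTerm χ s I.1.1 :=
      funext fun I ↦ by rw [(hinner I).tsum_eq]; ring
    rw [h3, summable_mul_left_iff (mul_ne_zero hNBC hτ)] at h2
    exact h2
  rw [← hjinj.tsum_eq hsupp, tsum_congr hval, hprod.tsum_prod,
    tsum_congr fun I ↦ (hinner I).tsum_eq, ← tsum_mul_left]
  exact tsum_congr fun I ↦ by ring

lemma coeffFun_periodic (χ : DirichletCharacter ℂ M) {b Q : Ideal (𝓞 K)} (hb : b ≠ ⊥)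
    {J : Ideal (𝓞 K)} (hJQ : J ≤ Q)
    (hJn : J ≤ Ideal.span {((M * Ideal.absNorm b : ℕ) : 𝓞 K)})
    {γ γ' : 𝓞 K} (h : γ - γ' ∈ J) : coeffFun χ b Q γ = coeffFun χ b Q γ' := by
  have hiff : γ ∈ Q ↔ γ' ∈ Q :=
    ⟨fun hγ ↦ by simpa using sub_mem hγ (hJQ h), fun hγ ↦ by simpa using add_mem (hJQ h) hγ⟩
  by_cases hγ : γ ∈ Q
  · rw [coeffFun, coeffFun, if_pos hγ, if_pos (hiff.mp hγ)]
    congr 1
    obtain ⟨k, hk⟩ := norm_modEq_of_sub_mem_span (hJn h)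
    rw [show Algebra.norm ℤ γ = Algebra.norm ℤ γ' + ((M : ℤ) * k) * (Ideal.absNorm b : ℤ) by
      push_cast at hk; linear_combination hk, Int.add_mul_ediv_right _ _
      (by exact_mod_cast Ideal.absNorm_eq_zero_iff.not.mpr hb)]
    simp
  · rw [coeffFun, coeffFun, if_neg hγ, if_neg (hiff.not.mp hγ)]

/-- The two periodic coefficients have sums over a period differing by the factor `N q`. -/
theorem exists_sum_comparison (χ : DirichletCharacter ℂ M) [NeZero M] (b q : (Ideal (𝓞 K))⁰)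
    (hq : (Ideal.absNorm (q : Ideal (𝓞 K))).Coprime (M * Ideal.absNorm (b : Ideal (𝓞 K)))) :
    ∃ E : ℝ → ℂ, ContinuousOn E (Set.Icc 1 2) ∧ ∀ s ∈ Set.Ioc (1 : ℝ) 2,
      (Ideal.absNorm (q : Ideal (𝓞 K)) : ℂ) *
          ∑' γ : 𝓞 K, coeffFun χ (b : Ideal (𝓞 K)) ((q : Ideal (𝓞 K)) * (b : Ideal (𝓞 K))) γ * weight (χ (-1)) s (emb γ) -
        ∑' γ : 𝓞 K, coeffFun χ (b : Ideal (𝓞 K)) (b : Ideal (𝓞 K)) γ * weight (χ (-1)) s (emb γ) = E s := by
  set Nb := Ideal.absNorm (b : Ideal (𝓞 K)) with hNb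
  set Nq := Ideal.absNorm (q : Ideal (𝓞 K)) with hNq
  set C : Ideal (𝓞 K) := Ideal.span {((M * Nb : ℕ) : 𝓞 K)} with hC
  have hcop : IsCoprime (q : Ideal (𝓞 K)) C := by
    rw [Ideal.isCoprime_iff_exists]
    obtain ⟨u, v, huv⟩ := Nat.Coprime.isCoprime hq
    refine ⟨(u : 𝓞 K) * (Nq : 𝓞 K), Ideal.mul_mem_left _ _ (Ideal.absNorm_mem _),
      (v : 𝓞 K) * ((M * Nb : ℕ) : 𝓞 K), Ideal.mul_mem_left _ _ (Ideal.mem_span_singleton_self _), ?_⟩
    exact_mod_cast congrArg (fun z : ℤ ↦ (z : 𝓞 K)) huv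
  have hCb : C ≤ b := by
    rw [hC, Ideal.span_singleton_le_iff_mem, Nat.cast_mul]
    exact Ideal.mul_mem_left _ _ (Ideal.absNorm_mem _)
  have hC0 : C ≠ ⊥ := by
    rw [hC, Ne, Ideal.span_singleton_eq_bot, Nat.cast_eq_zero]
    exact mul_ne_zero (NeZero.ne M) (Ideal.absNorm_pos_of_nonZeroDivisors b).ne'
  set J : Ideal (𝓞 K) := (q : Ideal (𝓞 K)) * C with hJ
  have hJ0 : J ≠ ⊥ := mul_ne_zero (nonZeroDivisors.coe_ne_zero q) hC0
  have : Fintype (𝓞 K ⧸ J) := @Fintype.ofFinite _ (J.finiteQuotientOfFreeOfNeBot hJ0)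
  have : Fintype (𝓞 K ⧸ (q : Ideal (𝓞 K))) :=
    @Fintype.ofFinite _ (Ideal.finiteQuotientOfFreeOfNeBot _ (nonZeroDivisors.coe_ne_zero q))
  have : Fintype (𝓞 K ⧸ C) := @Fintype.ofFinite _ (C.finiteQuotientOfFreeOfNeBot hC0)
  have hqb : (q : Ideal (𝓞 K)) * (b : Ideal (𝓞 K)) = (q : Ideal (𝓞 K)) ⊓ b :=
    Ideal.mul_eq_inf_of_coprime (Ideal.isCoprime_iff_sup_eq.mp
      (Ideal.isCoprime_iff_sup_eq.mpr (top_le_iff.mp
        ((Ideal.isCoprime_iff_sup_eq.mp hcop).ge.trans (sup_le_sup_left hCb _)))))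
  let rep : 𝓞 K ⧸ J → 𝓞 K := fun x ↦ (Ideal.Quotient.mk_surjective x).choose
  have hrep : ∀ x, Ideal.Quotient.mk J (rep x) = x := fun x ↦
    (Ideal.Quotient.mk_surjective x).choose_spec
  let rC : 𝓞 K ⧸ C → 𝓞 K := fun x ↦ (Ideal.Quotient.mk_surjective x).choose
  have hrC : ∀ x, Ideal.Quotient.mk C (rC x) = x := fun x ↦
    (Ideal.Quotient.mk_surjective x).choose_spec
  have hb0 : (b : Ideal (𝓞 K)) ≠ ⊥ := nonZeroDivisors.coe_ne_zero b
  have hJle : J ≤ C := Ideal.mul_le_right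
  have hper1 : ∀ γ, coeffFun χ (b : Ideal (𝓞 K)) (b : Ideal (𝓞 K)) (rep (Ideal.Quotient.mk J γ)) =
      coeffFun χ (b : Ideal (𝓞 K)) (b : Ideal (𝓞 K)) γ := fun γ ↦
    coeffFun_periodic χ hb0 (hJle.trans hCb) hJle (Ideal.Quotient.eq.mp (hrep _))
  have hperq : ∀ γ, coeffFun χ (b : Ideal (𝓞 K)) ((q : Ideal (𝓞 K)) * (b : Ideal (𝓞 K))) (rep (Ideal.Quotient.mk J γ)) =
      coeffFun χ (b : Ideal (𝓞 K)) ((q : Ideal (𝓞 K)) * (b : Ideal (𝓞 K))) γ := fun γ ↦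
    coeffFun_periodic χ hb0 (Ideal.mul_mono_right hCb) hJle
      (Ideal.Quotient.eq.mp (hrep _))
  obtain ⟨E₁, hE₁, h₁⟩ := exists_continuousOn_periodic J (χ (-1))
    (norm_dirichletCharacter_neg_one_le χ) fun x ↦ coeffFun χ (b : Ideal (𝓞 K)) (b : Ideal (𝓞 K)) (rep x)
  obtain ⟨E₂, hE₂, h₂⟩ := exists_continuousOn_periodic J (χ (-1))
    (norm_dirichletCharacter_neg_one_le χ)
    fun x ↦ coeffFun χ (b : Ideal (𝓞 K)) ((q : Ideal (𝓞 K)) * (b : Ideal (𝓞 K))) (rep x)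
  let e := Ideal.quotientMulEquivQuotientProd (q : Ideal (𝓞 K)) C hcop
  have hfst : ∀ x, (e x).1 = Ideal.Quotient.mk (q : Ideal (𝓞 K)) (rep x) := fun x ↦ by
    conv_lhs => rw [← hrep x]
    rfl
  have hsnd : ∀ x, (e x).2 = Ideal.Quotient.mk C (rep x) := fun x ↦ by
    conv_lhs => rw [← hrep x]
    rfl
  have hψ : ∀ x, coeffFun χ (b : Ideal (𝓞 K)) (b : Ideal (𝓞 K)) (rep x) =
      coeffFun χ (b : Ideal (𝓞 K)) (b : Ideal (𝓞 K)) (rC ((e x).2)) := fun x ↦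
    coeffFun_periodic χ hb0 hCb le_rfl
      (Ideal.Quotient.eq.mp (by rw [hrC, hsnd]))
  have hψq : ∀ x, coeffFun χ (b : Ideal (𝓞 K)) ((q : Ideal (𝓞 K)) * (b : Ideal (𝓞 K))) (rep x) =
      if (e x).1 = 0 then coeffFun χ (b : Ideal (𝓞 K)) (b : Ideal (𝓞 K)) (rC ((e x).2)) else 0 := fun x ↦ by
    rw [← hψ, hfst, Ideal.Quotient.eq_zero_iff_mem]
    simp only [coeffFun, hqb, Submodule.mem_inf]
    split_ifs <;> tauto
  set S₀ : ℂ := ∑ z : 𝓞 K ⧸ C, coeffFun χ (b : Ideal (𝓞 K)) (b : Ideal (𝓞 K)) (rC z) with hS₀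
  have hS1 : ∑ x, coeffFun χ (b : Ideal (𝓞 K)) (b : Ideal (𝓞 K)) (rep x) = (Nq : ℂ) * S₀ := by
    rw [Finset.sum_congr rfl fun x _ ↦ hψ x, Fintype.sum_equiv e.toEquiv _
      (fun p ↦ coeffFun χ (b : Ideal (𝓞 K)) (b : Ideal (𝓞 K)) (rC p.2)) (fun x ↦ rfl),
      Fintype.sum_prod_type]
    dsimp only
    rw [Finset.sum_const, Finset.card_univ, nsmul_eq_mul, hNq, Ideal.absNorm_apply,
      Submodule.cardQuot_apply, Nat.card_eq_fintype_card]
  have hSq : ∑ x, coeffFun χ (b : Ideal (𝓞 K)) ((q : Ideal (𝓞 K)) * (b : Ideal (𝓞 K))) (rep x) = S₀ := by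
    rw [Finset.sum_congr rfl fun x _ ↦ hψq x]
    refine (Fintype.sum_equiv e.toEquiv _ (fun p ↦
        if p.1 = 0 then coeffFun χ (b : Ideal (𝓞 K)) (b : Ideal (𝓞 K)) (rC p.2) else 0)
      (fun x ↦ rfl)).trans ?_
    rw [Fintype.sum_prod_type, Finset.sum_eq_single (0 : 𝓞 K ⧸ (q : Ideal (𝓞 K)))]
    · simp [hS₀]
    · intro y _ hy
      simp [hy]
    · simp
  refine ⟨fun s ↦ (Nq : ℂ) * E₂ s - E₁ s, (continuousOn_const.mul hE₂).sub hE₁, fun s hs ↦ ?_⟩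
  have e1 := h₁ s hs
  have e2 := h₂ s hs
  simp only [hper1, hperq, hS1, hSq] at e1 e2
  rw [e1, e2]
  ring

/-- Summation along the fibres of a map to a finite type. -/
lemma summable_of_fintype_fibres {α β : Type*} [Fintype β] (f : α → ℂ) (cl : α → β)
    (h : ∀ c, Summable fun a : {a // cl a = c} ↦ f a.1) :
    Summable f ∧ ∑' a, f a = ∑ c, ∑' a : {a // cl a = c}, f a.1 := by
  let e := Equiv.sigmaFiberEquiv cl
  have hsig : Summable fun x : Σ c, {a // cl a = c} ↦ f x.2.1 := by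
    refine Summable.of_norm ?_
    rw [summable_sigma_of_nonneg fun _ ↦ norm_nonneg _]
    exact ⟨fun c ↦ (h c).norm, .of_finite⟩
  refine ⟨e.summable_iff.mp hsig, ?_⟩
  rw [← e.tsum_eq f]
  exact (hsig.tsum_sigma' h).trans (tsum_fintype _)

/-- Summability of the twisted series and its convergence as `s → 1`. -/
theorem exists_tendsto_idealSum [NeZero M] (χ : DirichletCharacter ℂ M)
    (hχ : ∀ N : ℕ, N ≠ 0 → ∃ q : (Ideal (𝓞 K))⁰,
      (Ideal.absNorm (q : Ideal (𝓞 K))).Coprime N ∧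
        χ (Ideal.absNorm (q : Ideal (𝓞 K)) : ZMod M) ≠ 1) :
    ∃ l : ℂ, Filter.Tendsto (fun s : ℝ ↦ ∑' I : (Ideal (𝓞 K))⁰, idealTerm χ s I.1)
      (nhdsWithin 1 (Set.Ioi 1)) (nhds l) := by
  have hsurj : ∀ C : ClassGroup (𝓞 K), ∃ b : (Ideal (𝓞 K))⁰, ClassGroup.mk0 b = C⁻¹ :=
    fun C ↦ ClassGroup.mk0_surjective _
  choose b hb using hsurj
  set N₀ : ℕ := M * ∏ C, Ideal.absNorm (b C : Ideal (𝓞 K)) with hN₀
  obtain ⟨q, hqN, hqχ⟩ := hχ N₀ (mul_ne_zero (NeZero.ne M)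
    (Finset.prod_ne_zero_iff.mpr fun C _ ↦ (Ideal.absNorm_pos_of_nonZeroDivisors (b C)).ne'))
  have hcopb : ∀ C, (Ideal.absNorm (q : Ideal (𝓞 K))).Coprime
      (M * Ideal.absNorm (b C : Ideal (𝓞 K))) := fun C ↦
    hqN.coprime_dvd_right (Nat.mul_dvd_mul_left _
      (Finset.dvd_prod_of_mem (fun C ↦ Ideal.absNorm (b C : Ideal (𝓞 K))) (Finset.mem_univ C)))
  choose E hE hEs using fun C ↦ exists_sum_comparison χ (b C) q (hcopb C)
  set Nq : ℂ := (Ideal.absNorm (q : Ideal (𝓞 K)) : ℂ) with hNq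
  let w : ℝ → ClassGroup (𝓞 K) → ℂ := fun s C ↦
    (((Ideal.absNorm (b C : Ideal (𝓞 K)) : ℝ) ^ s : ℝ) : ℂ) / (torsionOrder K : ℂ)
  -- the class decomposition of the sum over multiples of an ideal
  have hdec : ∀ (p : (Ideal (𝓞 K))⁰) (s : ℝ), 1 < s →
      Summable (fun I : {I : (Ideal (𝓞 K))⁰ // (p : Ideal (𝓞 K)) ∣ I} ↦ idealTerm χ s I.1.1) ∧
      ∑' I : {I : (Ideal (𝓞 K))⁰ // (p : Ideal (𝓞 K)) ∣ I}, idealTerm χ s I.1.1 =
        ∑ C, w s C * ∑' γ : 𝓞 K, coeffFun χ (b C : Ideal (𝓞 K)) ((p : Ideal (𝓞 K)) * (b C : Ideal (𝓞 K))) γ *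
          weight (χ (-1)) s (emb γ) := by
    intro p s hs
    have key : ∀ C, Summable (fun I : {I : {I : (Ideal (𝓞 K))⁰ // (p : Ideal (𝓞 K)) ∣ I} //
          ClassGroup.mk0 I.1 = C} ↦ idealTerm χ s I.1.1.1) ∧
        ∑' I : {I : {I : (Ideal (𝓞 K))⁰ // (p : Ideal (𝓞 K)) ∣ I} //
          ClassGroup.mk0 I.1 = C}, idealTerm χ s I.1.1.1 =
          w s C * ∑' γ : 𝓞 K, coeffFun χ (b C : Ideal (𝓞 K)) ((p : Ideal (𝓞 K)) * (b C : Ideal (𝓞 K))) γ *
            weight (χ (-1)) s (emb γ) := by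
      intro C
      obtain ⟨hs1, hs2⟩ := hasSum_coeffFun_weight χ (b C) p hs
      let e : {I : {I : (Ideal (𝓞 K))⁰ // (p : Ideal (𝓞 K)) ∣ I} // ClassGroup.mk0 I.1 = C} ≃
          {I : (Ideal (𝓞 K))⁰ // (p : Ideal (𝓞 K)) ∣ I ∧
            ClassGroup.mk0 I = (ClassGroup.mk0 (b C))⁻¹} :=
        (Equiv.subtypeSubtypeEquivSubtypeInter _ (fun I ↦ ClassGroup.mk0 I = C)).trans
          (Equiv.subtypeEquivRight fun I ↦ by rw [hb, inv_inv])
      have he : ∀ I, (e I).1 = I.1.1 := fun I ↦ rfl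
      have hc := hs1.comp_injective e.injective
      refine ⟨hc.congr fun I ↦ by simp only [Function.comp_apply, he], ?_⟩
      have hτ : (torsionOrder K : ℂ) ≠ 0 := Nat.cast_ne_zero.mpr (torsionOrder_ne_zero K)
      have hpos : (0 : ℝ) < Ideal.absNorm (b C : Ideal (𝓞 K)) :=
        Nat.cast_pos.mpr (Ideal.absNorm_pos_of_nonZeroDivisors (b C))
      rw [hs2, ← e.tsum_eq (fun I ↦ idealTerm χ s I.1.1), Real.rpow_neg hpos.le]
      simp only [he]
      have hne : ((((Ideal.absNorm (b C : Ideal (𝓞 K)) : ℝ) ^ s : ℝ)) : ℂ) ≠ 0 :=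
        Complex.ofReal_ne_zero.mpr (Real.rpow_pos_of_pos hpos s).ne'
      simp only [w, Complex.ofReal_inv]
      field_simp
    obtain ⟨hS, hSeq⟩ := summable_of_fintype_fibres
      (fun I : {I : (Ideal (𝓞 K))⁰ // (p : Ideal (𝓞 K)) ∣ I} ↦ idealTerm χ s I.1.1)
      (fun I ↦ ClassGroup.mk0 I.1) (fun C ↦ (key C).1)
    exact ⟨hS, hSeq.trans (Finset.sum_congr rfl fun C _ ↦ (key C).2)⟩
  set Tsum : ℝ → ℂ := fun s ↦ ∑' I : (Ideal (𝓞 K))⁰, idealTerm χ s I.1 with hTsum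
  set F : ℝ → ℂ := fun s ↦ Nq * idealTerm χ s (q : Ideal (𝓞 K)) - 1 with hF
  have hrel : ∀ s ∈ Set.Ioc (1 : ℝ) 2, F s * Tsum s = ∑ C, w s C * E C s := by
    intro s hs
    obtain ⟨-, hTq⟩ := hdec q s hs.1
    obtain ⟨-, hT1⟩ := hdec 1 s hs.1
    have h1 : ∑' I : {I : (Ideal (𝓞 K))⁰ // ((1 : (Ideal (𝓞 K))⁰) : Ideal (𝓞 K)) ∣ I},
        idealTerm χ s I.1.1 = Tsum s :=
      (Equiv.subtypeUnivEquiv (fun I : (Ideal (𝓞 K))⁰ ↦ by simp)).tsum_eq
        (fun I ↦ idealTerm χ s I.1)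
    have h2 : ∑' I : {I : (Ideal (𝓞 K))⁰ // (q : Ideal (𝓞 K)) ∣ I}, idealTerm χ s I.1.1 =
        idealTerm χ s (q : Ideal (𝓞 K)) * Tsum s := by
      let e : (Ideal (𝓞 K))⁰ ≃ {I : (Ideal (𝓞 K))⁰ // (q : Ideal (𝓞 K)) ∣ I} :=
        (Equiv.dvd q).trans (Equiv.subtypeEquivRight fun I ↦ by rw [← nonZeroDivisors_dvd_iff_dvd_coe])
      rw [← e.tsum_eq, hTsum, ← tsum_mul_left]
      exact tsum_congr fun I ↦ idealTerm_mul χ s _ _
    rw [h1] at hT1
    rw [h2] at hTq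
    simp only [hF]
    rw [sub_mul, one_mul, mul_assoc, hTq, hT1, Finset.mul_sum, ← Finset.sum_sub_distrib]
    refine Finset.sum_congr rfl fun C _ ↦ ?_
    rw [← hEs C s hs]
    simp only [OneMemClass.coe_one, one_mul]
    ring
  have hNqpos : (0 : ℝ) < Ideal.absNorm (q : Ideal (𝓞 K)) :=
    Nat.cast_pos.mpr (Ideal.absNorm_pos_of_nonZeroDivisors q)
  have hnb : nhdsWithin (1 : ℝ) (Set.Ioi 1) ≤ nhdsWithin 1 (Set.Icc 1 2) :=
    nhdsWithin_le_iff.mpr (Filter.mem_of_superset (Ioc_mem_nhdsGT one_lt_two) Set.Ioc_subset_Icc_self)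
  have hcontpow : ∀ a : ℝ, 0 < a →
      Filter.Tendsto (fun s : ℝ ↦ (((a : ℝ) ^ s : ℝ) : ℂ)) (nhdsWithin 1 (Set.Ioi 1)) (nhds (a : ℂ)) := by
    intro a ha
    have h := (Complex.continuous_ofReal.tendsto _).comp
      ((Real.continuousAt_const_rpow (b := 1) ha.ne').tendsto.mono_left
        (nhdsWithin_le_nhds (s := Set.Ioi (1 : ℝ))))
    simpa [Function.comp_def] using h
  have hF1 : Filter.Tendsto F (nhdsWithin 1 (Set.Ioi 1))
      (nhds (χ (Ideal.absNorm (q : Ideal (𝓞 K)) : ZMod M) - 1)) := by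
    have h := ((hcontpow _ hNqpos).inv₀ (Complex.ofReal_ne_zero.mpr hNqpos.ne')).const_mul
      (Nq * χ (Ideal.absNorm (q : Ideal (𝓞 K)) : ZMod M)) |>.sub_const 1
    convert h using 2 with s
    · simp only [hF, idealTerm, Real.rpow_neg hNqpos.le, Complex.ofReal_inv]
      ring
    · have hne : ((Ideal.absNorm (q : Ideal (𝓞 K)) : ℕ) : ℂ) ≠ 0 :=
        Nat.cast_ne_zero.mpr (Ideal.absNorm_pos_of_nonZeroDivisors q).ne'
      rw [hNq, Complex.ofReal_natCast, mul_comm _ (χ _), mul_assoc, mul_inv_cancel₀ hne, mul_one]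
  have hG : ∃ l, Filter.Tendsto (fun s ↦ ∑ C, w s C * E C s) (nhdsWithin 1 (Set.Ioi 1)) (nhds l) :=
    ⟨_, tendsto_finsetSum _ fun C _ ↦ ((hcontpow _ (Nat.cast_pos.mpr
      (Ideal.absNorm_pos_of_nonZeroDivisors (b C)))).div_const _).mul
        ((hE C 1 (Set.left_mem_Icc.mpr one_le_two)).tendsto.mono_left hnb)⟩
  obtain ⟨l, hl⟩ := hG
  refine ⟨_, (hl.div hF1 (sub_ne_zero.mpr hqχ)).congr' ?_⟩
  filter_upwards [Ioc_mem_nhdsGT one_lt_two, hF1.eventually_ne (sub_ne_zero.mpr hqχ)] with s hs hne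
  show (∑ C, w s C * E C s) / F s = _
  rw [← hrel s hs, mul_div_cancel_left₀ _ hne]

end FLTAgent.Chebotarev
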