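import Mathlib.NumberTheory.NumberField.DedekindZeta
import Fermat.Agent.Chebotarev.IdealSum

/-!
The number of ideals of a given norm: multiplicativity, a bound at prime powers, and the passage
from sums over ideals to Dirichlet series.
-/

set_option autoImplicit false
set_option maxSynthPendingDepth 3

namespace FLTAgent.Chebotarev

open NumberField Ideal
open scoped nonZeroDivisors

variable (K : Type*) [Field K] [NumberField K]

/-- The number of ideals of norm `n`. -/
noncomputable def idealCount (n : ℕ) : ℕ := Nat.card {I : Ideal (𝓞 K) // absNorm I = n}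

instance finite_absNorm_eq (n : ℕ) : Finite {I : Ideal (𝓞 K) // absNorm I = n} :=
  (finite_setOfPred_absNorm_eq n).to_subtype

lemma idealCount_one : idealCount K 1 = 1 := by
  have : Subsingleton {I : Ideal (𝓞 K) // absNorm I = 1} :=
    ⟨fun I J ↦ Subtype.ext ((absNorm_eq_one_iff.mp I.2).trans (absNorm_eq_one_iff.mp J.2).symm)⟩
  have : Nonempty {I : Ideal (𝓞 K) // absNorm I = 1} := ⟨⟨⊤, absNorm_top⟩⟩
  exact Nat.card_unique

variable {K}

lemma isCoprime_of_natCast_mem {I J : Ideal (𝓞 K)} {a b : ℕ} (hab : a.Coprime b)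
    (ha : (a : 𝓞 K) ∈ I) (hb : (b : 𝓞 K) ∈ J) : IsCoprime I J := by
  rw [Ideal.isCoprime_iff_exists]
  obtain ⟨u, v, huv⟩ := Int.isCoprime_iff_gcd_eq_one.mpr (show Int.gcd (a : ℤ) b = 1 by simpa using hab)
  refine ⟨(u : 𝓞 K) * a, I.mul_mem_left _ ha, (v : 𝓞 K) * b, J.mul_mem_left _ hb, ?_⟩
  exact_mod_cast congrArg (fun z : ℤ ↦ (z : 𝓞 K)) huv

lemma natCast_absNorm_mem {I : Ideal (𝓞 K)} {n : ℕ} (h : absNorm I = n) : (n : 𝓞 K) ∈ I :=
  h ▸ absNorm_mem I

variable (K)

theorem idealCount_mul {a b : ℕ} (hab : a.Coprime b) :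
    idealCount K (a * b) = idealCount K a * idealCount K b := by
  rw [idealCount, idealCount, idealCount, ← Nat.card_prod]
  refine (Nat.card_eq_of_bijective
    (fun x ↦ ⟨x.1.1 * x.2.1, by rw [map_mul, x.1.2, x.2.2]⟩) ⟨?_, ?_⟩).symm
  · rintro ⟨⟨J, hJ⟩, ⟨J', hJ'⟩⟩ ⟨⟨L, hL⟩, ⟨L', hL'⟩⟩ h
    replace h : J * J' = L * L' := congrArg Subtype.val h
    have hd : ∀ {A B C D : Ideal (𝓞 K)}, A * B = C * D → IsCoprime A D → A ∣ C :=
      fun h hc ↦ hc.dvd_of_dvd_mul_right (h ▸ dvd_mul_right _ _)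
    have cp : ∀ {A B : Ideal (𝓞 K)}, absNorm A = a → absNorm B = b → IsCoprime A B :=
      fun hA hB ↦ isCoprime_of_natCast_mem hab (natCast_absNorm_mem hA) (natCast_absNorm_mem hB)
    have e1 : J = L := dvd_antisymm (hd h (cp hJ hL')) (hd h.symm (cp hL hJ'))
    have e2 : J' = L' := dvd_antisymm
      (hd (by rw [mul_comm, h, mul_comm] : J' * J = L' * L) (cp hL hJ').symm)
      (hd (by rw [mul_comm, ← h, mul_comm] : L' * L = J' * J) (cp hJ hL').symm)
    exact Prod.ext (Subtype.ext e1) (Subtype.ext e2)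
  · rintro ⟨I, hI⟩
    set J := I ⊔ span {(a : 𝓞 K)} with hJdef
    set J' := I ⊔ span {(b : 𝓞 K)} with hJ'def
    have hcop : IsCoprime J J' := isCoprime_of_natCast_mem hab
      (mem_sup_right (mem_span_singleton_self _)) (mem_sup_right (mem_span_singleton_self _))
    have hab' : span {(a : 𝓞 K)} * span {(b : 𝓞 K)} ≤ I := by
      rw [span_singleton_mul_span_singleton, span_singleton_le_iff_mem, ← Nat.cast_mul]
      exact natCast_absNorm_mem hI
    have hle : J * J' ≤ I := by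
      simp only [hJdef, hJ'def, Ideal.sup_mul, Ideal.mul_sup]
      exact sup_le (sup_le Ideal.mul_le_left Ideal.mul_le_right)
        (sup_le Ideal.mul_le_left hab')
    have heq : J * J' = I := le_antisymm hle (by
      rw [Ideal.mul_eq_inf_of_coprime (Ideal.isCoprime_iff_sup_eq.mp hcop)]
      exact le_inf le_sup_left le_sup_left)
    have hd : ∀ c : ℕ, absNorm (I ⊔ span {(c : 𝓞 K)}) ∣ c ^ Module.finrank ℤ (𝓞 K) := fun c ↦ by
      rw [← absNorm_span_natCast]
      exact absNorm_dvd_absNorm_of_le le_sup_right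
    have hprod : absNorm J * absNorm J' = a * b := by rw [← map_mul, heq, hI]
    have h1 : absNorm J ∣ a := (Nat.Coprime.coprime_dvd_left (hd a)
      (hab.pow_left _)).dvd_of_dvd_mul_right (hprod ▸ dvd_mul_right _ _)
    have h2 : absNorm J' ∣ b := (Nat.Coprime.coprime_dvd_left (hd b)
      (hab.symm.pow_left _)).dvd_of_dvd_mul_left (hprod ▸ dvd_mul_left _ _)
    rcases Nat.eq_zero_or_pos a with ha | ha
    · have hb : b = 1 := by subst ha; simpa using hab
      subst ha hb
      have hJ'1 : absNorm J' = 1 := Nat.dvd_one.mp h2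
      exact ⟨(⟨J, by simpa [hJ'1] using hprod⟩, ⟨J', hJ'1⟩), Subtype.ext heq⟩
    · obtain ⟨u, hu⟩ := h1
      obtain ⟨v, hv⟩ := h2
      have hJ0 : 0 < absNorm J := Nat.pos_of_mul_pos_right (hu ▸ ha)
      rcases Nat.eq_zero_or_pos b with hb | hb
      · have ha1 : a = 1 := by subst hb; simpa using hab
        subst hb ha1
        have hJ1 : absNorm J = 1 := Nat.eq_one_of_mul_eq_one_right hu.symm
        exact ⟨(⟨J, hJ1⟩, ⟨J', by simpa [hJ1] using hprod⟩), Subtype.ext heq⟩
      have hJ'0 : 0 < absNorm J' := Nat.pos_of_mul_pos_right (hv ▸ hb)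
      have huv : u * v = 1 := by
        have : absNorm J * absNorm J' * (u * v) = absNorm J * absNorm J' * 1 := by
          rw [mul_one, mul_mul_mul_comm, ← hu, ← hv, hprod]
        exact mul_left_cancel₀ (mul_pos hJ0 hJ'0).ne' this
      rw [Nat.eq_one_of_mul_eq_one_right huv, mul_one] at hu
      rw [Nat.eq_one_of_mul_eq_one_left huv, mul_one] at hv
      exact ⟨(⟨J, hu.symm⟩, ⟨J', hv.symm⟩), Subtype.ext heq⟩

theorem idealCount_prime_pow_le {p : ℕ} (hp : p.Prime) (k : ℕ) :
    idealCount K (p ^ k) ≤ (k + 1) ^ Module.finrank ℚ K := by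
  classical
  set T : Set (Ideal (𝓞 K)) := {P | P.IsPrime ∧ (p : 𝓞 K) ∈ P} with hT
  set d := Module.finrank ℚ K
  have hp0 : span {(p : 𝓞 K)} ≠ ⊥ := by simpa using hp.ne_zero
  have hge : ∀ P ∈ T, p ≤ absNorm P := by
    intro P hP
    obtain ⟨f, -, hf⟩ := (Nat.dvd_prime_pow hp).mp
      ((absNorm_dvd_absNorm_of_le ((span_singleton_le_iff_mem _).mpr hP.2)).trans
        (absNorm_span_natCast p).dvd)
    rcases f with _ | f
    · rw [pow_zero] at hf
      exact absurd (absNorm_eq_one_iff.mp hf) hP.1.ne_top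
    · rw [hf]; exact le_self_pow hp.one_lt.le f.succ_ne_zero
  have hbdd : ∀ S : Finset (Ideal (𝓞 K)), (↑S : Set (Ideal (𝓞 K))) ⊆ T → S.card ≤ d := by
    intro S hS
    have hdvd : ∏ P ∈ S, P ∣ span {(p : 𝓞 K)} := Finset.prod_primes_dvd _
      (fun P hP ↦ prime_of_isPrime (fun h ↦ hp.ne_zero (by simpa [h] using (hS hP).2)) (hS hP).1)
      (fun P hP ↦ dvd_span_singleton.mpr (hS hP).2)
    have h1 : p ^ S.card ≤ absNorm (∏ P ∈ S, P) := by
      rw [map_prod, ← Finset.prod_const]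
      exact Finset.prod_le_prod' fun P hP ↦ hge P (hS hP)
    have h2 : absNorm (∏ P ∈ S, P) ≤ p ^ d := Nat.le_of_dvd (pow_pos hp.pos _) (by
      have := absNorm_dvd_absNorm_of_le (Ideal.le_of_dvd hdvd)
      rwa [absNorm_span_natCast, RingOfIntegers.rank] at this)
    exact (Nat.pow_le_pow_iff_right hp.one_lt).mp (h1.trans h2)
  have hTfin : T.Finite := by
    by_contra h
    obtain ⟨S, hS, hc⟩ := Set.Infinite.exists_subset_card_eq h (d + 1)
    have := hbdd S hS
    omega
  have : Fintype T := hTfin.fintype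
  have hTcard : Fintype.card T ≤ d := by
    rw [← Set.toFinset_card]
    exact hbdd _ (by simp)
  have hfac : ∀ I : {I : Ideal (𝓞 K) // absNorm I = p ^ k},
      ∀ P ∈ UniqueFactorizationMonoid.normalizedFactors I.1, P ∈ T := by
    intro I P hP
    have hPp := UniqueFactorizationMonoid.prime_of_normalized_factor P hP
    have hprime : P.IsPrime := isPrime_of_prime hPp
    refine ⟨hprime, hprime.mem_of_pow_mem k ?_⟩
    have := le_of_dvd (UniqueFactorizationMonoid.dvd_of_mem_normalizedFactors hP)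
      (natCast_absNorm_mem I.2)
    simpa using this
  have hI0 : ∀ I : {I : Ideal (𝓞 K) // absNorm I = p ^ k}, I.1 ≠ 0 := by
    intro I h0
    have := I.2
    rw [h0, map_zero] at this
    exact pow_ne_zero k hp.ne_zero this.symm
  have hcard : ∀ I : {I : Ideal (𝓞 K) // absNorm I = p ^ k},
      Multiset.card (UniqueFactorizationMonoid.normalizedFactors I.1) ≤ k := by
    intro I
    have h1 : p ^ Multiset.card (UniqueFactorizationMonoid.normalizedFactors I.1) ≤
        ((UniqueFactorizationMonoid.normalizedFactors I.1).map absNorm).prod := by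
      rw [← Multiset.prod_replicate, ← Multiset.map_const' _ p]
      exact Multiset.prod_map_le_prod_map _ _ fun P hP ↦ hge P (hfac I P hP)
    rw [← map_multiset_prod, Ideal.prod_normalizedFactors_eq_self (hI0 I), I.2] at h1
    exact (Nat.pow_le_pow_iff_right hp.one_lt).mp h1
  let f : {I : Ideal (𝓞 K) // absNorm I = p ^ k} → (T → Fin (k + 1)) := fun I P ↦
    ⟨(UniqueFactorizationMonoid.normalizedFactors I.1).count P.1,
      Nat.lt_succ_of_le ((Multiset.count_le_card _ _).trans (hcard I))⟩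
  have hf : Function.Injective f := by
    intro I J hIJ
    refine Subtype.ext ?_
    rw [← Ideal.prod_normalizedFactors_eq_self (hI0 I), ← Ideal.prod_normalizedFactors_eq_self (hI0 J)]
    congr 1
    ext P
    by_cases hP : P ∈ T
    · exact congrArg Fin.val (congrFun hIJ ⟨P, hP⟩)
    · rw [Multiset.count_eq_zero.mpr fun h ↦ hP (hfac I P h),
        Multiset.count_eq_zero.mpr fun h ↦ hP (hfac J P h)]
  refine (Nat.card_le_card_of_injective f hf).trans ?_
  rw [Nat.card_eq_fintype_card, Fintype.card_fun, Fintype.card_fin]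
  exact Nat.pow_le_pow_right k.succ_pos hTcard

variable {M : ℕ} (χ : DirichletCharacter ℂ M)

/-- The coefficients of the `L`-series of a Dirichlet character composed with the norm. -/
noncomputable def coeff (n : ℕ) : ℂ :=
  if n = 0 then 0 else χ (n : ZMod M) * (idealCount K n : ℂ)

/-- The `n`-th term of a Dirichlet series at a real argument. -/
noncomputable def term (a : ℕ → ℂ) (s : ℝ) (n : ℕ) : ℂ := a n * (((n : ℝ) ^ (-s) : ℝ) : ℂ)

lemma coeff_zero : coeff K χ 0 = 0 := if_pos rfl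

lemma coeff_one : coeff K χ 1 = 1 := by simp [coeff, idealCount_one]

lemma coeff_mul {a b : ℕ} (hab : a.Coprime b) :
    coeff K χ (a * b) = coeff K χ a * coeff K χ b := by
  simp only [coeff, mul_eq_zero]
  by_cases ha : a = 0
  · simp [ha]
  by_cases hb : b = 0
  · simp [hb]
  simp [ha, hb, idealCount_mul K hab]
  ring

lemma norm_coeff_prime_pow_le {p : ℕ} (hp : p.Prime) (k : ℕ) :
    ‖coeff K χ (p ^ k)‖ ≤ ((k + 1 : ℕ) : ℝ) ^ Module.finrank ℚ K := by
  rw [coeff, if_neg (pow_ne_zero k hp.ne_zero), norm_mul, Complex.norm_natCast]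
  exact (mul_le_of_le_one_left (Nat.cast_nonneg _) (DirichletCharacter.norm_le_one χ _)).trans
    (by exact_mod_cast idealCount_prime_pow_le K hp k)

theorem summable_idealTerm {s : ℝ} (hs : 1 < s) :
    Summable (fun I : (Ideal (𝓞 K))⁰ ↦ idealTerm χ s I.1) := by
  refine (summable_of_fintype_fibres _ (fun I : (Ideal (𝓞 K))⁰ ↦ ClassGroup.mk0 I)
    fun C ↦ ?_).1
  obtain ⟨b, hb⟩ := ClassGroup.mk0_surjective C⁻¹
  obtain ⟨h, -⟩ := hasSum_coeffFun_weight χ b 1 hs
  let e : {I : (Ideal (𝓞 K))⁰ // ClassGroup.mk0 I = C} ≃ {I : (Ideal (𝓞 K))⁰ //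
      ((1 : (Ideal (𝓞 K))⁰) : Ideal (𝓞 K)) ∣ I ∧ ClassGroup.mk0 I = (ClassGroup.mk0 b)⁻¹} :=
    Equiv.subtypeEquivRight fun I ↦ by rw [hb, inv_inv]; simp
  exact (h.comp_injective e.injective).congr fun I ↦ rfl

theorem hasSum_term_coeff {s : ℝ} (hs : 1 < s) :
    HasSum (term (coeff K χ) s) (∑' I : (Ideal (𝓞 K))⁰, idealTerm χ s I.1) := by
  have h := (Equiv.hasSum_iff (Equiv.sigmaFiberEquiv
    fun I : (Ideal (𝓞 K))⁰ ↦ absNorm I.1)).mpr (summable_idealTerm K χ hs).hasSum
  refine h.sigma fun n ↦ ?_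
  rcases Nat.eq_zero_or_pos n with rfl | hn
  · have : IsEmpty {I : (Ideal (𝓞 K))⁰ // absNorm I.1 = 0} :=
      ⟨fun I ↦ absNorm_ne_zero_of_nonZeroDivisors I.1 I.2⟩
    simp [term, coeff, hasSum_empty]
  let e : {I : (Ideal (𝓞 K))⁰ // absNorm I.1 = n} ≃ {I : Ideal (𝓞 K) // absNorm I = n} :=
    { toFun := fun I ↦ ⟨I.1.1, I.2⟩
      invFun := fun I ↦ ⟨⟨I.1, absNorm_ne_zero_iff_mem_nonZeroDivisors.mp (by rw [I.2]; exact hn.ne')⟩, I.2⟩
      left_inv := fun _ ↦ rfl
      right_inv := fun _ ↦ rfl }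
  have : Finite {I : (Ideal (𝓞 K))⁰ // absNorm I.1 = n} := Finite.of_equiv _ e.symm
  have : Fintype {I : (Ideal (𝓞 K))⁰ // absNorm I.1 = n} := Fintype.ofFinite _
  convert hasSum_fintype _ using 1
  rw [Finset.sum_congr rfl (g := fun _ ↦ χ (n : ZMod M) * (((n : ℝ) ^ (-s) : ℝ) : ℂ))
    fun I _ ↦ by simp [idealTerm, I.2], Finset.sum_const, Finset.card_univ,
    ← Nat.card_eq_fintype_card, Nat.card_congr e, term, coeff, if_neg hn.ne', nsmul_eq_mul,
    ← idealCount]
  ring

theorem summable_norm_term_coeff {s : ℝ} (hs : 1 < s) :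
    Summable (fun n ↦ ‖term (coeff K χ) s n‖) := by
  have h1 : Summable (fun n : ℕ ↦ term (coeff K (1 : DirichletCharacter ℂ 1)) s n) :=
    (hasSum_term_coeff K _ hs).summable
  refine h1.norm.of_nonneg_of_le (fun _ ↦ norm_nonneg _) fun n ↦ ?_
  simp only [term, coeff, norm_mul]
  refine mul_le_mul_of_nonneg_right ?_ (norm_nonneg _)
  split_ifs
  · rfl
  · simp only [norm_mul]
    refine mul_le_mul_of_nonneg_right ?_ (norm_nonneg _)
    rw [MulChar.one_apply (isUnit_of_subsingleton _), norm_one]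
    exact DirichletCharacter.norm_le_one χ _

end FLTAgent.Chebotarev
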