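import Mathlib.Analysis.SpecialFunctions.Complex.LogBounds
import Mathlib.Analysis.Normed.Group.FunctionSeries
import Mathlib.NumberTheory.EulerProduct.Basic
import Mathlib.NumberTheory.SumPrimeReciprocals
import Fermat.Agent.Chebotarev.Coeff

/-!
The logarithm of an Euler product is the sum over primes of the first coefficients, up to a
function which is continuous on `[1, 2]`.
-/

set_option autoImplicit false

namespace FLTAgent.Chebotarev

open Complex

/-- Hypotheses on the coefficients of a Dirichlet series with an Euler product. -/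
structure IsEulerSeq (a : ℕ → ℂ) (d : ℕ) : Prop where
  zero : a 0 = 0
  one : a 1 = 1
  mul : ∀ {m n : ℕ}, m.Coprime n → a (m * n) = a m * a n
  bound : ∀ {p : ℕ}, p.Prime → ∀ k : ℕ, ‖a (p ^ k)‖ ≤ ((k + 1 : ℕ) : ℝ) ^ d
  summable : ∀ {s : ℝ}, 1 < s → Summable (fun n ↦ ‖term a s n‖)

/-- The Euler factor. -/
noncomputable def factor (a : ℕ → ℂ) (s : ℝ) (p : ℕ) : ℂ := ∑' k, term a s (p ^ k)

/-- The sum over primes of the first coefficients. -/
noncomputable def primeSum (a : ℕ → ℂ) (s : ℝ) : ℂ := ∑' p : Nat.Primes, term a s p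

/-- The constant bounding the tails of the Euler factors. -/
noncomputable def tailConst (d : ℕ) : ℝ := ∑' k : ℕ, ((k + 3 : ℕ) : ℝ) ^ d * (1 / 2) ^ k

/-- Below this bound Euler factors are treated separately. -/
noncomputable def smallBound (d : ℕ) : ℕ := ⌈2 * (2 ^ d + tailConst d)⌉₊ + 1

lemma summable_tailConst (d : ℕ) :
    Summable (fun k : ℕ ↦ ((k + 3 : ℕ) : ℝ) ^ d * (1 / 2) ^ k) := by
  have h := (summable_nat_add_iff (f := fun k : ℕ ↦ (k : ℝ) ^ d * (1 / 2 : ℝ) ^ k) 3).mpr
    (summable_pow_mul_geometric_of_norm_lt_one d (by norm_num))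
  refine (h.mul_left 8).congr fun k ↦ ?_
  rw [pow_add]
  ring

lemma tailConst_nonneg (d : ℕ) : 0 ≤ tailConst d := tsum_nonneg fun _ ↦ by positivity

lemma summable_primeBound : Summable (fun p : Nat.Primes ↦ (p : ℝ) ^ (-2 : ℝ)) :=
  Nat.Primes.summable_rpow.mpr (by norm_num)

variable {a : ℕ → ℂ} {d : ℕ}

lemma norm_natCast_rpow_le {n : ℕ} (hn : 0 < n) {s : ℝ} (hs : 1 ≤ s) :
    (n : ℝ) ^ (-s) ≤ (n : ℝ)⁻¹ := by
  rw [← Real.rpow_neg_one]
  exact Real.rpow_le_rpow_of_exponent_le (by exact_mod_cast hn) (neg_le_neg hs)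

lemma norm_term {n : ℕ} {s : ℝ} : ‖term a s n‖ = ‖a n‖ * (n : ℝ) ^ (-s) := by
  rw [term, norm_mul, Complex.norm_real, Real.norm_of_nonneg (by positivity)]

lemma norm_term_pow_le (h : IsEulerSeq a d) {p : ℕ} (hp : p.Prime) (k : ℕ) {s : ℝ} (hs : 1 ≤ s) :
    ‖term a s (p ^ k)‖ ≤ ((k + 1 : ℕ) : ℝ) ^ d * ((p : ℝ)⁻¹) ^ k := by
  rw [norm_term, inv_pow]
  refine mul_le_mul (h.bound hp k) ?_ (by positivity) (by positivity)
  simpa using norm_natCast_rpow_le (pow_pos hp.pos k) hs

lemma inv_prime_le_half {p : ℕ} (hp : p.Prime) : (p : ℝ)⁻¹ ≤ 1 / 2 := by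
  rw [one_div]
  exact inv_anti₀ two_pos (by exact_mod_cast hp.two_le)

lemma norm_term_pow_le_half (h : IsEulerSeq a d) {p : ℕ} (hp : p.Prime) (k : ℕ) {s : ℝ}
    (hs : 1 ≤ s) : ‖term a s (p ^ k)‖ ≤ ((k + 1 : ℕ) : ℝ) ^ d * (1 / 2) ^ k :=
  (norm_term_pow_le h hp k hs).trans <| mul_le_mul_of_nonneg_left
    (pow_le_pow_left₀ (by positivity) (inv_prime_le_half hp) k) (by positivity)

lemma summable_factorBound (d : ℕ) :
    Summable (fun k : ℕ ↦ ((k + 1 : ℕ) : ℝ) ^ d * (1 / 2) ^ k) :=
  (summable_tailConst d).of_nonneg_of_le (fun _ ↦ by positivity) fun k ↦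
    mul_le_mul_of_nonneg_right (pow_le_pow_left₀ (by positivity)
      (by exact_mod_cast (by omega : k + 1 ≤ k + 3)) d) (by positivity)

lemma continuous_term (a : ℕ → ℂ) (n : ℕ) (hn : a 0 = 0) :
    Continuous (fun s : ℝ ↦ term a s n) := by
  unfold term
  rcases Nat.eq_zero_or_pos n with rfl | hpos
  · simp only [hn, zero_mul]; exact continuous_const
  refine continuous_const.mul (Complex.continuous_ofReal.comp ?_)
  exact (Real.continuous_const_rpow (Nat.cast_ne_zero.mpr hpos.ne')).comp continuous_neg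

lemma continuousOn_factor (h : IsEulerSeq a d) {p : ℕ} (hp : p.Prime) :
    ContinuousOn (fun s ↦ factor a s p) (Set.Ici 1) :=
  continuousOn_tsum (fun k ↦ (continuous_term a _ h.zero).continuousOn) (summable_factorBound d)
    fun k _ hs ↦ norm_term_pow_le_half h hp k hs

/-- The factor is one, plus the first term, plus a quadratic remainder. -/
lemma norm_factor_sub_le (h : IsEulerSeq a d) {p : ℕ} (hp : p.Prime) {s : ℝ} (hs : 1 ≤ s) :
    ‖factor a s p - 1 - term a s p‖ ≤ tailConst d * ((p : ℝ)⁻¹) ^ 2 := by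
  have hsum : Summable (fun k ↦ term a s (p ^ k)) :=
    Summable.of_norm_bounded (summable_factorBound d) fun k ↦ norm_term_pow_le_half h hp k hs
  have h0 : term a s (p ^ 0) = 1 := by simp [term, h.one]
  have := hsum.sum_add_tsum_nat_add 2
  rw [Finset.sum_range_succ, Finset.sum_range_one, h0, pow_one] at this
  rw [factor, ← this, add_sub_right_comm, add_sub_cancel_left, add_sub_cancel_left]
  refine tsum_of_norm_bounded (((summable_tailConst d).hasSum).mul_right _) fun k ↦ ?_
  refine (norm_term_pow_le h hp (k + 2) hs).trans ?_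
  rw [pow_add, ← mul_assoc]
  refine mul_le_mul_of_nonneg_right ?_ (by positivity)
  exact mul_le_mul_of_nonneg_left
    (pow_le_pow_left₀ (by positivity) (inv_prime_le_half hp) k) (by positivity)

lemma norm_term_prime_le (h : IsEulerSeq a d) {p : ℕ} (hp : p.Prime) {s : ℝ} (hs : 1 ≤ s) :
    ‖term a s p‖ ≤ 2 ^ d * (p : ℝ)⁻¹ := by
  simpa [one_add_one_eq_two] using norm_term_pow_le h hp 1 hs

/-- The summand of the continuous correction. -/
noncomputable def corrTerm (a : ℕ → ℂ) (d : ℕ) (s : ℝ) (p : ℕ) : ℂ :=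
  (if p < smallBound d then 0 else log (factor a s p)) - term a s p

lemma norm_factor_sub_one (h : IsEulerSeq a d) {p : ℕ} (hp : p.Prime) (hp0 : smallBound d ≤ p)
    {s : ℝ} (hs : 1 ≤ s) :
    ‖factor a s p - 1‖ ≤ (2 ^ d + tailConst d) * (p : ℝ)⁻¹ ∧ ‖factor a s p - 1‖ ≤ 1 / 2 := by
  have hp' : 2 * (2 ^ d + tailConst d) ≤ (p : ℝ) :=
    (Nat.le_ceil _).trans (by exact_mod_cast (Nat.le_of_lt hp0))
  have hppos : (0 : ℝ) < p := by exact_mod_cast hp.pos
  have h1 : ‖factor a s p - 1‖ ≤ (2 ^ d + tailConst d) * (p : ℝ)⁻¹ := by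
    calc ‖factor a s p - 1‖ ≤ ‖factor a s p - 1 - term a s p‖ + ‖term a s p‖ :=
          norm_le_norm_sub_add _ _
      _ ≤ tailConst d * ((p : ℝ)⁻¹) ^ 2 + 2 ^ d * (p : ℝ)⁻¹ :=
          add_le_add (norm_factor_sub_le h hp hs) (norm_term_prime_le h hp hs)
      _ ≤ tailConst d * (p : ℝ)⁻¹ + 2 ^ d * (p : ℝ)⁻¹ :=
          add_le_add (mul_le_mul_of_nonneg_left (pow_le_of_le_one (by positivity)
            ((inv_prime_le_half hp).trans (by norm_num)) two_ne_zero) (tailConst_nonneg d)) le_rfl
      _ = _ := by ring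
  refine ⟨h1, h1.trans ?_⟩
  rw [← div_eq_mul_inv, div_le_iff₀ hppos]
  linarith

lemma norm_corrTerm_le (h : IsEulerSeq a d) {p : ℕ} (hp : p.Prime) {s : ℝ} (hs : 1 ≤ s) :
    ‖corrTerm a d s p‖ ≤
      ((2 ^ d + tailConst d) ^ 2 + tailConst d + 2 ^ d * smallBound d) * (p : ℝ) ^ (-2 : ℝ) := by
  have hppos : (0 : ℝ) < p := by exact_mod_cast hp.pos
  rw [show (p : ℝ) ^ (-2 : ℝ) = ((p : ℝ)⁻¹) ^ 2 by
    rw [Real.rpow_neg hppos.le, inv_pow, Real.rpow_two]]
  have hC := tailConst_nonneg d
  unfold corrTerm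
  split_ifs with hsmall
  · rw [zero_sub, norm_neg]
    calc ‖term a s p‖ ≤ 2 ^ d * (p : ℝ)⁻¹ := norm_term_prime_le h hp hs
      _ = 2 ^ d * p * ((p : ℝ)⁻¹) ^ 2 := by field_simp
      _ ≤ _ := mul_le_mul_of_nonneg_right (le_add_of_nonneg_of_le (by positivity)
          (mul_le_mul_of_nonneg_left (by exact_mod_cast hsmall.le) (by positivity)))
          (by positivity)
  · obtain ⟨hz, hz2⟩ := norm_factor_sub_one h hp (not_lt.mp hsmall) hs
    have hlog : ‖log (factor a s p) - (factor a s p - 1)‖ ≤ ‖factor a s p - 1‖ ^ 2 := by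
      have := norm_log_one_add_sub_self_le (z := factor a s p - 1) (by linarith)
      rw [add_sub_cancel] at this
      refine this.trans ?_
      rw [mul_div_assoc]
      refine mul_le_of_le_one_right (by positivity) ?_
      rw [div_le_one two_pos, inv_le_comm₀ (by linarith) two_pos]
      linarith
    calc ‖log (factor a s p) - term a s p‖ ≤
        ‖log (factor a s p) - (factor a s p - 1)‖ + ‖factor a s p - 1 - term a s p‖ :=
          norm_sub_le_norm_sub_add_norm_sub _ _ _
      _ ≤ ((2 ^ d + tailConst d) * (p : ℝ)⁻¹) ^ 2 + tailConst d * ((p : ℝ)⁻¹) ^ 2 :=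
          add_le_add (hlog.trans (pow_le_pow_left₀ (norm_nonneg _) hz 2))
            (norm_factor_sub_le h hp hs)
      _ ≤ _ := by
          rw [mul_pow, ← add_mul]
          exact mul_le_mul_of_nonneg_right (le_add_of_nonneg_right (by positivity)) (by positivity)

/-- The continuous correction. -/
noncomputable def corr (a : ℕ → ℂ) (d : ℕ) (s : ℝ) : ℂ := ∑' p : Nat.Primes, corrTerm a d s p

lemma continuousOn_corr (h : IsEulerSeq a d) : ContinuousOn (corr a d) (Set.Ici 1) := by
  refine continuousOn_tsum (fun p ↦ ?_) (summable_primeBound.mul_left _)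
    fun p _ hs ↦ norm_corrTerm_le h p.2 hs
  unfold corrTerm
  refine ContinuousOn.sub ?_ (continuous_term a _ h.zero).continuousOn
  by_cases hsmall : (p : ℕ) < smallBound d
  · simp only [if_pos hsmall]; exact continuousOn_const
  simp only [if_neg hsmall]
  refine (continuousOn_factor h p.2).clog fun s hs ↦ ?_
  obtain ⟨-, hz2⟩ := norm_factor_sub_one h p.2 (not_lt.mp hsmall) hs
  refine Or.inl ?_
  have := abs_le.mp ((Complex.abs_re_le_norm _).trans hz2)
  rw [Complex.sub_re, Complex.one_re] at this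
  linarith

/-- The small primes. -/
noncomputable def smallPrimes (d : ℕ) : Finset Nat.Primes :=
  (Finset.range (smallBound d)).subtype Nat.Prime

lemma mem_smallPrimes {d : ℕ} {p : Nat.Primes} : p ∈ smallPrimes d ↔ (p : ℕ) < smallBound d := by
  unfold smallPrimes
  exact Finset.mem_subtype.trans Finset.mem_range

/-- An Euler product is the product of finitely many factors and the exponential of its prime sum
and a continuous correction. -/
theorem tsum_term_eq (h : IsEulerSeq a d) {s : ℝ} (hs : 1 < s) :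
    ∑' n, term a s n =
      (∏ p ∈ smallPrimes d, factor a s p) * exp (primeSum a s + corr a d s) := by
  have hmul : ∀ {m n : ℕ}, m.Coprime n → term a s (m * n) = term a s m * term a s n := by
    intro m n hmn
    simp only [term, h.mul hmn, Nat.cast_mul, Real.mul_rpow m.cast_nonneg n.cast_nonneg,
      Complex.ofReal_mul]
    ring
  have hE : HasProd (fun p : Nat.Primes ↦ factor a s p) (∑' n, term a s n) :=
    EulerProduct.eulerProduct_hasProd (by simp [term, h.one]) hmul (h.summable hs)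
      (by simp [term, h.zero])
  have hP : HasSum (fun p : Nat.Primes ↦ term a s p) (primeSum a s) :=
    ((h.summable hs).of_norm.comp_injective Subtype.val_injective).hasSum
  have hH : HasSum (fun p : Nat.Primes ↦ corrTerm a d s p) (corr a d s) :=
    (Summable.of_norm_bounded (summable_primeBound.mul_left _)
      fun p ↦ norm_corrTerm_le h p.2 hs.le).hasSum
  have hexp := (hP.add hH).cexp
  have hsm : HasProd (fun p : Nat.Primes ↦ if p ∈ smallPrimes d then factor a s p else 1)
      (∏ p ∈ smallPrimes d, factor a s p) := by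
    have := hasProd_prod_of_ne_finset_one (L := SummationFilter.unconditional Nat.Primes)
      (f := fun p : Nat.Primes ↦ if p ∈ smallPrimes d then factor a s p else 1)
      (s := smallPrimes d) (fun p hp ↦ if_neg hp)
    rwa [Finset.prod_congr rfl fun p hp ↦ if_pos hp] at this
  refine hE.unique ((hsm.mul hexp).congr_fun fun p ↦ ?_)
  simp only [Function.comp_apply, corrTerm, mem_smallPrimes, add_sub_cancel]
  split_ifs with hsmall
  · rw [exp_zero, mul_one]
  · obtain ⟨-, hz2⟩ := norm_factor_sub_one h p.2 (not_lt.mp hsmall) hs.le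
    rw [one_mul, exp_log]
    intro h0
    rw [h0, zero_sub, norm_neg, norm_one] at hz2
    norm_num at hz2

end FLTAgent.Chebotarev
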