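import Mathlib.Analysis.SpecialFunctions.Log.Basic
import Mathlib.Topology.Order.IntermediateValue
import Fermat.Agent.Chebotarev.EulerLog

/-!
Asymptotics at `1⁺` of the prime sums attached to a number field and a Dirichlet character.
-/

set_option autoImplicit false
set_option maxSynthPendingDepth 3

namespace FLTAgent.Chebotarev

open Filter Topology NumberField
open scoped nonZeroDivisors

/-- A function bounded near `1⁺`. -/
def BddNear {E : Type*} [Norm E] (f : ℝ → E) : Prop :=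
  f =O[𝓝[>] (1 : ℝ)] fun _ ↦ (1 : ℝ)

lemma bddNear_iff {E : Type*} [Norm E] {f : ℝ → E} :
    BddNear f ↔ ∃ C, ∀ᶠ s in 𝓝[>] (1 : ℝ), ‖f s‖ ≤ C := by
  simp [BddNear, Asymptotics.isBigO_iff]

lemma bddNear_of_tendsto {E : Type*} [NormedAddCommGroup E] {f : ℝ → E} {l : E}
    (h : Tendsto f (𝓝[>] (1 : ℝ)) (𝓝 l)) : BddNear f := h.isBigO_one ℝ

lemma bddNear_re {f : ℝ → ℂ} (h : BddNear f) : BddNear (fun s ↦ (f s).re) := by
  obtain ⟨C, hC⟩ := bddNear_iff.mp h
  exact bddNear_iff.mpr ⟨C, hC.mono fun s hs ↦ (Complex.abs_re_le_norm _).trans hs⟩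

lemma bddNear_ofReal {f : ℝ → ℝ} (h : BddNear f) : BddNear (fun s ↦ (f s : ℂ)) := by
  obtain ⟨C, hC⟩ := bddNear_iff.mp h
  exact bddNear_iff.mpr ⟨C, hC.mono fun s hs ↦ by rwa [Complex.norm_real]⟩

/-- `log (1 / (s - 1))`. -/
noncomputable def logInv (s : ℝ) : ℝ := -Real.log (s - 1)

lemma tendsto_logInv : Tendsto logInv (𝓝[>] (1 : ℝ)) atTop := by
  refine tendsto_neg_atBot_atTop.comp (Real.tendsto_log_nhdsGT_zero.comp ?_)
  refine tendsto_nhdsWithin_iff.mpr ⟨tendsto_nhdsWithin_of_tendsto_nhds ?_, ?_⟩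
  · exact (continuous_sub_right (1 : ℝ)).tendsto' 1 0 (sub_self 1)
  · filter_upwards [self_mem_nhdsWithin] with s hs
    exact sub_pos.mpr (Set.mem_Ioi.mp hs)

lemma eq_zero_of_bddNear_mul_logInv {c : ℂ} (h : BddNear fun s ↦ c * (logInv s : ℂ)) : c = 0 := by
  by_contra hc
  obtain ⟨C, hC⟩ := bddNear_iff.mp h
  obtain ⟨s, hs, hs'⟩ := (hC.and (tendsto_logInv.eventually_gt_atTop (max 0 (C / ‖c‖)))).exists
  rw [max_lt_iff, div_lt_iff₀ (norm_pos_iff.mpr hc)] at hs'
  rw [norm_mul, Complex.norm_real, Real.norm_of_nonneg hs'.1.le] at hs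
  linarith

/-- Coefficients bounded on the primes. -/
def BddCoeff (c : ℕ → ℂ) : Prop := ∃ C, ∀ p : Nat.Primes, ‖c p‖ ≤ C

lemma summable_primeTerm {c : ℕ → ℂ} (hc : BddCoeff c) {s : ℝ} (hs : 1 < s) :
    Summable (fun p : Nat.Primes ↦ term c s p) := by
  obtain ⟨C, hC⟩ := hc
  refine Summable.of_norm_bounded ((Nat.Primes.summable_rpow.mpr (neg_lt_neg hs)).mul_left C)
    fun p ↦ ?_
  rw [norm_term]
  exact mul_le_mul_of_nonneg_right (hC p) (by positivity)

lemma continuousOn_primeSum {c : ℕ → ℂ} (hc0 : c 0 = 0) (hc : BddCoeff c) :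
    ContinuousOn (primeSum c) (Set.Ioi 1) := by
  intro s hs
  obtain ⟨C, hC⟩ := hc
  obtain ⟨t, ht1, hts⟩ := exists_between (Set.mem_Ioi.mp hs)
  refine ((continuousOn_tsum (fun p ↦ (continuous_term c _ hc0).continuousOn)
    ((Nat.Primes.summable_rpow.mpr (neg_lt_neg ht1)).mul_left C) fun p u hu ↦ ?_).continuousAt
    (Ici_mem_nhds hts)).continuousWithinAt
  rw [norm_term]
  exact mul_le_mul (hC p) (Real.rpow_le_rpow_of_exponent_le (by exact_mod_cast p.2.one_lt.le)
    (neg_le_neg hu)) (by positivity) ((norm_nonneg _).trans (hC p))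

lemma primeSum_sum {ι : Type*} (S : Finset ι) (w : ι → ℂ) (c : ι → ℕ → ℂ)
    (hc : ∀ i, BddCoeff (c i)) {s : ℝ} (hs : 1 < s) :
    primeSum (fun n ↦ ∑ i ∈ S, w i * c i n) s = ∑ i ∈ S, w i * primeSum (c i) s := by
  simp only [primeSum]
  simp_rw [← tsum_mul_left]
  rw [← Summable.tsum_finsetSum fun i _ ↦ (summable_primeTerm (hc i) hs).mul_left _]
  refine tsum_congr fun p ↦ ?_
  simp only [term, Finset.sum_mul, mul_assoc]

lemma primeSum_mul {c : ℕ → ℂ} (w : ℂ) (s : ℝ) :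
    primeSum (fun n ↦ w * c n) s = w * primeSum c s := by
  simp only [primeSum, term, ← tsum_mul_left, mul_assoc]

/-- Changing finitely many coefficients changes the prime sum by a bounded amount. -/
lemma bddNear_primeSum_sub {c c' : ℕ → ℂ} (hc : BddCoeff c) (hc' : BddCoeff c') {S : Finset ℕ}
    (h : ∀ p : Nat.Primes, (p : ℕ) ∉ S → c p = c' p) :
    BddNear (fun s ↦ primeSum c s - primeSum c' s) := by
  let T : Finset Nat.Primes := S.subtype Nat.Prime
  refine bddNear_iff.mpr ⟨∑ p ∈ T, ‖c p - c' p‖, ?_⟩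
  filter_upwards [self_mem_nhdsWithin] with s (hs : 1 < s)
  rw [primeSum, primeSum, ← (summable_primeTerm hc hs).tsum_sub (summable_primeTerm hc' hs),
    tsum_eq_sum (s := T) fun p hp ↦ by
      rw [term, term, h p fun h' ↦ hp (Finset.mem_subtype.mpr h'), sub_self]]
  refine (norm_sum_le _ _).trans (Finset.sum_le_sum fun p _ ↦ ?_)
  rw [term, term, ← sub_mul, norm_mul, Complex.norm_real]
  refine mul_le_of_le_one_right (norm_nonneg _) ?_
  rw [Real.norm_of_nonneg (by positivity)]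
  exact Real.rpow_le_one_of_one_le_of_nonpos (by exact_mod_cast p.2.one_lt.le) (by linarith)

/-- A continuous logarithm of a function with nonzero limit is bounded. -/
lemma bddNear_of_exp_tendsto {w : ℝ → ℂ} (hw : ContinuousOn w (Set.Ioc 1 2)) {l : ℂ} (hl : l ≠ 0)
    (h : Tendsto (fun s ↦ Complex.exp (w s)) (𝓝[>] (1 : ℝ)) (𝓝 l)) : BddNear w := by
  have h1 : Tendsto (fun s ↦ Complex.exp (w s) / l) (𝓝[>] (1 : ℝ)) (𝓝 1) := by
    simpa [hl] using h.div_const l
  have h2 : Tendsto (fun s ↦ Complex.log (Complex.exp (w s) / l)) (𝓝[>] (1 : ℝ)) (𝓝 0) := by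
    simpa using h1.clog Complex.one_mem_slitPlane
  obtain ⟨u, hu, hsub⟩ := mem_nhdsGT_iff_exists_Ioo_subset.mp
    (inter_mem ((h1.eventually (Complex.isOpen_slitPlane.mem_nhds Complex.one_mem_slitPlane)).and
      (h2.norm.eventually_lt_const (show ‖(0 : ℂ)‖ < 1 by simp)))
      (Ioc_mem_nhdsGT (one_lt_two (α := ℝ))))
  rw [Set.mem_Ioi] at hu
  have hin : ∀ s ∈ Set.Ioo 1 u, Complex.exp (w s) / l ∈ Complex.slitPlane ∧
      ‖Complex.log (Complex.exp (w s) / l)‖ < 1 := fun s hs ↦ (hsub hs).1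
  let v : ℝ → ℂ := fun s ↦ w s - Complex.log (Complex.exp (w s) / l)
  have hv : ContinuousOn v (Set.Ioo 1 u) :=
    (hw.mono fun s hs ↦ (hsub hs).2).sub
      ((((hw.mono fun s hs ↦ (hsub hs).2).cexp).div_const l).clog fun s hs ↦ (hin s hs).1)
  obtain ⟨s₀, hs₀⟩ : (Set.Ioo 1 u).Nonempty := Set.nonempty_Ioo.mpr hu
  have hexp : ∀ s ∈ Set.Ioo 1 u, Complex.exp (v s) = l := fun s hs ↦ by
    rw [Complex.exp_sub, Complex.exp_log (Complex.slitPlane_ne_zero (hin s hs).1)]
    field_simp [Complex.exp_ne_zero]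
  let g : ℝ → ℝ := fun s ↦ (v s - v s₀).im / (2 * Real.pi)
  have hg : ∀ s ∈ Set.Ioo 1 u, ∃ n : ℤ, v s = v s₀ + n * (2 * Real.pi * Complex.I) ∧ g s = n := by
    intro s hs
    obtain ⟨n, hn⟩ := Complex.exp_eq_exp_iff_exists_int.mp ((hexp s hs).trans (hexp s₀ hs₀).symm)
    exact ⟨n, hn, by simp [g, hn]⟩
  have hconst : ∀ s ∈ Set.Ioo 1 u, v s = v s₀ := by
    intro s hs
    obtain ⟨n, hn, hgn⟩ := hg s hs
    obtain rfl | hn0 := eq_or_ne n 0
    · simpa using hn
    have hcg : ContinuousOn g (Set.Ioo 1 u) :=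
      ((Complex.continuous_im.comp_continuousOn (hv.sub continuousOn_const))).div_const _
    have hgs₀ : g s₀ = 0 := by simp [g]
    have key : ∀ y : ℝ, y ∈ Set.uIcc (g s₀) (g s) → ∃ m : ℤ, y = m := fun y hy ↦ by
      obtain ⟨t, ht, rfl⟩ := intermediate_value_uIcc
        (hcg.mono (Set.OrdConnected.uIcc_subset Set.ordConnected_Ioo hs₀ hs)) hy
      exact (hg t (Set.OrdConnected.uIcc_subset Set.ordConnected_Ioo hs₀ hs ht)).imp fun _ h ↦ h.2
    rcases lt_or_gt_of_ne hn0 with hneg | hpos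
    · obtain ⟨m, hm⟩ := key (-(1 / 2)) (by
        rw [hgs₀, hgn, Set.mem_uIcc]
        right
        constructor <;> linarith [show (n : ℝ) ≤ -1 by exact_mod_cast (by omega : n ≤ -1)])
      have : ((2 * m + 1 : ℤ) : ℝ) = 0 := by push_cast; linarith
      have : (2 * m + 1 : ℤ) = 0 := by exact_mod_cast this
      omega
    · obtain ⟨m, hm⟩ := key (1 / 2) (by
        rw [hgs₀, hgn, Set.mem_uIcc]
        left
        constructor <;> linarith [show (1 : ℝ) ≤ n by exact_mod_cast (by omega : 1 ≤ n)])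
      have : ((2 * m - 1 : ℤ) : ℝ) = 0 := by push_cast; linarith
      have : (2 * m - 1 : ℤ) = 0 := by exact_mod_cast this
      omega
  refine bddNear_iff.mpr ⟨‖v s₀‖ + 1, ?_⟩
  filter_upwards [Ioo_mem_nhdsGT hu] with s hs
  calc ‖w s‖ = ‖v s + Complex.log (Complex.exp (w s) / l)‖ := by simp [v]
    _ ≤ _ := (norm_add_le _ _).trans (add_le_add (by rw [hconst s hs]) (hin s hs).2.le)

variable (K : Type*) [Field K] [NumberField K] {M : ℕ}

theorem isEulerSeq_coeff (χ : DirichletCharacter ℂ M) :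
    IsEulerSeq (coeff K χ) (Module.finrank ℚ K) where
  zero := coeff_zero K χ
  one := coeff_one K χ
  mul := coeff_mul K χ
  bound hp k := norm_coeff_prime_pow_le K χ hp k
  summable hs := summable_norm_term_coeff K χ hs

theorem bddCoeff_coeff (χ : DirichletCharacter ℂ M) : BddCoeff (coeff K χ) :=
  ⟨(2 : ℝ) ^ Module.finrank ℚ K, fun p ↦ by
    simpa [one_add_one_eq_two] using norm_coeff_prime_pow_le K χ p.2 1⟩

lemma eventually_norm_corr_le (χ : DirichletCharacter ℂ M) :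
    BddNear (corr (coeff K χ) (Module.finrank ℚ K)) :=
  bddNear_of_tendsto (((continuousOn_corr (isEulerSeq_coeff K χ)) 1 Set.self_mem_Ici).tendsto.mono_left
    (nhdsWithin_mono 1 Set.Ioi_subset_Ici_self))

lemma coe_real_coeff_one (n : ℕ) :
    coeff K (1 : DirichletCharacter ℂ 1) n =
      ((if n = 0 then 0 else (idealCount K n : ℝ) : ℝ) : ℂ) := by
  rw [coeff, MulChar.one_apply (isUnit_of_subsingleton _)]
  split_ifs <;> simp

/-- The prime sum of the ideal counting function grows like `log (1 / (s - 1))`. -/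
theorem bddNear_primeSum_idealCount :
    BddNear (fun s ↦ primeSum (coeff K (1 : DirichletCharacter ℂ 1)) s - (logInv s : ℂ)) := by
  set a := coeff K (1 : DirichletCharacter ℂ 1) with ha
  set d := Module.finrank ℚ K
  have hE := isEulerSeq_coeff K (1 : DirichletCharacter ℂ 1)
  let c : ℕ → ℝ := fun n ↦ if n = 0 then 0 else (idealCount K n : ℝ)
  have hac : ∀ (s : ℝ) (n : ℕ), term a s n = ((c n * (n : ℝ) ^ (-s) : ℝ) : ℂ) := fun s n ↦ by
    simp only [term, ha, coe_real_coeff_one, c, Complex.ofReal_mul]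
  have hcn : ∀ n, 0 ≤ c n := fun n ↦ by simp only [c]; split_ifs <;> positivity
  have hL : Tendsto (fun s : ℝ ↦ ((s - 1 : ℝ) : ℂ) * ∑' n, term a s n) (𝓝[>] 1)
      (𝓝 (dedekindZeta_residue K : ℂ)) := by
    refine (tendsto_sub_one_mul_dedekindZeta_nhdsGT K).congr' ?_
    filter_upwards [self_mem_nhdsWithin] with s (hs : 1 < s)
    rw [Complex.ofReal_sub, Complex.ofReal_one, dedekindZeta, LSeries]
    congr 1
    refine tsum_congr fun n ↦ ?_
    rcases eq_or_ne n 0 with rfl | hn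
    · simp [term, ha, coeff]
    rw [LSeries.term_of_ne_zero hn, term, ha, coe_real_coeff_one, if_neg hn,
      Complex.ofReal_cpow (Nat.cast_nonneg n), Complex.ofReal_natCast, Complex.ofReal_neg,
      Complex.cpow_neg, div_eq_mul_inv]
    simp [idealCount]
  set g : ℝ → ℂ := fun s ↦ ∏ p ∈ smallPrimes d, factor a s p with hg
  have hg1 : ∀ s : ℝ, 1 ≤ s → ∀ p ∈ smallPrimes d, 1 ≤ ‖factor a s p‖ := by
    intro s hs p _
    have hsum : Summable fun k ↦ c (p ^ k) * ((p : ℕ) ^ k : ℕ) ^ (-s) := by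
      refine Summable.of_norm_bounded (summable_factorBound d) fun k ↦ ?_
      have := norm_term_pow_le_half hE p.2 k hs
      rwa [hac, Complex.norm_real] at this
    have hf : factor a s p = ((∑' k, c (p ^ k) * ((p : ℕ) ^ k : ℕ) ^ (-s) : ℝ) : ℂ) := by
      rw [factor, Complex.ofReal_tsum]
      exact tsum_congr fun k ↦ hac s _
    rw [hf, Complex.norm_real, Real.norm_of_nonneg (tsum_nonneg fun k ↦ by have := hcn (p ^ k); positivity)]
    refine le_trans ?_ (hsum.le_tsum 0 fun k _ ↦ by have := hcn (p ^ k); positivity)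
    simp [c, idealCount_one]
  have hgc : Tendsto g (𝓝[>] 1) (𝓝 (g 1)) :=
    tendsto_finsetProd _ fun p _ ↦ ((continuousOn_factor hE p.2) 1 Set.self_mem_Ici).tendsto.mono_left
      (nhdsWithin_mono 1 Set.Ioi_subset_Ici_self)
  have hg0 : g 1 ≠ 0 := Finset.prod_ne_zero_iff.mpr fun p hp h0 ↦ by
    have := hg1 1 le_rfl p hp
    rw [h0, norm_zero] at this
    linarith
  have hres : (dedekindZeta_residue K : ℂ) / g 1 ≠ 0 :=
    div_ne_zero (Complex.ofReal_ne_zero.mpr (dedekindZeta_residue_ne_zero K)) hg0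
  have h2 : Tendsto (fun s ↦ Complex.exp ((primeSum a s - (logInv s : ℂ)) + corr a d s))
      (𝓝[>] 1) (𝓝 ((dedekindZeta_residue K : ℂ) / g 1)) := by
    refine (hL.div hgc hg0).congr' ?_
    filter_upwards [self_mem_nhdsWithin, hgc.eventually_ne hg0] with s (hs : 1 < s) hne
    show ((s - 1 : ℝ) : ℂ) * _ / g s = _
    rw [tsum_term_eq hE hs]
    change ((s - 1 : ℝ) : ℂ) * (g s * _) / g s = _
    rw [← mul_assoc, mul_comm _ (g s), mul_assoc, mul_div_cancel_left₀ _ hne,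
      sub_add_eq_add_sub, Complex.exp_sub, logInv, Complex.ofReal_neg, Complex.exp_neg,
      ← Complex.ofReal_exp, Real.exp_log (sub_pos.mpr hs)]
    rw [div_inv_eq_mul, mul_comm]
  have hw : ContinuousOn (fun s ↦ primeSum a s - (logInv s : ℂ) + corr a d s) (Set.Ioc 1 2) := by
    refine ((((continuousOn_primeSum hE.zero (bddCoeff_coeff K _)).mono Set.Ioc_subset_Ioi_self)).sub
      ?_).add ((continuousOn_corr hE).mono fun s hs ↦ Set.mem_Ici.mpr hs.1.le)
    refine Complex.continuous_ofReal.comp_continuousOn (ContinuousOn.neg ?_)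
    exact ((continuous_sub_right 1).continuousOn).log fun s hs ↦ (sub_pos.mpr hs.1).ne'
  have := (bddNear_of_exp_tendsto hw hres h2).sub (eventually_norm_corr_le K (1 : DirichletCharacter ℂ 1))
  exact this.congr_left fun s ↦ by ring

/-- For a character nontrivial on norms, the prime sum is bounded above, and bounded as soon as it
is bounded below. -/
theorem primeSum_bounds [NeZero M] (χ : DirichletCharacter ℂ M)
    (hsmall : ∀ p : ℕ, p.Prime → p < smallBound (Module.finrank ℚ K) → p ∣ M)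
    (hχ : ∀ N : ℕ, N ≠ 0 → ∃ q : (Ideal (𝓞 K))⁰,
      (Ideal.absNorm (q : Ideal (𝓞 K))).Coprime N ∧
        χ (Ideal.absNorm (q : Ideal (𝓞 K)) : ZMod M) ≠ 1) :
    (∃ C, ∀ᶠ s in 𝓝[>] (1 : ℝ), (primeSum (coeff K χ) s).re ≤ C) ∧
      ((∃ C, ∀ᶠ s in 𝓝[>] (1 : ℝ), C ≤ (primeSum (coeff K χ) s).re) →
        BddNear (primeSum (coeff K χ))) := by
  set a := coeff K χ with ha
  set d := Module.finrank ℚ K
  have hE := isEulerSeq_coeff K χ
  obtain ⟨l, hl⟩ := exists_tendsto_idealSum χ hχ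
  have hfac : ∀ (s : ℝ), ∀ p ∈ smallPrimes d, factor a s p = 1 := by
    intro s p hp
    rw [factor, tsum_eq_single 0 fun k hk ↦ ?_]
    · simp [term, ha, coeff_one]
    have hdvd := hsmall p p.2 (mem_smallPrimes.mp hp)
    have : ¬ IsUnit (((p : ℕ) ^ k : ℕ) : ZMod M) := by
      rw [ZMod.isUnit_iff_coprime, Nat.coprime_pow_left_iff (Nat.pos_of_ne_zero hk)]
      exact fun h ↦ p.2.ne_one (Nat.dvd_one.mp (h ▸ Nat.dvd_gcd dvd_rfl hdvd))
    simp [term, ha, coeff, p.2.ne_zero, MulChar.map_nonunit χ this, -Nat.cast_pow]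
  have h2 : Tendsto (fun s ↦ Complex.exp (primeSum a s + corr a d s)) (𝓝[>] 1) (𝓝 l) := by
    refine hl.congr' ?_
    filter_upwards [self_mem_nhdsWithin] with s (hs : 1 < s)
    rw [← (hasSum_term_coeff K χ hs).tsum_eq, ← ha, tsum_term_eq hE hs,
      Finset.prod_congr rfl (hfac s), Finset.prod_const_one, one_mul]
  obtain ⟨C₁, hC₁⟩ := bddNear_iff.mp (eventually_norm_corr_le K χ)
  have hup : ∃ C, ∀ᶠ s in 𝓝[>] (1 : ℝ), (primeSum a s).re ≤ C := by
    refine ⟨Real.log (‖l‖ + 1) + C₁, ?_⟩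
    filter_upwards [hC₁, h2.norm.eventually_le_const (lt_add_one ‖l‖)] with s hs hs'
    rw [Complex.norm_exp, Real.le_log_iff_exp_le (by positivity) |>.symm, Complex.add_re] at hs'
    have := (abs_le.mp ((Complex.abs_re_le_norm _).trans hs)).1
    linarith
  refine ⟨hup, fun ⟨C, hC⟩ ↦ ?_⟩
  have hl0 : l ≠ 0 := by
    intro h0
    subst h0
    have h3 := h2.norm
    rw [norm_zero] at h3
    obtain ⟨s, ⟨hs, hs₁⟩, hs₂⟩ := ((hC.and hC₁).and
      (h3.eventually_lt_const (Real.exp_pos (C - C₁)))).exists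
    rw [Complex.norm_exp, Real.exp_lt_exp, Complex.add_re] at hs₂
    have := (abs_le.mp ((Complex.abs_re_le_norm _).trans hs₁)).1
    linarith
  have hw : ContinuousOn (fun s ↦ primeSum a s + corr a d s) (Set.Ioc 1 2) :=
    (((continuousOn_primeSum hE.zero (bddCoeff_coeff K _)).mono Set.Ioc_subset_Ioi_self)).add
      ((continuousOn_corr hE).mono fun s hs ↦ Set.mem_Ici.mpr hs.1.le)
  exact ((bddNear_of_exp_tendsto hw hl0 h2).sub (eventually_norm_corr_le K χ)).congr_left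
    fun s ↦ by rw [ha]; ring

end FLTAgent.Chebotarev
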