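import Mathlib.RingTheory.Frobenius
import Mathlib.NumberTheory.NumberField.Discriminant.Different
import Mathlib.NumberTheory.NumberField.Ideal.Basic
import Mathlib.FieldTheory.Galois.Basic
import Mathlib.GroupTheory.SpecificGroups.Cyclic

/-!
Degree one primes in the fixed field of a subgroup, counted through a Frobenius element.
-/

set_option autoImplicit false
set_option maxSynthPendingDepth 3

namespace FLTAgent.Chebotarev

open NumberField Ideal
open scoped Pointwise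

variable {N : Type*} [Field N] [NumberField N] (U : Subgroup Gal(N/ℚ))

local notation "K" => IntermediateField.fixedField U

lemma coe_smul_ringOfIntegers (g : Gal(N/ℚ)) (x : 𝓞 N) : ((g • x : 𝓞 N) : N) = g (x : N) := rfl

lemma smul_algebraMap_of_mem {u : Gal(N/ℚ)} (hu : u ∈ U) (y : 𝓞 K) :
    u • algebraMap (𝓞 K) (𝓞 N) y = algebraMap (𝓞 K) (𝓞 N) y :=
  RingOfIntegers.ext ((y : K).2 ⟨u, hu⟩)

instance smulCommClass_fixedField : SMulCommClass U (𝓞 K) (𝓞 N) :=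
  ⟨fun u y x ↦ by
    rw [Algebra.smul_def, Algebra.smul_def]
    show (u : Gal(N/ℚ)) • _ = _ * ((u : Gal(N/ℚ)) • x)
    rw [smul_mul', smul_algebraMap_of_mem U u.2]⟩

instance isInvariant_fixedField : Algebra.IsInvariant (𝓞 K) (𝓞 N) U := by
  refine ⟨fun x hx ↦ ?_⟩
  have hmem : (x : N) ∈ K := fun u ↦ congrArg (fun z : 𝓞 N ↦ (z : N)) (hx u)
  exact ⟨⟨⟨x, hmem⟩, (isIntegral_algHom_iff ((IntermediateField.val K).restrictScalars ℤ)
    Subtype.val_injective).mp x.2⟩, RingOfIntegers.ext rfl⟩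

variable [IsGalois ℚ N] {p : ℕ}

omit [IsGalois ℚ N] in
/-- At an unramified prime the Frobenius element is unique. -/
lemma eq_of_isArithFrobAt (hp : p.Prime) (hd : ¬ (p : ℤ) ∣ NumberField.discr N) {Q : Ideal (𝓞 N)}
    [Q.IsPrime] (hpQ : (p : 𝓞 N) ∈ Q) {φ ψ : Gal(N/ℚ)} (hφ : IsArithFrobAt ℤ φ Q)
    (hψ : IsArithFrobAt ℤ ψ Q) : φ = ψ := by
  have hun : Algebra.IsUnramifiedAt ℤ Q :=
    (NumberField.not_dvd_discr_iff_forall_mem N (𝓞 N) (Nat.prime_iff_prime_int.mp hp)).mp hd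
      Q inferInstance (by simpa using hpQ)
  have heq := AlgHom.IsArithFrobAt.eq_of_isUnramifiedAt hφ hψ Q.primeCompl_le_nonZeroDivisors
  refine AlgEquiv.ext fun y ↦ ?_
  obtain ⟨a, b, -, rfl⟩ := IsFractionRing.div_surjective (𝓞 N) y
  have key : ∀ z : 𝓞 N, φ (z : N) = ψ (z : N) := fun z ↦
    congrArg (fun w : 𝓞 N ↦ (w : N)) (DFunLike.congr_fun heq z)
  rw [map_div₀, map_div₀, key a, key b]

omit [IsGalois ℚ N] in
lemma natCard_quotient_under_int (hp : p.Prime) {Q : Ideal (𝓞 N)} [Q.IsPrime]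
    (hpQ : (p : 𝓞 N) ∈ Q) : Nat.card (ℤ ⧸ Q.under ℤ) = p := by
  have hu : Q.under ℤ = Ideal.span {(p : ℤ)} := by
    refine ((PrincipalIdealRing.isMaximal_of_irreducible
      (Nat.prime_iff_prime_int.mp hp).irreducible).eq_of_le (Ideal.IsPrime.ne_top inferInstance)
      ((span_singleton_le_iff_mem _).mpr ?_)).symm
    rw [Ideal.mem_comap, map_natCast]
    exact hpQ
  rw [hu, Nat.card_congr (Int.quotientSpanNatEquivZMod p).toEquiv, Nat.card_zmod]

omit [IsGalois ℚ N] in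
/-- A Frobenius element fixing the subfield makes the prime below of degree one. -/
lemma absNorm_under_eq (hp : p.Prime) {Q : Ideal (𝓞 N)} [Q.IsPrime] (hpQ : (p : 𝓞 N) ∈ Q)
    {ψ : Gal(N/ℚ)} (hψ : IsArithFrobAt ℤ ψ Q) (hU : ψ ∈ U) :
    absNorm (Q.under (𝓞 K)) = p := by
  set P := Q.under (𝓞 K) with hPdef
  have hpP : (p : 𝓞 K) ∈ P := by
    rw [hPdef, Ideal.mem_comap, map_natCast]
    exact hpQ
  have hP0 : P ≠ ⊥ := fun h ↦ hp.ne_zero (by simpa [h] using hpP)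
  have : Finite (𝓞 K ⧸ P) := (absNorm_ne_zero_iff P).mp (absNorm_eq_zero_iff.not.mpr hP0)
  have : P.IsMaximal := Ideal.IsPrime.isMaximal inferInstance hP0
  let := Ideal.Quotient.field P
  let : Fintype (𝓞 K ⧸ P) := Fintype.ofFinite _
  have hfrob : ∀ y : 𝓞 K ⧸ P, y ^ p = y := fun y ↦ by
    obtain ⟨y, rfl⟩ := Ideal.Quotient.mk_surjective y
    have h1 := hψ (algebraMap (𝓞 K) (𝓞 N) y)
    rw [natCard_quotient_under_int hp hpQ, MulSemiringAction.toAlgHom_apply,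
      smul_algebraMap_of_mem U hU, ← map_pow, ← map_sub] at h1
    rw [← map_pow, eq_comm, Ideal.Quotient.eq]
    exact h1
  have hle : Fintype.card (𝓞 K ⧸ P) ≤ p := by
    have hdeg := Polynomial.card_le_degree_of_subset_roots (Z := (Finset.univ : Finset (𝓞 K ⧸ P)))
      (p := (Polynomial.X ^ p - Polynomial.X : Polynomial (𝓞 K ⧸ P))) fun y _ ↦ by
        rw [Polynomial.mem_roots (FiniteField.X_pow_card_sub_X_ne_zero _ hp.one_lt)]
        simp [hfrob y]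
    rwa [FiniteField.X_pow_card_sub_X_natDegree_eq _ hp.one_lt] at hdeg
  have hge : p ≤ Fintype.card (𝓞 K ⧸ P) := by
    have : CharP (𝓞 K ⧸ P) p := by
      refine (CharP.charP_iff_prime_eq_zero hp).mpr ?_
      rw [← map_natCast (Ideal.Quotient.mk P), Ideal.Quotient.eq_zero_iff_mem]
      exact hpP
    obtain ⟨n, -, hn⟩ := FiniteField.card (𝓞 K ⧸ P) p
    rw [hn]
    exact le_self_pow hp.one_lt.le n.ne_zero
  rw [absNorm_apply, Submodule.cardQuot_apply]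
  exact (Nat.card_eq_fintype_card).trans (le_antisymm hle hge)

/-- If the prime below has degree one, the decomposition group fixes the subfield. -/
lemma stabilizer_le (hp : p.Prime) (hd : ¬ (p : ℤ) ∣ NumberField.discr N) {Q : Ideal (𝓞 N)}
    [Q.IsPrime] (hpQ : (p : 𝓞 N) ∈ Q) {ψ : Gal(N/ℚ)} (hψ : IsArithFrobAt ℤ ψ Q)
    (hnorm : absNorm (Q.under (𝓞 K)) = p) : MulAction.stabilizer Gal(N/ℚ) Q ≤ U := by
  intro h hh
  set P := Q.under (𝓞 K)
  have hcard : Nat.card (𝓞 K ⧸ P) = p := hnorm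
  have : Nontrivial (𝓞 K ⧸ P) := Ideal.Quotient.nontrivial_iff.mpr (Ideal.IsPrime.ne_top inferInstance)
  let e₀ := Ideal.Quotient.stabilizerHom Q (Q.under ℤ) Gal(N/ℚ) ⟨h, hh⟩
  let l : (𝓞 N ⧸ Q) ≃ₐ[𝓞 K ⧸ P] (𝓞 N ⧸ Q) := AlgEquiv.ofRingEquiv (f := e₀.toRingEquiv) fun y ↦ by
    have := Fact.mk hp
    have hy : y ∈ AddSubgroup.zmultiples (1 : 𝓞 K ⧸ P) := by
      rw [zmultiples_eq_top_of_prime_card hcard one_ne_zero]
      trivial
    obtain ⟨n, rfl⟩ := AddSubgroup.mem_zmultiples_iff.mp hy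
    simp
  obtain ⟨⟨u, hu⟩, hul⟩ := Ideal.Quotient.stabilizerHom_surjective U P Q l
  have hcongr : ∀ x : 𝓞 N, (u : Gal(N/ℚ)) • x - h • x ∈ Q := fun x ↦
    Ideal.Quotient.eq.mp (DFunLike.congr_fun hul (Ideal.Quotient.mk Q x))
  have hustab : (u : Gal(N/ℚ)) • Q = Q := hu
  have hι : ∀ x : 𝓞 N, ((u : Gal(N/ℚ))⁻¹ * h) • x - x ∈ Q := fun x ↦ by
    have h1 := (hcongr x)
    rw [← hustab, Ideal.mem_pointwise_smul_iff_inv_smul_mem, smul_sub, inv_smul_smul,
      ← mul_smul, ← Submodule.neg_mem_iff, neg_sub] at h1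
    exact h1
  have hψu : IsArithFrobAt ℤ (ψ * ((u : Gal(N/ℚ))⁻¹ * h)) Q := by
    intro x
    rw [MulSemiringAction.toAlgHom_apply, mul_smul]
    have h1 : ψ • (((u : Gal(N/ℚ))⁻¹ * h) • x - x) ∈ Q := by
      rw [← MulAction.mem_stabilizer_iff.mp (IsArithFrobAt.mem_stabilizer hψ),
        Ideal.mem_pointwise_smul_iff_inv_smul_mem, inv_smul_smul]
      exact hι x
    have := add_mem h1 (hψ x)
    rwa [smul_sub, MulSemiringAction.toAlgHom_apply, sub_add_sub_cancel] at this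
  have heq := eq_of_isArithFrobAt hp hd hpQ hψ hψu
  rw [left_eq_mul, inv_mul_eq_one] at heq
  exact heq ▸ u.2

/-- The number of degree one primes of a fixed field over an unramified prime. -/
theorem card_mul_natCard_absNorm_eq (hp : p.Prime) (hd : ¬ (p : ℤ) ∣ NumberField.discr N)
    {Q : Ideal (𝓞 N)} [Q.IsPrime] (hpQ : (p : 𝓞 N) ∈ Q) {φ : Gal(N/ℚ)}
    (hφ : IsArithFrobAt ℤ φ Q) :
    Nat.card U * Nat.card {I : Ideal (𝓞 K) // absNorm I = p} =
      Nat.card {g : Gal(N/ℚ) // g⁻¹ * φ * g ∈ U} := by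
  classical
  have hsmul_mem : ∀ g : Gal(N/ℚ), (p : 𝓞 N) ∈ g • Q := fun g ↦ by
    rw [Ideal.mem_pointwise_smul_iff_inv_smul_mem]
    have : g⁻¹ • (p : 𝓞 N) = (p : 𝓞 N) := map_natCast (MulSemiringAction.toRingHom _ (𝓞 N) g⁻¹) p
    rwa [this]
  have hFg : ∀ g : Gal(N/ℚ), IsArithFrobAt ℤ (g * φ * g⁻¹) (g • Q) := fun g ↦ hφ.conj g
  -- elements carrying `Q` above a given degree one prime
  have key : ∀ g₀ g : Gal(N/ℚ), absNorm ((g₀ • Q).under (𝓞 K)) = p →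
      ((g • Q).under (𝓞 K) = (g₀ • Q).under (𝓞 K) ↔ g * g₀⁻¹ ∈ U) := by
    intro g₀ g hn
    have : (g₀ • Q).IsPrime := inferInstance
    constructor
    · intro h
      obtain ⟨u, hu⟩ := Algebra.IsInvariant.exists_smul_of_under_eq (𝓞 K) (𝓞 N) U _ _ h.symm
      change g • Q = (u : Gal(N/ℚ)) • g₀ • Q at hu
      have hmem : g₀ * (g⁻¹ * (u : Gal(N/ℚ)) * g₀) * g₀⁻¹ ∈
          MulAction.stabilizer Gal(N/ℚ) (g₀ • Q) := by
        rw [MulAction.mem_stabilizer_iff, mul_smul, mul_smul, mul_smul, mul_smul,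
          inv_smul_smul, ← hu, inv_smul_smul]
      have h2 := stabilizer_le U hp hd (hsmul_mem g₀) (hFg g₀) hn hmem
      have h3 : g * g₀⁻¹ = (u : Gal(N/ℚ)) * (g₀ * (g⁻¹ * (u : Gal(N/ℚ)) * g₀) * g₀⁻¹)⁻¹ := by group
      rw [h3]
      exact U.mul_mem u.2 (U.inv_mem h2)
    · intro h
      have hg : g • Q = (⟨_, h⟩ : U) • g₀ • Q := by
        change g • Q = (g * g₀⁻¹) • g₀ • Q
        rw [← mul_smul, inv_mul_cancel_right]
      rw [hg]
      exact Ideal.under_smul ..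
  let S := {g : Gal(N/ℚ) // g * φ * g⁻¹ ∈ U}
  let I₁ := {I : Ideal (𝓞 K) // absNorm I = p}
  let Φ : S → I₁ := fun g ↦
    ⟨(g.1 • Q).under (𝓞 K), absNorm_under_eq U hp (hsmul_mem g.1) (hFg g.1) g.2⟩
  have hsurj : Function.Surjective Φ := by
    rintro ⟨I, hI⟩
    have : I.IsPrime := isPrime_of_irreducible_absNorm (by rw [hI]; exact hp)
    have hI0 : I ≠ ⊥ := fun h ↦ by rw [h, absNorm_bot] at hI; exact hp.ne_zero hI.symm
    have : I.IsMaximal := Ideal.IsPrime.isMaximal inferInstance hI0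
    obtain ⟨Q', hQ'max, hQ'⟩ := Ideal.exists_maximal_ideal_liesOver_of_isIntegral (S := 𝓞 N) I
    have hp' : (p : 𝓞 N) ∈ Q' := by
      have : algebraMap (𝓞 K) (𝓞 N) (p : 𝓞 K) ∈ Q' :=
        (Ideal.mem_of_liesOver Q' I _).mp (hI ▸ absNorm_mem I)
      simpa using this
    have hmax : ∀ R : Ideal (𝓞 N), R.IsPrime → (p : 𝓞 N) ∈ R →
        R.under ℤ = Ideal.span {(p : ℤ)} := fun R hR hpR ↦ by
      refine ((PrincipalIdealRing.isMaximal_of_irreducible
        (Nat.prime_iff_prime_int.mp hp).irreducible).eq_of_le (Ideal.IsPrime.ne_top inferInstance)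
        ((span_singleton_le_iff_mem _).mpr ?_)).symm
      rw [Ideal.mem_comap, map_natCast]
      exact hpR
    obtain ⟨g, hg⟩ := Algebra.IsInvariant.exists_smul_of_under_eq ℤ (𝓞 N) Gal(N/ℚ) Q Q'
      ((hmax Q inferInstance hpQ).trans (hmax Q' inferInstance hp').symm)
    have hn : absNorm ((g • Q).under (𝓞 K)) = p := by rw [← hg, ← hQ'.over, hI]
    have hmem : g * φ * g⁻¹ ∈ U := stabilizer_le U hp hd (hsmul_mem g) (hFg g) hn
      (IsArithFrobAt.mem_stabilizer (hFg g))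
    exact ⟨⟨g, hmem⟩, Subtype.ext ((congrArg (fun R : Ideal (𝓞 N) ↦ R.under (𝓞 K)) hg.symm).trans hQ'.over.symm)⟩
  have hfib : ∀ I : I₁, Nat.card {g : S // Φ g = I} = Nat.card U := by
    intro I
    obtain ⟨g₀, rfl⟩ := hsurj I
    have hn : absNorm ((g₀.1 • Q).under (𝓞 K)) = p := (Φ g₀).2
    refine Nat.card_congr
      { toFun := fun g ↦ ⟨g.1.1 * g₀.1⁻¹, (key g₀.1 g.1.1 hn).mp (congrArg Subtype.val g.2)⟩
        invFun := fun u ↦ ⟨⟨u.1 * g₀.1, ?_⟩, ?_⟩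
        left_inv := fun g ↦ Subtype.ext (Subtype.ext (inv_mul_cancel_right g.1.1 g₀.1))
        right_inv := fun u ↦ Subtype.ext (mul_inv_cancel_right u.1 g₀.1) }
    · have : u.1 * g₀.1 * φ * (u.1 * g₀.1)⁻¹ = u.1 * (g₀.1 * φ * g₀.1⁻¹) * u.1⁻¹ := by group
      rw [this]
      exact U.mul_mem (U.mul_mem u.2 g₀.2) (U.inv_mem u.2)
    · refine Subtype.ext ((key g₀.1 (u.1 * g₀.1) hn).mpr ?_)
      rw [mul_inv_cancel_right]
      exact u.2
  have : Finite I₁ := (finite_setOfPred_absNorm_eq p).to_subtype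
  let : Fintype I₁ := Fintype.ofFinite _
  have e2 : {g : Gal(N/ℚ) // g⁻¹ * φ * g ∈ U} ≃ S :=
    (Equiv.inv Gal(N/ℚ)).subtypeEquiv fun g ↦ by simp
  rw [Nat.card_congr e2, ← Nat.card_congr (Equiv.sigmaFiberEquiv Φ), Nat.card_sigma]
  simp only [hfib, Finset.sum_const, Finset.card_univ, smul_eq_mul]
  rw [← Nat.card_eq_fintype_card, mul_comm]

end FLTAgent.Chebotarev
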