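import Mathlib.NumberTheory.DirichletCharacter.Orthogonality
import Mathlib.NumberTheory.LSeries.DirichletContinuation
import Mathlib.RingTheory.RootsOfUnity.PrimitiveRoots
import Mathlib.RingTheory.RootsOfUnity.AlgebraicallyClosed
import Mathlib.Analysis.Complex.Polynomial.Basic
import Fermat.Agent.Chebotarev.Asymptotic
import Fermat.Agent.Chebotarev.Splitting

/-!
Chebotarev's crossing argument: exact density of the primes with Frobenius conjugate to an
element on whose powers the cyclotomic character is injective.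
-/

set_option autoImplicit false
set_option maxSynthPendingDepth 3

namespace FLTAgent.Chebotarev

open NumberField Filter Topology
open scoped nonZeroDivisors Pointwise

variable {N : Type*} [Field N] [NumberField N]

/-- A choice of Frobenius elements of the unramified primes. -/
structure FrobChoice (N : Type*) [Field N] [NumberField N] where
  toFun : ℕ → Gal(N/ℚ)
  spec : ∀ p : ℕ, p.Prime → ¬ (p : ℤ) ∣ NumberField.discr N →
    ∃ Q : Ideal (𝓞 N), Q.IsPrime ∧ (p : 𝓞 N) ∈ Q ∧ IsArithFrobAt ℤ (toFun p) Q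

/-- The number of elements conjugating the Frobenius element into a set. -/
noncomputable def FrobChoice.count (F : FrobChoice N) (S : Set Gal(N/ℚ)) (n : ℕ) : ℂ :=
  if n = 0 then 0 else (Nat.card {g : Gal(N/ℚ) // g⁻¹ * F.toFun n * g ∈ S} : ℂ)

lemma FrobChoice.bddCoeff_count (F : FrobChoice N) (S : Set Gal(N/ℚ)) : BddCoeff (F.count S) := by
  refine ⟨Nat.card Gal(N/ℚ), fun p ↦ ?_⟩
  rw [FrobChoice.count, if_neg p.2.ne_zero, Complex.norm_natCast]
  exact_mod_cast Nat.card_le_card_of_injective _ Subtype.val_injective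

variable {m : ℕ} [NeZero m] {ζ : N} (hζ : IsPrimitiveRoot ζ m)

include hζ in
/-- The cyclotomic character of a Frobenius element. -/
lemma autToPow_of_isArithFrobAt {p : ℕ} (hp : p.Prime) (hpm : ¬ p ∣ m) {Q : Ideal (𝓞 N)}
    [Q.IsPrime] (hpQ : (p : 𝓞 N) ∈ Q) {φ : Gal(N/ℚ)} (hφ : IsArithFrobAt ℤ φ Q) :
    ((hζ.autToPow ℚ φ : (ZMod m)ˣ) : ZMod m) = p := by
  let z : 𝓞 N := ⟨ζ, hζ.isIntegral (NeZero.pos m)⟩
  have hz : z ^ m = 1 := RingOfIntegers.ext (by simpa [z] using hζ.pow_eq_one)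
  have hm : (m : 𝓞 N) ∉ Q := fun h ↦ by
    have hcop := Nat.isCoprime_iff_coprime.mpr ((Nat.Prime.coprime_iff_not_dvd hp).mpr hpm)
    obtain ⟨u, v, huv⟩ := hcop
    refine (Ideal.IsPrime.ne_top ‹_›) ((Ideal.eq_top_iff_one Q).mpr ?_)
    have h1 : ((u * (p : ℤ) + v * (m : ℤ) : ℤ) : 𝓞 N) = 1 := by rw [huv, Int.cast_one]
    rw [← h1, Int.cast_add, Int.cast_mul, Int.cast_mul, Int.cast_natCast, Int.cast_natCast]
    exact Q.add_mem (Q.mul_mem_left _ hpQ) (Q.mul_mem_left _ h)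
  have h1 := hφ.apply_of_pow_eq_one hz hm
  rw [natCard_quotient_under_int hp hpQ] at h1
  have h2 : φ ζ = ζ ^ p := congrArg (fun w : 𝓞 N ↦ (w : N)) h1
  rw [← hζ.autToPow_spec ℚ φ, ← pow_mod_orderOf ζ p, ← hζ.eq_orderOf] at h2
  have h3 := hζ.pow_inj (ZMod.val_lt _) (Nat.mod_lt _ (NeZero.pos m)) h2
  rw [← ZMod.natCast_zmod_val (n := m) (hζ.autToPow ℚ φ : ZMod m), h3, ZMod.natCast_mod]

/-- The primes to be left out. -/
noncomputable def badPrimes (N : Type*) [Field N] [NumberField N] (M : ℕ) : Finset ℕ :=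
  (NumberField.discr N).natAbs.primeFactors ∪ M.primeFactors

lemma notMem_badPrimes {M p : ℕ} (hM : M ≠ 0) (hp : p.Prime) (h : p ∉ badPrimes N M) :
    ¬ (p : ℤ) ∣ NumberField.discr N ∧ ¬ p ∣ M := by
  rw [badPrimes, Finset.mem_union, not_or, Nat.mem_primeFactors, Nat.mem_primeFactors] at h
  exact ⟨fun hd ↦ h.1 ⟨hp, Int.natCast_dvd.mp hd,
    Int.natAbs_ne_zero.mpr (NumberField.discr_ne_zero N)⟩, fun hd ↦ h.2 ⟨hp, hd, hM⟩⟩

variable [IsGalois ℚ N] (F : FrobChoice N)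

local notation "trivChar" => (1 : DirichletCharacter ℂ 1)

lemma card_mul_coeff_one (U : Subgroup Gal(N/ℚ)) {p : ℕ} (hp : p.Prime)
    (hd : ¬ (p : ℤ) ∣ NumberField.discr N) :
    (Nat.card U : ℂ) * coeff (IntermediateField.fixedField U) trivChar p = F.count U p := by
  obtain ⟨Q, hQ, hpQ, hF⟩ := F.spec p hp hd
  rw [coeff, if_neg hp.ne_zero, FrobChoice.count, if_neg hp.ne_zero,
    MulChar.one_apply (isUnit_of_subsingleton _), one_mul, ← Nat.cast_mul]
  exact congrArg Nat.cast (card_mul_natCard_absNorm_eq U hp hd hpQ hF)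

lemma bddNear_count (U : Subgroup Gal(N/ℚ)) :
    BddNear (fun s ↦ primeSum (F.count U) s - (Nat.card U : ℂ) * (logInv s : ℂ)) := by
  set K := IntermediateField.fixedField U
  have h1 : BddCoeff (fun n ↦ (Nat.card U : ℂ) * coeff K trivChar n) := by
    obtain ⟨C, hC⟩ := bddCoeff_coeff K trivChar
    exact ⟨_, fun p ↦ (norm_mul_le _ _).trans (mul_le_mul_of_nonneg_left (hC p) (norm_nonneg _))⟩
  have h := (bddNear_primeSum_sub (F.bddCoeff_count U) h1 (S := badPrimes N 1) fun p hp ↦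
    (card_mul_coeff_one F U p.2 (notMem_badPrimes one_ne_zero p.2 hp).1).symm).add
    ((bddNear_primeSum_idealCount K).const_mul_left (Nat.card U : ℂ))
  refine h.congr_left fun s ↦ ?_
  rw [primeSum_mul]
  ring

lemma coeff_eq_mul {K : Type*} [Field K] [NumberField K] {M : ℕ} (χ : DirichletCharacter ℂ M)
    {n : ℕ} : coeff K χ n = χ (n : ZMod M) * coeff K trivChar n := by
  simp only [coeff, MulChar.one_apply (isUnit_of_subsingleton _), one_mul]
  split_ifs with h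
  · rw [mul_zero]
  · rfl

variable (τ : Gal(N/ℚ)) (hinj : ∀ u ∈ Subgroup.zpowers τ, hζ.autToPow ℚ u = 1 → u = 1)

lemma exists_conj_mem_of_count_ne_zero {S : Set Gal(N/ℚ)} {p : ℕ} (hp : p.Prime)
    (hd : ¬ (p : ℤ) ∣ NumberField.discr N) (hpm : ¬ p ∣ m) (h : F.count S p ≠ 0) :
    ∃ u ∈ S, ((hζ.autToPow ℚ u : (ZMod m)ˣ) : ZMod m) = p := by
  rw [FrobChoice.count, if_neg hp.ne_zero, Nat.cast_ne_zero, Nat.card_ne_zero] at h
  obtain ⟨⟨⟨g, hg⟩⟩, -⟩ := h
  obtain ⟨Q, hQ, hpQ, hF⟩ := F.spec p hp hd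
  refine ⟨_, hg, ?_⟩
  rw [map_mul, map_mul, map_inv, mul_comm _ (hζ.autToPow ℚ g), ← mul_assoc, mul_inv_cancel,
    one_mul]
  exact autToPow_of_isArithFrobAt hζ hp hpm hpQ hF

/-- The characters trivial on the image of the powers of `τ`. -/
def TrivialOn (ψ : DirichletCharacter ℂ m) : Prop :=
  ∀ u ∈ Subgroup.zpowers τ, ψ ((hζ.autToPow ℚ u : (ZMod m)ˣ) : ZMod m) = 1

include F in
lemma bddNear_of_trivialOn {ψ : DirichletCharacter ℂ m} (hψ : TrivialOn hζ τ ψ) :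
    BddNear (fun s ↦ primeSum (coeff (IntermediateField.fixedField (Subgroup.zpowers τ)) ψ) s -
      (logInv s : ℂ)) := by
  set U := Subgroup.zpowers τ
  set K := IntermediateField.fixedField U
  have h : ∀ p : Nat.Primes, (p : ℕ) ∉ badPrimes N m → coeff K ψ p = coeff K trivChar p := by
    intro p hp
    obtain ⟨hd, hpm⟩ := notMem_badPrimes (NeZero.ne m) p.2 hp
    rcases eq_or_ne (coeff K trivChar p) 0 with h0 | h0
    · rw [coeff_eq_mul, h0, mul_zero]
    have hc : F.count U p ≠ 0 := by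
      rw [← card_mul_coeff_one F U p.2 hd]
      exact mul_ne_zero (Nat.cast_ne_zero.mpr Nat.card_pos.ne') h0
    obtain ⟨u, hu, hup⟩ := exists_conj_mem_of_count_ne_zero hζ F p.2 hd hpm hc
    rw [coeff_eq_mul, ← hup, hψ u hu, one_mul]
  exact ((bddNear_primeSum_sub (bddCoeff_coeff K ψ) (bddCoeff_coeff K trivChar) h).add
    (bddNear_primeSum_idealCount K)).congr_left fun s ↦ by ring

include F in
lemma bounds_of_not_trivialOn {ψ : DirichletCharacter ℂ m} (hψ : ¬ TrivialOn hζ τ ψ) :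
    (∃ C, ∀ᶠ s in 𝓝[>] (1 : ℝ),
      (primeSum (coeff (IntermediateField.fixedField (Subgroup.zpowers τ)) ψ) s).re ≤ C) ∧
    ((∃ C, ∀ᶠ s in 𝓝[>] (1 : ℝ),
      C ≤ (primeSum (coeff (IntermediateField.fixedField (Subgroup.zpowers τ)) ψ) s).re) →
      BddNear (primeSum (coeff (IntermediateField.fixedField (Subgroup.zpowers τ)) ψ))) := by
  set U := Subgroup.zpowers τ
  set K := IntermediateField.fixedField U
  set M := m * (smallBound (Module.finrank ℚ K)).factorial with hMdef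
  have : NeZero M := ⟨mul_ne_zero (NeZero.ne m) (Nat.factorial_ne_zero _)⟩
  have hmM : m ∣ M := dvd_mul_right _ _
  set χ := DirichletCharacter.changeLevel hmM ψ with hχdef
  have hχψ : ∀ n : ℕ, n.Coprime M → χ (n : ZMod M) = ψ (n : ZMod m) := fun n hn ↦ by
    simpa using DirichletCharacter.changeLevel_eq_cast_of_dvd' ψ hmM (a := (n : ℤ))
      (Nat.isCoprime_iff_coprime.mpr hn)
  have hcoeff : ∀ p : Nat.Primes, (p : ℕ) ∉ badPrimes N M → coeff K χ p = coeff K ψ p := by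
    intro p hp
    rw [coeff_eq_mul χ, coeff_eq_mul ψ,
      hχψ _ ((Nat.Prime.coprime_iff_not_dvd p.2).mpr (notMem_badPrimes (NeZero.ne M) p.2 hp).2)]
  have hbdd := bddNear_primeSum_sub (bddCoeff_coeff K χ) (bddCoeff_coeff K ψ) hcoeff
  have hsmall : ∀ p : ℕ, p.Prime → p < smallBound (Module.finrank ℚ K) → p ∣ M := fun p hp hlt ↦
    dvd_mul_of_dvd_right (Nat.dvd_factorial hp.pos hlt.le) _
  have hhyp : ∀ n : ℕ, n ≠ 0 → ∃ q : (Ideal (𝓞 K))⁰,
      (Ideal.absNorm (q : Ideal (𝓞 K))).Coprime n ∧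
        χ (Ideal.absNorm (q : Ideal (𝓞 K)) : ZMod M) ≠ 1 := by
    intro n hn
    by_contra hcon
    push Not at hcon
    let f : Gal(N/ℚ) →* ℂˣ := (MulChar.toUnitHom ψ).comp (hζ.autToPow ℚ)
    set V := U ⊓ f.ker
    have hV : ∀ u, u ∈ V ↔ u ∈ U ∧ ψ ((hζ.autToPow ℚ u : (ZMod m)ˣ) : ZMod m) = 1 := fun u ↦ by
      simp [V, f, MonoidHom.mem_ker, Units.ext_iff, MulChar.coe_toUnitHom]
    have hcount : ∀ p : Nat.Primes, (p : ℕ) ∉ badPrimes N (n * M) →
        F.count V p = F.count U p := by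
      intro p hp
      obtain ⟨hd, hpnM⟩ := notMem_badPrimes (mul_ne_zero hn (NeZero.ne M)) p.2 hp
      have hpn : ¬ (p : ℕ) ∣ n := fun h ↦ hpnM (h.mul_right M)
      have hpM : ¬ (p : ℕ) ∣ M := fun h ↦ hpnM (h.mul_left n)
      have hpm : ¬ (p : ℕ) ∣ m := fun h ↦ hpM (h.trans hmM)
      simp only [FrobChoice.count, if_neg p.2.ne_zero]
      refine congrArg Nat.cast (Nat.card_congr (Equiv.subtypeEquivRight fun g ↦ ?_))
      refine ⟨fun h ↦ ((hV _).mp h).1, fun h ↦ (hV _).mpr ⟨h, ?_⟩⟩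
      have hc : F.count U p ≠ 0 := by
        rw [FrobChoice.count, if_neg p.2.ne_zero, Nat.cast_ne_zero, Nat.card_ne_zero]
        exact ⟨⟨⟨g, h⟩⟩, inferInstance⟩
      rw [← card_mul_coeff_one F U p.2 hd, coeff, if_neg p.2.ne_zero] at hc
      obtain ⟨⟨⟨I, hI⟩⟩, -⟩ : Nonempty {I : Ideal (𝓞 K) // Ideal.absNorm I = p} ∧ _ :=
        Nat.card_ne_zero.mp fun h0 ↦ hc (by
          have h0' : idealCount (IntermediateField.fixedField U) p = 0 := h0
          simp [h0'])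
      have hI0 : I ∈ (Ideal (𝓞 K))⁰ :=
        Ideal.absNorm_ne_zero_iff_mem_nonZeroDivisors.mp (by rw [hI]; exact p.2.ne_zero)
      have h1 := hcon ⟨I, hI0⟩ (by
        show (Ideal.absNorm I).Coprime n
        rw [hI]
        exact (Nat.Prime.coprime_iff_not_dvd p.2).mpr hpn)
      simp only [hI] at h1
      rw [hχψ _ ((Nat.Prime.coprime_iff_not_dvd p.2).mpr hpM)] at h1
      obtain ⟨Q, hQ, hpQ, hFr⟩ := F.spec p p.2 hd
      rw [map_mul, map_mul, map_inv, mul_comm _ (hζ.autToPow ℚ g), ← mul_assoc, mul_inv_cancel,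
        one_mul, autToPow_of_isArithFrobAt hζ p.2 hpm hpQ hFr]
      exact h1
    have h := ((bddNear_primeSum_sub (F.bddCoeff_count V) (F.bddCoeff_count U) hcount).sub
      (bddNear_count F V)).add (bddNear_count F U)
    have h0 : ((Nat.card V : ℂ) - Nat.card U) = 0 :=
      eq_zero_of_bddNear_mul_logInv (h.congr_left fun s ↦ by ring)
    rw [sub_eq_zero, Nat.cast_inj] at h0
    have hVU : V = U := Subgroup.eq_of_le_of_card_ge inf_le_left h0.ge
    exact hψ fun u hu ↦ ((hV u).mp (hVU.symm ▸ hu)).2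
  obtain ⟨⟨C, hC⟩, hlow⟩ := primeSum_bounds K χ hsmall hhyp
  obtain ⟨D, hD⟩ := bddNear_iff.mp hbdd
  refine ⟨⟨C + D, ?_⟩, fun ⟨C', hC'⟩ ↦ ?_⟩
  · filter_upwards [hC, hD] with s h1 h2
    have := (abs_le.mp ((Complex.abs_re_le_norm _).trans h2)).1
    rw [Complex.sub_re] at this
    linarith
  · refine ((hlow ⟨C' - D, ?_⟩).sub hbdd).congr_left fun s ↦ by ring
    filter_upwards [hC', hD] with s h1 h2
    have := (abs_le.mp ((Complex.abs_re_le_norm _).trans h2)).1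
    rw [Complex.sub_re] at this
    linarith

include hinj in
/-- The density of the primes whose Frobenius element is conjugate to `τ`. -/
theorem bddNear_crossing :
    BddNear (fun s ↦ primeSum (F.count {τ}) s - (logInv s : ℂ)) := by
  classical
  set U := Subgroup.zpowers τ with hU
  set K := IntermediateField.fixedField U
  set κ := hζ.autToPow ℚ with hκ
  have hτ : τ ∈ U := Subgroup.mem_zpowers τ
  set T : Finset (DirichletCharacter ℂ m) := Finset.univ.filter (TrivialOn hζ τ) with hT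
  set φm : ℂ := (m.totient : ℂ) with hφm
  have hφm0 : φm ≠ 0 := Nat.cast_ne_zero.mpr (Nat.totient_pos.mpr (NeZero.pos m)).ne'
  have hUc : (Nat.card U : ℂ) ≠ 0 := Nat.cast_ne_zero.mpr Nat.card_pos.ne'
  have hsumψ : ∀ a : ZMod m, ∑ ψ : DirichletCharacter ℂ m, ψ a = if a = 1 then φm else 0 :=
    fun a ↦ DirichletCharacter.sum_characters_eq ℂ a
  have hcardT : (Nat.card U : ℂ) * T.card = φm := by
    have h1 : ∀ ψ : DirichletCharacter ℂ m, ∑ u : U, ψ ((κ u : (ZMod m)ˣ) : ZMod m) =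
        if TrivialOn hζ τ ψ then (Nat.card U : ℂ) else 0 := by
      intro ψ
      let f : U →* ℂ :=
        { toFun := fun u ↦ ψ ((κ u : (ZMod m)ˣ) : ZMod m)
          map_one' := by simp
          map_mul' := fun a b ↦ by simp }
      have hf : f = 1 ↔ TrivialOn hζ τ ψ :=
        ⟨fun h u hu ↦ DFunLike.congr_fun h ⟨u, hu⟩, fun h ↦ MonoidHom.ext fun u ↦ h u u.2⟩
      rw [show (∑ u : U, ψ ((κ u : (ZMod m)ˣ) : ZMod m)) = ∑ u : U, f u from rfl,
        sum_hom_units f, Nat.card_eq_fintype_card]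
      split_ifs with h1 h2 h2
      · simp
      · exact absurd (hf.mp h1) h2
      · exact absurd (hf.mpr h2) h1
      · simp
    have h2 := Finset.sum_comm (s := (Finset.univ : Finset (DirichletCharacter ℂ m)))
      (t := (Finset.univ : Finset U)) (f := fun ψ u ↦ ψ ((κ u : (ZMod m)ˣ) : ZMod m))
    simp only [h1, hsumψ] at h2
    have h3 : (∑ u : U, if ((κ u : (ZMod m)ˣ) : ZMod m) = 1 then φm else 0) = φm := by
      refine (Fintype.sum_eq_single (1 : U) fun u hu ↦ if_neg fun h ↦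
        hu (Subtype.ext (hinj u u.2 (Units.ext (h.trans Units.val_one.symm))))).trans ?_
      simp
    rw [← Finset.sum_filter, Finset.sum_const, nsmul_eq_mul, h3] at h2
    rw [← h2, hT, mul_comm]
  -- weighted sums over the characters
  have hweight : ∀ u₀ ∈ U, ∀ p : Nat.Primes, (p : ℕ) ∉ badPrimes N m →
      (Nat.card U : ℂ) * ∑ ψ : DirichletCharacter ℂ m,
          ψ ((κ u₀ : (ZMod m)ˣ)⁻¹ : (ZMod m)ˣ) * coeff K ψ p =
        φm * F.count {u₀} p := by
    intro u₀ hu₀ p hp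
    obtain ⟨hd, hpm⟩ := notMem_badPrimes (NeZero.ne m) p.2 hp
    obtain ⟨Q, hQ, hpQ, hFr⟩ := F.spec p p.2 hd
    have hκg : ∀ g : Gal(N/ℚ), ((κ (g⁻¹ * F.toFun p * g) : (ZMod m)ˣ) : ZMod m) = p := fun g ↦ by
      rw [map_mul, map_mul, map_inv, mul_comm _ (κ g), ← mul_assoc, mul_inv_cancel, one_mul,
        hκ, autToPow_of_isArithFrobAt hζ p.2 hpm hpQ hFr]
    simp only [coeff_eq_mul (K := K) (M := m), ← mul_assoc, ← map_mul, ← Finset.sum_mul]
    rw [hsumψ, mul_comm (Nat.card U : ℂ) (ite _ _ _), mul_assoc, card_mul_coeff_one F U p.2 hd]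
    split_ifs with hpeq
    · rw [Units.inv_mul_eq_one] at hpeq
      congr 1
      simp only [FrobChoice.count, if_neg p.2.ne_zero]
      refine congrArg Nat.cast (Nat.card_congr (Equiv.subtypeEquivRight fun g ↦
        ⟨fun h ↦ Set.mem_singleton_iff.mpr ?_, fun h ↦ Set.mem_singleton_iff.mp h ▸ hu₀⟩))
      refine mul_inv_eq_one.mp (hinj _ (U.mul_mem h (U.inv_mem hu₀)) ?_)
      show κ _ = 1
      rw [map_mul, map_inv, mul_inv_eq_one]
      exact Units.ext ((hκg g).trans hpeq.symm)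
    · rw [zero_mul]
      have h0 : F.count {u₀} p = 0 := by
        simp only [FrobChoice.count, if_neg p.2.ne_zero, Nat.cast_eq_zero, Nat.card_eq_zero]
        refine Or.inl ⟨fun ⟨g, hg⟩ ↦ hpeq ?_⟩
        rw [Units.inv_mul_eq_one, ← hκg g, Set.mem_singleton_iff.mp hg]
      rw [h0, mul_zero]
  have hsums : ∀ u₀ ∈ U, BddNear (fun s ↦ (Nat.card U : ℂ) * ∑ ψ : DirichletCharacter ℂ m,
      ψ ((κ u₀ : (ZMod m)ˣ)⁻¹ : (ZMod m)ˣ) * primeSum (coeff K ψ) s -
        φm * primeSum (F.count {u₀}) s) := by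
    intro u₀ hu₀
    have hb1 : BddCoeff (fun n ↦ ∑ ψ : DirichletCharacter ℂ m,
        ((Nat.card U : ℂ) * ψ ((κ u₀ : (ZMod m)ˣ)⁻¹ : (ZMod m)ˣ)) * coeff K ψ n) := by
      choose C hC using fun ψ : DirichletCharacter ℂ m ↦ bddCoeff_coeff K ψ
      exact ⟨_, fun p ↦ (norm_sum_le _ _).trans (Finset.sum_le_sum fun ψ _ ↦
        (norm_mul_le _ _).trans (mul_le_mul_of_nonneg_left (hC ψ p) (norm_nonneg _)))⟩
    have hb2 : BddCoeff (fun n ↦ φm * F.count {u₀} n) := by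
      obtain ⟨C, hC⟩ := F.bddCoeff_count {u₀}
      exact ⟨_, fun p ↦ (norm_mul_le _ _).trans (mul_le_mul_of_nonneg_left (hC p) (norm_nonneg _))⟩
    refine (bddNear_primeSum_sub hb1 hb2 (S := badPrimes N m) fun p hp ↦ ?_).congr' ?_ .rfl
    · simp only [mul_assoc, ← Finset.mul_sum]
      exact hweight u₀ hu₀ p hp
    · filter_upwards [self_mem_nhdsWithin] with s (hs : 1 < s)
      rw [primeSum_mul, primeSum_sum _ _ _ (fun ψ ↦ bddCoeff_coeff K ψ) hs, Finset.mul_sum]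
      simp only [mul_assoc]
  -- the characters not in `T` have bounded prime sums
  set R : Finset (DirichletCharacter ℂ m) := Finset.univ.filter fun ψ ↦ ¬ TrivialOn hζ τ ψ
    with hR
  have hsplit : ∀ f : DirichletCharacter ℂ m → ℂ, ∑ ψ, f ψ = ∑ ψ ∈ T, f ψ + ∑ ψ ∈ R, f ψ :=
    fun f ↦ (Finset.sum_filter_add_sum_filter_not _ _ _).symm
  have hTsum : BddNear (fun s ↦ ∑ ψ ∈ T, primeSum (coeff K ψ) s - (T.card : ℂ) * (logInv s : ℂ)) := by
    refine (Asymptotics.IsBigO.sum (s := T) fun ψ hψ ↦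
      bddNear_of_trivialOn hζ F τ (Finset.mem_filter.mp hψ).2).congr_left fun s ↦ ?_
    rw [Finset.sum_apply, Finset.sum_sub_distrib, Finset.sum_const, nsmul_eq_mul]
  have hone : BddNear (fun s ↦ (Nat.card U : ℂ) * ∑ ψ ∈ R, primeSum (coeff K ψ) s) := by
    have h1 := hsums 1 U.one_mem
    simp only [map_one, inv_one, Units.val_one, one_mul] at h1
    have h2 := bddNear_count F (⊥ : Subgroup Gal(N/ℚ))
    simp only [Subgroup.coe_bot, Subgroup.card_bot, Nat.cast_one, one_mul] at h2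
    refine ((h1.add (h2.const_mul_left φm)).sub (hTsum.const_mul_left (Nat.card U : ℂ))).congr_left
      fun s ↦ ?_
    rw [hsplit, ← hcardT]
    ring
  have hRbdd : ∀ ψ ∈ R, BddNear (primeSum (coeff K ψ)) := by
    intro ψ hψ
    have hb := fun ξ (hξ : ξ ∈ R) ↦ bounds_of_not_trivialOn hζ F τ (Finset.mem_filter.mp hξ).2
    refine (hb ψ hψ).2 ?_
    choose! C hC using fun ξ (hξ : ξ ∈ R) ↦ (hb ξ hξ).1
    obtain ⟨D, hD⟩ := bddNear_iff.mp (bddNear_re (hone.const_mul_left (Nat.card U : ℂ)⁻¹))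
    refine ⟨-D - ∑ ξ ∈ R.erase ψ, C ξ, ?_⟩
    filter_upwards [hD, (Finset.eventually_all R).mpr hC] with s h1 h2
    rw [← mul_assoc, inv_mul_cancel₀ hUc, one_mul, Complex.re_sum, ← Finset.add_sum_erase R _ hψ,
      Real.norm_eq_abs] at h1
    have h3 : ∑ ξ ∈ R.erase ψ, (primeSum (coeff K ξ) s).re ≤ ∑ ξ ∈ R.erase ψ, C ξ :=
      Finset.sum_le_sum fun ξ hξ ↦ h2 ξ (Finset.mem_of_mem_erase hξ)
    linarith [(abs_le.mp h1).1]
  -- conclusion
  have hTw : ∀ ψ ∈ T, ψ ((κ τ : (ZMod m)ˣ)⁻¹ : (ZMod m)ˣ) = 1 := fun ψ hψ ↦ by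
    rw [← map_inv]
    exact (Finset.mem_filter.mp hψ).2 _ (U.inv_mem hτ)
  have hR' : BddNear (fun s ↦ ∑ ψ ∈ R,
      ψ ((κ τ : (ZMod m)ˣ)⁻¹ : (ZMod m)ˣ) * primeSum (coeff K ψ) s) :=
    (Asymptotics.IsBigO.sum fun ψ hψ ↦ (hRbdd ψ hψ).const_mul_left
      (ψ ((κ τ : (ZMod m)ˣ)⁻¹ : (ZMod m)ˣ))).congr_left fun s ↦ by simp
  have hfin := (((hTsum.add hR').const_mul_left (Nat.card U : ℂ)).sub (hsums τ hτ)).const_mul_left φm⁻¹
  refine hfin.congr_left fun s ↦ ?_
  have hTs : ∑ ψ ∈ T, ψ ((κ τ : (ZMod m)ˣ)⁻¹ : (ZMod m)ˣ) * primeSum (coeff K ψ) s =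
      ∑ ψ ∈ T, primeSum (coeff K ψ) s := Finset.sum_congr rfl fun ψ hψ ↦ by rw [hTw ψ hψ, one_mul]
  rw [hsplit, hTs]
  field_simp
  rw [← hcardT]
  ring

end FLTAgent.Chebotarev
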