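import Mathlib.Algebra.Algebra.Rat
import Mathlib.NumberTheory.PrimesCongruentOne
import Mathlib.NumberTheory.Cyclotomic.Basic
import Mathlib.RingTheory.Polynomial.Cyclotomic.Roots
import Fermat.Agent.Frobenius.Unramified
import Fermat.Agent.Chebotarev.Crossing

/-!
Chebotarev's density theorem over `ℚ`, as a lower bound for Dirichlet density, and the existence of
primes with prescribed Frobenius.
-/

set_option autoImplicit false
set_option maxSynthPendingDepth 3

namespace FLTAgent.Chebotarev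

open Filter Topology FLTAgent.Frobenius
open scoped Pointwise NumberField

local notation "Qbar" => AlgebraicClosure ℚ

/-- The primes outside `S`, unramified in `L`, having a Frobenius element which restricts into
`C`. -/
def frobSet (L : IntermediateField ℚ Qbar) (C : Set Γℚ) (S : Finset ℕ) : Set Nat.Primes :=
  {p | (p : ℕ) ∉ S ∧ ∃ A : ValuationSubring Qbar, A.LiesOverPrime p ∧
    A.inertiaSubgroupIn ℚ ≤ L.fixingSubgroup ∧
    ∃ φ : Γℚ, A.IsFrobeniusAt φ p ∧ φ ∈ C}

lemma normal_qbar : Normal ℚ Qbar :=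
  have : Algebra.IsAlgebraic ℚ Qbar := AlgebraicClosure.isAlgebraic ℚ
  have : IsAlgClosure ℚ Qbar := ⟨inferInstance, inferInstance⟩
  IsAlgClosure.normal ℚ Qbar

/-- Few units modulo a prime have order prime to a given high power. -/
lemma card_not_dvd_orderOf_le {m n k : ℕ} [Fact m.Prime] (hn : n ≠ 0)
    (hdvd : n ^ (k + 1) ∣ m - 1) :
    Nat.card {b : (ZMod m)ˣ // ¬ n ∣ orderOf b} * 2 ^ k ≤ n * (m - 1) := by
  classical
  have hm1 : m - 1 ≠ 0 := Nat.sub_ne_zero_of_lt (Fact.out : m.Prime).one_lt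
  let B : ℕ → Finset (ZMod m)ˣ := fun q ↦
    Finset.univ.filter fun b ↦ b ^ ((m - 1) / q ^ k) = 1
  have hsub : Finset.univ.filter (fun b : (ZMod m)ˣ ↦ ¬ n ∣ orderOf b) ⊆
      n.primeFactors.biUnion B := by
    intro b hb
    simp only [Finset.mem_filter, Finset.mem_univ, true_and] at hb
    have hb0 : orderOf b ≠ 0 := (orderOf_pos b).ne'
    rw [← Nat.factorization_le_iff_dvd hn hb0, Finsupp.le_def] at hb
    push Not at hb
    obtain ⟨q, hq⟩ := hb
    have hqmem : q ∈ n.primeFactors := by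
      rw [← Nat.support_factorization, Finsupp.mem_support_iff]
      omega
    have hqp := Nat.prime_of_mem_primeFactors hqmem
    refine Finset.mem_biUnion.mpr ⟨q, hqmem, Finset.mem_filter.mpr ⟨Finset.mem_univ _, ?_⟩⟩
    have hord : orderOf b ∣ m - 1 := by
      rw [← ZMod.card_units m]
      exact orderOf_dvd_card
    have hkey : orderOf b * q ^ k ∣ m - 1 := by
      rw [← Nat.factorization_le_iff_dvd (mul_ne_zero hb0 (pow_ne_zero _ hqp.ne_zero)) hm1,
        Finsupp.le_def]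
      intro l
      have h1 := Finsupp.le_def.mp ((Nat.factorization_le_iff_dvd hb0 hm1).mpr hord) l
      have h2 := Finsupp.le_def.mp
        ((Nat.factorization_le_iff_dvd (pow_ne_zero _ hn) hm1).mpr hdvd) l
      simp only [Nat.factorization_pow, Finsupp.smul_apply, smul_eq_mul] at h2
      rw [Nat.factorization_mul hb0 (pow_ne_zero _ hqp.ne_zero), Finsupp.add_apply,
        hqp.factorization_pow]
      rcases eq_or_ne l q with rfl | hlq
      · rw [Finsupp.single_eq_same]
        have : k ≤ k * n.factorization l := Nat.le_mul_of_pos_right k (by omega)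
        rw [add_mul, one_mul] at h2
        omega
      · rw [Finsupp.single_eq_of_ne hlq, add_zero]
        exact h1
    obtain ⟨c, hc⟩ := hkey
    have hdiv : (m - 1) / q ^ k = orderOf b * c := by
      rw [hc, mul_right_comm, Nat.mul_div_cancel _ (pow_pos hqp.pos k)]
    rw [hdiv, pow_mul, pow_orderOf_eq_one, one_pow]
  have hB : ∀ q ∈ n.primeFactors, (B q).card * 2 ^ k ≤ m - 1 := by
    intro q hq
    have hqp := Nat.prime_of_mem_primeFactors hq
    have hqk : q ^ k ∣ m - 1 := ((pow_dvd_pow_of_dvd (Nat.dvd_of_mem_primeFactors hq) k).trans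
      (pow_dvd_pow n k.le_succ)).trans hdvd
    refine le_trans (Nat.mul_le_mul (IsCyclic.card_pow_eq_one_le (Nat.div_pos
      (Nat.le_of_dvd (Nat.pos_of_ne_zero hm1) hqk) (pow_pos hqp.pos k)))
      (Nat.pow_le_pow_left hqp.two_le k)) ?_
    rw [Nat.div_mul_cancel hqk]
  rw [Nat.card_eq_fintype_card, Fintype.card_subtype]
  calc _ ≤ (∑ q ∈ n.primeFactors, (B q).card) * 2 ^ k :=
        Nat.mul_le_mul_right _ ((Finset.card_le_card hsub).trans Finset.card_biUnion_le)
    _ = ∑ q ∈ n.primeFactors, (B q).card * 2 ^ k := Finset.sum_mul _ _ _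
    _ ≤ ∑ _q ∈ n.primeFactors, (m - 1) := Finset.sum_le_sum hB
    _ ≤ _ := by
      rw [Finset.sum_const, smul_eq_mul]
      refine Nat.mul_le_mul_right _ ?_
      refine (Finset.card_le_card (t := Finset.Icc 1 n) fun q hq ↦ ?_).trans (by simp)
      rw [Finset.mem_Icc]
      exact ⟨(Nat.prime_of_mem_primeFactors hq).one_lt.le,
        Nat.le_of_mem_primeFactors hq⟩

/-- A Galois field containing `F` and a primitive root of unity of prime order `m`, such that
elements of the Galois group are determined by their restriction to `F` and the cyclotomic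
character, which is surjective. -/
lemma exists_crossing_field (F : IntermediateField ℚ Qbar) [FiniteDimensional ℚ F] [Normal ℚ F]
    {m : ℕ} (hm : m.Prime) :
    ∃ (N : IntermediateField ℚ Qbar) (_ : FiniteDimensional ℚ N) (_ : Normal ℚ N),
      haveI : NeZero m := ⟨hm.ne_zero⟩
      F ≤ N ∧ ∃ (ζ : N) (hζ : IsPrimitiveRoot ζ m), Function.Surjective (hζ.autToPow ℚ) ∧
        ∀ σ : Γℚ, σ ∈ F.fixingSubgroup →
          hζ.autToPow ℚ (AlgEquiv.restrictNormalHom N σ) = 1 → σ ∈ N.fixingSubgroup := by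
  have : NeZero m := ⟨hm.ne_zero⟩
  have : Normal ℚ Qbar := normal_qbar
  have : NeZero (m : Qbar) := ⟨Nat.cast_ne_zero.mpr hm.ne_zero⟩
  obtain ⟨z, hz⟩ := HasEnoughRootsOfUnity.exists_primitiveRoot Qbar m
  let E : IntermediateField ℚ Qbar := IntermediateField.adjoin ℚ {z}
  have hint : IsIntegral ℚ z := (hz.isIntegral hm.pos).tower_top
  have : FiniteDimensional ℚ E := IntermediateField.adjoin.finiteDimensional hint
  have : IsCyclotomicExtension {m} ℚ E := hz.intermediateField_adjoin_isCyclotomicExtension ℚ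
  have : IsGalois ℚ E := IsCyclotomicExtension.isGalois {m} ℚ E
  have : Normal ℚ E := IsGalois.to_normal
  have : Normal ℚ ↥(F ⊔ E) := @IntermediateField.normal_sup ℚ Qbar _ _ _ F E ‹Normal ℚ F› ‹Normal ℚ E›
  have hzN : z ∈ F ⊔ E := (le_sup_right : E ≤ F ⊔ E) (IntermediateField.mem_adjoin_simple_self ℚ z)
  refine ⟨F ⊔ E, inferInstance, inferInstance, le_sup_left, ⟨z, hzN⟩, ?_⟩
  have hζ : IsPrimitiveRoot (⟨z, hzN⟩ : ↥(F ⊔ E)) m :=
    IsPrimitiveRoot.of_map_of_injective (f := (F ⊔ E).val) hz Subtype.val_injective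
  refine ⟨hζ, fun b ↦ ?_, fun σ hσ hκ ↦ ?_⟩
  · have hcop : (b : ZMod m).val.Coprime m := ZMod.val_coe_unit_coprime b
    have hb := hz.pow_of_coprime _ hcop
    obtain ⟨σ, hσ⟩ := minpoly.exists_algEquiv_of_root' hint.isAlgebraic (x := z ^ (b : ZMod m).val)
      (by
        rw [← Polynomial.cyclotomic_eq_minpoly_rat hz hm.pos, Polynomial.aeval_def,
          Polynomial.eval₂_eq_eval_map, Polynomial.map_cyclotomic]
        exact hb.isRoot_cyclotomic hm.pos)
    refine ⟨AlgEquiv.restrictNormalHom _ σ, Units.ext ?_⟩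
    have h1 := congrArg Subtype.val (hζ.autToPow_spec ℚ (AlgEquiv.restrictNormalHom _ σ))
    rw [← apply_coe_eq] at h1
    change z ^ _ = σ z at h1
    rw [hσ] at h1
    have h2 := hz.pow_inj (ZMod.val_lt _) (ZMod.val_lt _) h1
    exact ZMod.val_injective m h2
  · have h1 := congrArg Subtype.val (hζ.autToPow_spec ℚ (AlgEquiv.restrictNormalHom _ σ))
    rw [hκ, ← apply_coe_eq] at h1
    change z ^ _ = σ z at h1
    have : Fact (1 < m) := ⟨hm.one_lt⟩
    rw [Units.val_one, ZMod.val_one, pow_one] at h1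
    rw [IntermediateField.fixingSubgroup_sup, Subgroup.mem_inf]
    refine ⟨hσ, ?_⟩
    rw [← Subgroup.zpowers_le, ← IntermediateField.le_iff_le,
      IntermediateField.adjoin_simple_le_iff]
    rintro ⟨τ, n, rfl⟩
    exact MulAction.mem_stabilizer_iff.mp
      (zpow_mem (MulAction.mem_stabilizer_iff.mpr (show σ • z = z from h1.symm)) n)

/-- Chebotarev's density theorem: lower bound for the Dirichlet density. -/
theorem exists_frobSet_density (F : IntermediateField ℚ Qbar) [FiniteDimensional ℚ F] [Normal ℚ F]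
    (C : Set (F ≃ₐ[ℚ] F)) (hC : ∀ c ∈ C, ∀ g : F ≃ₐ[ℚ] F, g * c * g⁻¹ ∈ C) (S : Finset ℕ)
    {δ : ℝ} (hδ : 0 < δ) :
    ∃ B : ℝ, ∀ s ∈ Set.Ioc (1 : ℝ) 2,
      ((C.ncard : ℝ) / Nat.card (F ≃ₐ[ℚ] F) - δ) * -Real.log (s - 1) - B ≤
        ∑' p : frobSet F {σ | AlgEquiv.restrictNormalHom F σ ∈ C} S, ((p.1 : ℕ) : ℝ) ^ (-s) := by
  classical
  have : Normal ℚ Qbar := normal_qbar
  set n := Nat.card (F ≃ₐ[ℚ] F) with hndef
  have hn : n ≠ 0 := Nat.card_pos.ne'
  obtain ⟨k, hk⟩ := pow_unbounded_of_one_lt ((n : ℝ) ^ 2 / δ) (one_lt_two (α := ℝ))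
  obtain ⟨m, hm, -, hmod⟩ := Nat.exists_prime_gt_modEq_one 0 (pow_ne_zero (k + 1) hn)
  have := Fact.mk hm
  have : NeZero m := ⟨hm.ne_zero⟩
  have hdvd : n ^ (k + 1) ∣ m - 1 := (Nat.modEq_iff_dvd' hm.one_lt.le).mp hmod.symm
  obtain ⟨N, _, _, hFN, ζ, hζ, hsurj, hfaith⟩ := exists_crossing_field F hm
  have : NumberField N := { to_finiteDimensional := inferInstance }
  have : IsGalois ℚ N := ⟨⟩
  set κ := hζ.autToPow ℚ
  -- restriction to `F`
  let resN := AlgEquiv.restrictNormalHom (F := ℚ) (K₁ := Qbar) N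
  have hresN : Function.Surjective resN := AlgEquiv.restrictNormalHom_surjective (F := ℚ) (E := Qbar)
  let resF := AlgEquiv.restrictNormalHom (F := ℚ) (K₁ := Qbar) F
  have hresF : Function.Surjective resF := AlgEquiv.restrictNormalHom_surjective (F := ℚ) (E := Qbar)
  have hkN : resN.ker = N.fixingSubgroup := @IntermediateField.restrictNormalHom_ker ℚ Qbar _ _ _ N ‹Normal ℚ N›
  have hkF : resF.ker = F.fixingSubgroup := @IntermediateField.restrictNormalHom_ker ℚ Qbar _ _ _ F ‹Normal ℚ F›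
  have hker : resN.ker ≤ resF.ker := by
    rw [hkN, hkF]
    exact IntermediateField.fixingSubgroup_antitone hFN
  let res : Gal(N/ℚ) →* (F ≃ₐ[ℚ] F) := MonoidHom.liftOfSurjective resN hresN ⟨resF, hker⟩
  have hres : ∀ σ, res (resN σ) = resF σ := MonoidHom.liftOfRightInverse_comp_apply _ _ _ _
  have hressurj : Function.Surjective res := fun g ↦ by
    obtain ⟨σ, rfl⟩ := hresF g
    exact ⟨resN σ, hres σ⟩
  have hpair : ∀ g, res g = 1 → κ g = 1 → g = 1 := by
    intro g h1 h2
    obtain ⟨σ, rfl⟩ := hresN g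
    rw [hres, ← MonoidHom.mem_ker, hkF] at h1
    rw [← MonoidHom.mem_ker, hkN]
    exact hfaith σ h1 h2
  -- elements of the Galois group with injective cyclotomic character
  let T : Finset Gal(N/ℚ) := Finset.univ.filter fun τ ↦ res τ ∈ C ∧ n ∣ orderOf (κ τ)
  have hinj : ∀ τ ∈ T, ∀ u ∈ Subgroup.zpowers τ, κ u = 1 → u = 1 := by
    rintro τ hτ u ⟨j, rfl⟩ hu
    refine hpair _ ?_ hu
    rw [map_zpow, ← orderOf_dvd_iff_zpow_eq_one]
    rw [map_zpow, ← orderOf_dvd_iff_zpow_eq_one] at hu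
    exact ((Int.natCast_dvd_natCast.mpr (orderOf_dvd_natCard (res τ))).trans
      (Int.natCast_dvd_natCast.mpr (Finset.mem_filter.mp hτ).2.2)).trans hu
  -- size of `T`
  set G := Nat.card Gal(N/ℚ) with hG
  have hG0 : (0 : ℝ) < G := Nat.cast_pos.mpr Nat.card_pos
  have hTcard : ((C.ncard : ℝ) / n - δ) * G ≤ T.card := by
    have hfull : C.ncard * G = n * (Finset.univ.filter fun τ ↦ res τ ∈ C).card := by
      have hfib : ∀ c ∈ C.toFinset,
          (Finset.univ.filter fun τ ↦ res τ = c).card = Nat.card res.ker := by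
        intro c _
        obtain ⟨τ₀, rfl⟩ := hressurj c
        rw [← Fintype.card_subtype, ← Nat.card_eq_fintype_card]
        refine Nat.card_congr ((Equiv.mulRight τ₀⁻¹).subtypeEquiv fun a ↦ ?_)
        rw [MonoidHom.mem_ker]
        simp [mul_inv_eq_one]
      have hsum : (Finset.univ.filter fun τ ↦ res τ ∈ C).card = C.ncard * Nat.card res.ker := by
        rw [Finset.card_eq_sum_card_fiberwise (f := res) (t := C.toFinset) fun τ hτ ↦ by
          simpa using (Finset.mem_filter.mp hτ).2]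
        rw [Finset.sum_congr rfl (g := fun _ ↦ Nat.card res.ker) fun c hc ↦ ?_, Finset.sum_const,
          smul_eq_mul, Set.ncard_eq_toFinset_card']
        rw [Finset.filter_filter, ← hfib c hc]
        congr 1
        exact Finset.filter_congr fun τ _ ↦
          ⟨fun h ↦ h.2, fun h ↦ ⟨h.symm ▸ Set.mem_toFinset.mp hc, h⟩⟩
      rw [hsum, hG, ← Subgroup.index_mul_card res.ker, Subgroup.index_ker,
        MonoidHom.range_eq_top_of_surjective res hressurj, Subgroup.card_top, ← hndef]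
      ring
    have hbad : (Finset.univ.filter fun τ : Gal(N/ℚ) ↦ ¬ n ∣ orderOf (κ τ)).card * 2 ^ k ≤
        n * n * G := by
      refine le_trans (Nat.mul_le_mul_right _ ?_) ?_ (b := n * Nat.card {b : (ZMod m)ˣ // ¬ n ∣ orderOf b} * 2 ^ k)
      · rw [← Fintype.card_subtype, ← Nat.card_eq_fintype_card, hndef, ← Nat.card_prod]
        refine Nat.card_le_card_of_injective (fun τ ↦ (res τ.1, ⟨κ τ.1, τ.2⟩)) fun a b hab ↦ ?_
        rw [Prod.mk.injEq, Subtype.mk.injEq] at hab
        refine Subtype.ext (mul_inv_eq_one.mp (hpair _ ?_ ?_))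
        · rw [map_mul, map_inv, hab.1, mul_inv_cancel]
        · rw [map_mul, map_inv, hab.2, mul_inv_cancel]
      · rw [mul_assoc, mul_assoc]
        refine Nat.mul_le_mul_left _ ((card_not_dvd_orderOf_le hn hdvd).trans ?_)
        refine Nat.mul_le_mul_left _ ?_
        rw [← ZMod.card_units m, ← Nat.card_eq_fintype_card]
        exact Nat.card_le_card_of_surjective κ hsurj
    have hsplit : (Finset.univ.filter fun τ ↦ res τ ∈ C).card ≤
        T.card + (Finset.univ.filter fun τ : Gal(N/ℚ) ↦ ¬ n ∣ orderOf (κ τ)).card := by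
      refine le_trans (Finset.card_le_card fun τ hτ ↦ ?_) (Finset.card_union_le _ _)
      simp only [T, Finset.mem_union, Finset.mem_filter, Finset.mem_univ, true_and] at hτ ⊢
      tauto
    set f := (Finset.univ.filter fun τ ↦ res τ ∈ C).card
    set b := (Finset.univ.filter fun τ : Gal(N/ℚ) ↦ ¬ n ∣ orderOf (κ τ)).card
    have h1 : (C.ncard : ℝ) * G = n * f := by exact_mod_cast hfull
    have h2 : (b : ℝ) * 2 ^ k ≤ (n : ℝ) * n * G := by exact_mod_cast hbad
    have h3 : (f : ℝ) ≤ T.card + b := by exact_mod_cast hsplit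
    have h4 : (b : ℝ) ≤ δ * G := by
      rw [div_lt_iff₀ hδ] at hk
      have h2k : (0 : ℝ) < 2 ^ k := pow_pos two_pos k
      refine le_of_mul_le_mul_right (h2.trans ?_) h2k
      nlinarith [mul_le_mul_of_nonneg_right hk.le hG0.le]
    have h5 : (C.ncard : ℝ) / n * G = f := by
      rw [div_mul_eq_mul_div, h1, mul_div_cancel_left₀ _ (Nat.cast_ne_zero.mpr hn)]
    rw [sub_mul, h5]
    linarith
  -- a choice of Frobenius elements
  choose! A hA using fun (p : ℕ) (hp : p.Prime) ↦ exists_liesOverPrime hp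
  choose! φ hφ using fun (p : ℕ) (hp : p.Prime) ↦ exists_isFrobeniusAt hp (hA p hp)
  let Fr : FrobChoice N :=
    { toFun := fun p ↦ resN (φ p)
      spec := fun p hp _ ↦ ⟨centreIn N (A p), inferInstance, natCast_mem_centreIn N (hA p hp),
        isArithFrobAt_restrict N hp (hA p hp) (hφ p hp)⟩ }
  set P := frobSet F {σ | AlgEquiv.restrictNormalHom F σ ∈ C} S with hP
  have hgood : ∀ p : Nat.Primes, (p : ℕ) ∉ badPrimes N 1 ∪ S → ∀ τ ∈ T,
      Fr.count {τ} p ≠ 0 → p ∈ P := by
    intro p hp τ hτ hne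
    rw [Finset.mem_union, not_or] at hp
    have hd := (notMem_badPrimes one_ne_zero p.2 hp.1).1
    rw [FrobChoice.count, if_neg p.2.ne_zero, Nat.cast_ne_zero, Nat.card_ne_zero] at hne
    obtain ⟨⟨g, hg⟩⟩ := hne.1
    refine ⟨hp.2, A p, hA p p.2, (inertia_le_fixingSubgroup_of_not_dvd_discr N p.2 hd
      (hA p p.2)).trans (IntermediateField.fixingSubgroup_antitone hFN), φ p, hφ p p.2, ?_⟩
    show resF (φ p) ∈ C
    have h1 := hC _ (Finset.mem_filter.mp hτ).2.1 (res g)
    rw [← Set.mem_singleton_iff.mp hg, map_mul, map_mul, map_inv, ← hres] at *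
    simpa [Fr, mul_assoc] using h1
  -- the asymptotic count
  set c : ℕ → ℂ := fun i ↦ ∑ τ ∈ T, (1 : ℂ) * Fr.count {τ} i with hc
  have hsum : BddNear (fun s ↦ primeSum c s - (T.card : ℂ) * (logInv s : ℂ)) := by
    refine (Asymptotics.IsBigO.sum fun τ hτ ↦ bddNear_crossing hζ Fr τ (hinj τ hτ)).congr' ?_ .rfl
    filter_upwards [self_mem_nhdsWithin] with s (hs : 1 < s)
    rw [primeSum_sum _ _ _ (fun τ ↦ Fr.bddCoeff_count _) hs, Finset.sum_apply,
      Finset.sum_sub_distrib, Finset.sum_const, nsmul_eq_mul]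
    simp
  have hcG : ∀ p : Nat.Primes, (c p).re ≤ G := by
    intro p
    have : c p = ((∑ τ ∈ T, Nat.card {g : Gal(N/ℚ) // g⁻¹ * Fr.toFun p * g ∈ ({τ} : Set _)} : ℕ) : ℂ) := by
      simp [hc, FrobChoice.count, p.2.ne_zero]
    rw [this, Complex.natCast_re]
    have : ∑ τ ∈ T, Nat.card {g : Gal(N/ℚ) // g⁻¹ * Fr.toFun p * g ∈ ({τ} : Set _)} ≤ G := by
      simp only [Set.mem_singleton_iff, Nat.card_eq_fintype_card, Fintype.card_subtype, hG]
      rw [← Finset.card_univ, Finset.card_eq_sum_card_fiberwise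
        (f := fun g : Gal(N/ℚ) ↦ g⁻¹ * Fr.toFun p * g) (t := Finset.univ) (by simp)]
      exact Finset.sum_le_sum_of_subset (Finset.subset_univ _)
    exact_mod_cast this
  obtain ⟨D, hD⟩ := bddNear_iff.mp hsum
  obtain ⟨u, hu, hDu⟩ := mem_nhdsGT_iff_exists_Ioo_subset.mp hD
  rw [Set.mem_Ioi] at hu
  set bad : Finset Nat.Primes := (badPrimes N 1 ∪ S).subtype Nat.Prime with hbaddef
  set coef := (C.ncard : ℝ) / n - δ with hcoef
  refine ⟨D / G + bad.card + |coef| * |Real.log (u - 1)|, fun s hs ↦ ?_⟩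
  have hnn : ∀ p : Nat.Primes, (0 : ℝ) ≤ ((p : ℕ) : ℝ) ^ (-s) := fun p ↦ by positivity
  have hsumm : Summable (fun p : Nat.Primes ↦ ((p : ℕ) : ℝ) ^ (-s)) :=
    Nat.Primes.summable_rpow.mpr (by linarith [hs.1])
  have htot0 : 0 ≤ ∑' p : P, ((p.1 : ℕ) : ℝ) ^ (-s) := tsum_nonneg fun p ↦ hnn p.1
  have hu0 : 0 ≤ |coef| * |Real.log (u - 1)| := by positivity
  have hlog0 : 0 ≤ -Real.log (s - 1) :=
    neg_nonneg.mpr (Real.log_nonpos (by linarith [hs.1]) (by linarith [hs.2]))
  have hDnn : 0 ≤ D / G := by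
    refine div_nonneg ?_ hG0.le
    exact (norm_nonneg _).trans (hDu (show (1 + u) / 2 ∈ Set.Ioo 1 u by constructor <;> linarith))
  rcases lt_or_ge s u with hsu | hsu
  · have h1 : ‖primeSum c s - (T.card : ℂ) * (logInv s : ℂ)‖ ≤ D := hDu ⟨hs.1, hsu⟩
    have h2 : (primeSum c s).re ≤ G * ∑' p : P, ((p.1 : ℕ) : ℝ) ^ (-s) + G * bad.card := by
      have hcb : BddCoeff c := by
        choose B hB using fun τ : Gal(N/ℚ) ↦ Fr.bddCoeff_count {τ}
        exact ⟨∑ τ ∈ T, B τ, fun p ↦ (norm_sum_le _ _).trans (Finset.sum_le_sum fun τ _ ↦ by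
          rw [one_mul]; exact hB τ p)⟩
      have hcs := summable_primeTerm hcb hs.1
      have hterm : ∀ p : Nat.Primes, (term c s p).re = (c p).re * ((p : ℕ) : ℝ) ^ (-s) := fun p ↦ by
        simp [term]
      let g₁ : Nat.Primes → ℝ := P.indicator fun p ↦ (G : ℝ) * ((p : ℕ) : ℝ) ^ (-s)
      let g₂ : Nat.Primes → ℝ := fun p ↦ if p ∈ bad then (G : ℝ) else 0
      have hg₁ : Summable g₁ := (hsumm.mul_left _).indicator _
      have hg₂ : Summable g₂ := summable_of_ne_finset_zero fun p hp ↦ if_neg hp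
      rw [primeSum, Complex.re_tsum hcs]
      refine ((Complex.hasSum_re hcs.hasSum).summable.tsum_le_tsum (fun p ↦ ?_) (hg₁.add hg₂)).trans
        (le_of_eq ?_)
      · rw [hterm]
        by_cases hpP : p ∈ P
        · have h₂ : 0 ≤ g₂ p := by simp only [g₂]; split_ifs <;> positivity
          simp only [g₁, Set.indicator_of_mem hpP]
          exact (mul_le_mul_of_nonneg_right (hcG p) (hnn p)).trans (le_add_of_nonneg_right h₂)
        simp only [g₁, g₂, Set.indicator_of_notMem hpP, zero_add]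
        split_ifs with hpb
        · refine (mul_le_mul_of_nonneg_right (hcG p) (hnn p)).trans
            (mul_le_of_le_one_right hG0.le ?_)
          exact Real.rpow_le_one_of_one_le_of_nonpos (by exact_mod_cast p.2.one_lt.le)
            (by linarith [hs.1])
        · have : c p = 0 := Finset.sum_eq_zero fun τ hτ ↦ by
            rw [one_mul]
            by_contra hne
            exact hpP (hgood p (fun h ↦ hpb (Finset.mem_subtype.mpr h)) τ hτ hne)
          simp [this]
      · rw [hg₁.tsum_add hg₂]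
        congr 1
        · rw [← tsum_mul_left, ← tsum_subtype P fun p ↦ (G : ℝ) * ((p : ℕ) : ℝ) ^ (-s)]
        · rw [tsum_eq_sum (f := g₂) (s := bad) fun p hp ↦ if_neg hp,
            Finset.sum_congr rfl (g := fun _ ↦ (G : ℝ)) fun p hp ↦ (if_pos hp : g₂ p = _),
            Finset.sum_const, nsmul_eq_mul, mul_comm]
    have h3 : (T.card : ℝ) * -Real.log (s - 1) - D ≤ (primeSum c s).re := by
      have := (abs_le.mp ((Complex.abs_re_le_norm _).trans h1)).1
      simp only [logInv, Complex.sub_re, Complex.mul_re, Complex.natCast_re, Complex.natCast_im,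
        Complex.ofReal_re, Complex.ofReal_im, zero_mul, sub_zero] at this
      linarith
    have h4 : coef * G * -Real.log (s - 1) ≤ T.card * -Real.log (s - 1) :=
      mul_le_mul_of_nonneg_right hTcard hlog0
    refine le_of_mul_le_mul_left ?_ hG0
    have h5 : (G : ℝ) * (D / G) = D := mul_div_cancel₀ D hG0.ne'
    have h6 : 0 ≤ (G : ℝ) * (|coef| * |Real.log (u - 1)|) := mul_nonneg hG0.le hu0
    nlinarith [mul_nonneg hG0.le (Nat.cast_nonneg (α := ℝ) bad.card)]
  · have hsu' : -Real.log (s - 1) ≤ |Real.log (u - 1)| :=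
      (neg_le_neg (Real.log_le_log (by linarith) (by linarith))).trans (neg_le_abs _)
    have h7 : coef * -Real.log (s - 1) ≤ |coef| * |Real.log (u - 1)| :=
      (mul_le_mul_of_nonneg_right (le_abs_self coef) hlog0).trans
        (mul_le_mul_of_nonneg_left hsu' (abs_nonneg _))
    linarith [Nat.cast_nonneg (α := ℝ) bad.card]

/-- For a finite Galois extension and a nonempty conjugation stable set, some prime outside a
finite set has Frobenius in the set. -/
theorem frobSet_nonempty (F : IntermediateField ℚ Qbar) [FiniteDimensional ℚ F] [Normal ℚ F]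
    (C : Set (F ≃ₐ[ℚ] F)) (hC : ∀ c ∈ C, ∀ g : F ≃ₐ[ℚ] F, g * c * g⁻¹ ∈ C) (hne : C.Nonempty)
    (S : Finset ℕ) : (frobSet F {σ | AlgEquiv.restrictNormalHom F σ ∈ C} S).Nonempty := by
  by_contra hempty
  rw [Set.not_nonempty_iff_eq_empty] at hempty
  have hpos : (0 : ℝ) < (C.ncard : ℝ) / Nat.card (F ≃ₐ[ℚ] F) :=
    div_pos (Nat.cast_pos.mpr (hne.ncard_pos)) (Nat.cast_pos.mpr Nat.card_pos)
  obtain ⟨B, hB⟩ := exists_frobSet_density F C hC S (half_pos hpos)
  obtain ⟨s, hs, hs'⟩ := ((Filter.eventually_of_mem (Ioc_mem_nhdsGT (one_lt_two (α := ℝ)))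
    fun _ h ↦ h).and (tendsto_logInv.eventually_gt_atTop
      (B / ((C.ncard : ℝ) / Nat.card (F ≃ₐ[ℚ] F) / 2)))).exists
  have h := hB s hs
  rw [hempty, tsum_empty] at h
  rw [logInv, div_lt_iff₀ (half_pos hpos)] at hs'
  linarith

/-- Chebotarev, existence form: every element of the Galois group agrees on a given number field
with a Frobenius element at a prime outside a given finite set. -/
theorem exists_frobenius_eqOn (L : IntermediateField ℚ Qbar) [FiniteDimensional ℚ L] (σ : Γℚ)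
    (S : Finset ℕ) : ∃ l : ℕ, l.Prime ∧ l ∉ S ∧ ∃ A : ValuationSubring Qbar,
      A.LiesOverPrime l ∧ A.inertiaSubgroupIn ℚ ≤ L.fixingSubgroup ∧
        ∃ φ : Γℚ, A.IsFrobeniusAt φ l ∧ ∀ x ∈ L, φ x = σ x := by
  have : Normal ℚ Qbar := normal_qbar
  let F := IntermediateField.normalClosure ℚ L Qbar
  have : Normal ℚ F := normalClosure.normal ℚ L Qbar
  have : FiniteDimensional ℚ F := normalClosure.is_finiteDimensional ℚ L Qbar
  let r := AlgEquiv.restrictNormalHom (F := ℚ) (K₁ := Qbar) F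
  let C : Set (F ≃ₐ[ℚ] F) := {c | IsConj (r σ) c}
  have hC : ∀ c ∈ C, ∀ g, g * c * g⁻¹ ∈ C := fun c hc g ↦
    IsConj.trans hc (isConj_iff.mpr ⟨g, rfl⟩)
  obtain ⟨p, hpS, A, hA, hI, φ, hφ, hφC⟩ := frobSet_nonempty F C hC ⟨_, IsConj.refl _⟩ S
  obtain ⟨g, hg⟩ := isConj_iff.mp (show IsConj (r σ) (r φ) from hφC)
  obtain ⟨τ, rfl⟩ := AlgEquiv.restrictNormalHom_surjective (F := ℚ) (E := Qbar) g
  have hnorm : (F.fixingSubgroup).Normal := by
    rw [← IntermediateField.restrictNormalHom_ker]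
    infer_instance
  refine ⟨p, p.2, hpS, τ⁻¹ • A, liesOverPrime_smul hA _, ?_, τ⁻¹ * φ * τ⁻¹⁻¹,
    isFrobeniusAt_conj p.2.pos hφ _, ?_⟩
  · intro ι hι
    have h := hI (by simpa using inertiaSubgroupIn_conj hι τ)
    have h2 := hnorm.conj_mem _ h τ⁻¹
    simp only [mul_assoc, inv_mul_cancel, mul_one, inv_mul_cancel_left, inv_inv] at h2
    exact IntermediateField.fixingSubgroup_antitone L.le_normalClosure h2
  · intro x hx
    have h1 : r (τ⁻¹ * φ * τ⁻¹⁻¹) = r σ := by
      simp only [map_mul, map_inv, inv_inv]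
      rw [show r φ = r τ * r σ * (r τ)⁻¹ from hg.symm]
      group
    have h2 := congrArg (fun e : F ≃ₐ[ℚ] F ↦ ((e ⟨x, L.le_normalClosure hx⟩ : F) : Qbar)) h1
    simp only [r, ← apply_coe_eq] at h2
    exact h2

/-- Chebotarev, existence form for representations of finite level. -/
theorem exists_frobenius_of_factorsThroughFiniteLevel {M : Type} [Group M] (ρ : Γℚ →* M)
    (h : GaloisFactorsThroughFiniteLevel ρ) (σ : Γℚ) (S : Finset ℕ) :
    ∃ l : ℕ, l.Prime ∧ l ∉ S ∧ ∃ A : ValuationSubring Qbar,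
      A.LiesOverPrime l ∧ (∀ ι ∈ A.inertiaSubgroupIn ℚ, ρ ι = 1) ∧
        ∃ φ : Γℚ, A.IsFrobeniusAt φ l ∧ ρ φ = ρ σ := by
  obtain ⟨L, hL, hker⟩ := h
  obtain ⟨l, hl, hlS, A, hA, hI, φ, hφ, hφσ⟩ := exists_frobenius_eqOn L σ S
  refine ⟨l, hl, hlS, A, hA, fun ι hι ↦
    hker ι ((IntermediateField.mem_fixingSubgroup_iff L ι).mp (hI hι)), φ, hφ, ?_⟩
  have h1 : ρ (σ⁻¹ * φ) = 1 := hker _ fun x hx ↦ by
    rw [AlgEquiv.mul_apply, hφσ x hx]
    exact σ.symm_apply_apply x
  rwa [map_mul, map_inv, inv_mul_eq_one, eq_comm] at h1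

end FLTAgent.Chebotarev
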